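/-
MLT / [L2-JL] (helper7), **the abelian part: statements**.

Setting: `𝔓 | q` an `FFPlace` (`q = 𝔓.p`), `K` a level with `q ∤ K`, `p ≠ q` a prime, `L = ℚ̄^I` the inertia
field (`tbFix 𝔓 ⊤`), `F = tbLevF 𝔓 (K q q) ⊤` the function field of `X₀(K q²)` over `L`,
`E = tbBarF 𝔓 K` the function field of `X₀(K)` over `k = 𝔽̄_q`.  The model of T4 has three vertical
components `inf, mid, 0`, each a copy of `X₀(K)_k`; `D = t4niAFix 𝔓 K hK hζ p` are the three valuations,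
`B = t4niBFix 𝔓 K hK hζ p hp0 hpq` the three residue maps `rinf, rmid, r0 : D.U → Eˣ` on the group
`D.U` of units at the three valuations.

* `MltL2AbTriv` : the three residues of `y ∈ D.U` are `p`-th powers (constants are `p`-th powers,
  `k` being algebraically closed);
* `MltL2AbAt`   : **the abelian part**: a Kummer function `y ∈ D.U` (exponent `p`) whose class in
  `J₀(K q²)[p]` lies in the `W`-eigenspace and whose three residues are NOT all `p`-th powers forces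
  residual modularity of the level `K q` (in fact `K`);
* the three inputs of its proof:
  `MltL2AbDivAt`   (a) the divisors of the three residues are divisible by `p`
                       (local: the T4 charts are regular, `y` is a unit at the three valuations);
  `MltL2AbHeckeAt` (b) the three residue maps intertwine `T_ℓ^fun` and `T̃_ℓ` up to constants;
  `MltL2AbCmpAt`   (c) = (B3): a function of `E` with `p`-divisible divisor which is a `T̃_ℓ`-eigenfunction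
                       modulo constants and `p`-th powers with the eigenvalues of `W` and is not a constant
                       times a `p`-th power forces residual modularity of the level `K q` (owner: helper5).
-/
import Mathlib
import Fermat.Prelude.Def_FLTPrelim_ModularRep
import Fermat.Agent.Lib.T4.New.InstFix
import Fermat.Agent.Lib.Delta.Wire.EigenSpace

set_option autoImplicit false
set_option linter.unusedSectionVars false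
set_option linter.unusedVariables false
set_option linter.style.haveILetI false
set_option synthInstance.maxHeartbeats 400000

open WeierstrassCurve

namespace Fermat.Agent.MLT

open ModularCurve HahnSeries Fermat.Agent.T1 Fermat.Agent.T2 Fermat.Agent.T4 Fermat.Agent.TW
  Fermat.Agent.Delta Fermat.Agent.T3 Fermat.Agent.Alpha AlgebraicCurve Fermat.Agent.Curve

local notation "Qb" => AlgebraicClosure ℚ
local notation "GQ" => (AlgebraicClosure ℚ ≃ₐ[ℚ] AlgebraicClosure ℚ)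

noncomputable section

section Defs

variable (𝔓 : FFPlace) (K : ℕ) [NeZero K] (hK : ¬ 𝔓.p ∣ K) {ζ : Qb}
  (hζ : IsPrimitiveRoot ζ 𝔓.p) (p : ℕ) (hp0 : p ≠ 0) (hpq : Nat.Coprime p 𝔓.p)

/-- the image over `ℚ̄` of a unit of the function field of level `N` over the inertia field -/
def mltl2PhiU (N : ℕ) [NeZero N] : (↥(tbLevF 𝔓 N ⊤))ˣ →* (↥(modularFunctionFieldBar N))ˣ :=
  Units.map ((tbPhiF 𝔓 N ⊤ : ↥(tbLevF 𝔓 N ⊤) →+* ↥(modularFunctionFieldBar N)) :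
    ↥(tbLevF 𝔓 N ⊤) →* ↥(modularFunctionFieldBar N))

theorem coe_mltl2PhiU (N : ℕ) [NeZero N] (y : (↥(tbLevF 𝔓 N ⊤))ˣ) :
    ((mltl2PhiU 𝔓 N y : (↥(modularFunctionFieldBar N))ˣ) : ↥(modularFunctionFieldBar N)) =
      tbPhiF 𝔓 N ⊤ (y : ↥(tbLevF 𝔓 N ⊤)) := rfl

/-- **the three residues of `y` are `p`-th powers** -/
def MltL2AbTriv (y : ↥(t4niAFix 𝔓 K hK hζ p).U) : Prop :=
  (∃ t : (↥(tbBarF 𝔓 K))ˣ, (t4niBFix 𝔓 K hK hζ p hp0 hpq).rinf y = t ^ p) ∧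
  (∃ t : (↥(tbBarF 𝔓 K))ˣ, (t4niBFix 𝔓 K hK hζ p hp0 hpq).rmid y = t ^ p) ∧
  (∃ t : (↥(tbBarF 𝔓 K))ˣ, (t4niBFix 𝔓 K hK hζ p hp0 hpq).r0 y = t ^ p)

/-- **[L2-Ab] the abelian part** at `(𝔓, K, p, W)`: a Kummer function `y` of exponent `p` over the
inertia field which is a unit at the three vertical valuations, whose class lies in the `W`-eigenspace
of `J₀(K q²)[p]`, and whose three residues are not all `p`-th powers, forces residual modularity of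
the level `K q` -/
def MltL2AbAt (W : WeierstrassCurve ℤ) : Prop :=
  ∀ (y : ↥(t4niAFix 𝔓 K hK hζ p).U)
    (hy : ∀ P : Place Qb ↥(modularFunctionFieldBar (K * 𝔓.p * 𝔓.p)),
      (p : ℤ) ∣ P.ord ((mltl2PhiU 𝔓 (K * 𝔓.p * 𝔓.p) (y : (↥(tbLevF 𝔓 (K * 𝔓.p * 𝔓.p) ⊤))ˣ) :
        (↥(modularFunctionFieldBar (K * 𝔓.p * 𝔓.p)))ˣ) :
          ↥(modularFunctionFieldBar (K * 𝔓.p * 𝔓.p)))),
    alpfClass hp0 (mltl2PhiU 𝔓 (K * 𝔓.p * 𝔓.p) (y : (↥(tbLevF 𝔓 (K * 𝔓.p * 𝔓.p) ⊤))ˣ)) hy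
      ∈ dlwEig (K * 𝔓.p * 𝔓.p) p W →
    ¬ MltL2AbTriv 𝔓 K hK hζ p hp0 hpq y →
    W.IsResiduallyModularOfLevel p (K * 𝔓.p)

/-- **(a) divisibility**: for a Kummer function `y ∈ D.U` the divisors of the three residues are
divisible by `p` -/
def MltL2AbDivAt : Prop :=
  ∀ (y : ↥(t4niAFix 𝔓 K hK hζ p).U),
    (y : (↥(tbLevF 𝔓 (K * 𝔓.p * 𝔓.p) ⊤))ˣ) ∈ t4nWbar 𝔓 (K * 𝔓.p * 𝔓.p) p →
    ∀ s : Place (IsLocalRing.ResidueField ↥𝔓.P) ↥(tbBarF 𝔓 K),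
      (p : ℤ) ∣ s.ord (((t4niBFix 𝔓 K hK hζ p hp0 hpq).rinf y : (↥(tbBarF 𝔓 K))ˣ) : ↥(tbBarF 𝔓 K)) ∧
      (p : ℤ) ∣ s.ord (((t4niBFix 𝔓 K hK hζ p hp0 hpq).rmid y : (↥(tbBarF 𝔓 K))ˣ) : ↥(tbBarF 𝔓 K)) ∧
      (p : ℤ) ∣ s.ord (((t4niBFix 𝔓 K hK hζ p hp0 hpq).r0 y : (↥(tbBarF 𝔓 K))ˣ) : ↥(tbBarF 𝔓 K))

/-- **(b) Hecke**: `T_ℓ^fun` preserves `L`-rationality and the units at the three valuations (the
vertical part is Eisenstein: `v(T_ℓ y) = (ℓ + 1) v(y)`), and the three residue maps intertwine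
`T_ℓ^fun` with `T̃_ℓ` up to constants -/
def MltL2AbHeckeAt : Prop :=
  ∀ (ℓ : ℕ) [NeZero ℓ], ℓ.Prime → ¬ ℓ ∣ K * 𝔓.p * 𝔓.p →
    ∀ (y : ↥(t4niAFix 𝔓 K hK hζ p).U),
      ∃ y' : ↥(t4niAFix 𝔓 K hK hζ p).U,
        mltl2PhiU 𝔓 (K * 𝔓.p * 𝔓.p) (y' : (↥(tbLevF 𝔓 (K * 𝔓.p * 𝔓.p) ⊤))ˣ) =
          tkrHeckeUnits (K * 𝔓.p * 𝔓.p) ℓ
            (mltl2PhiU 𝔓 (K * 𝔓.p * 𝔓.p) (y : (↥(tbLevF 𝔓 (K * 𝔓.p * 𝔓.p) ⊤))ˣ)) ∧
        ∀ (ζ' : (↥𝔓.P)ˣ)
          (hζK : IsPrimitiveRoot ((Units.map (𝔓.P.subtype : ↥𝔓.P →* Qb) ζ' : Qbˣ) : Qb) ℓ)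
          (hζk : IsPrimitiveRoot ((Units.map ((IsLocalRing.residue ↥𝔓.P : ↥𝔓.P →+*
            IsLocalRing.ResidueField ↥𝔓.P) : ↥𝔓.P →* IsLocalRing.ResidueField ↥𝔓.P) ζ' :
            (IsLocalRing.ResidueField ↥𝔓.P)ˣ) : IsLocalRing.ResidueField ↥𝔓.P) ℓ),
          (∃ c : IsLocalRing.ResidueField ↥𝔓.P, c ≠ 0 ∧
            tkrTilde ℓ hζk ((((t4niBFix 𝔓 K hK hζ p hp0 hpq).rinf y : (↥(tbBarF 𝔓 K))ˣ) :
                ↥(tbBarF 𝔓 K)) : LaurentSeries (IsLocalRing.ResidueField ↥𝔓.P)) =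
              HahnSeries.C c * ((((t4niBFix 𝔓 K hK hζ p hp0 hpq).rinf y' : (↥(tbBarF 𝔓 K))ˣ) :
                ↥(tbBarF 𝔓 K)) : LaurentSeries (IsLocalRing.ResidueField ↥𝔓.P))) ∧
          (∃ c : IsLocalRing.ResidueField ↥𝔓.P, c ≠ 0 ∧
            tkrTilde ℓ hζk ((((t4niBFix 𝔓 K hK hζ p hp0 hpq).rmid y : (↥(tbBarF 𝔓 K))ˣ) :
                ↥(tbBarF 𝔓 K)) : LaurentSeries (IsLocalRing.ResidueField ↥𝔓.P)) =
              HahnSeries.C c * ((((t4niBFix 𝔓 K hK hζ p hp0 hpq).rmid y' : (↥(tbBarF 𝔓 K))ˣ) :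
                ↥(tbBarF 𝔓 K)) : LaurentSeries (IsLocalRing.ResidueField ↥𝔓.P))) ∧
          (∃ c : IsLocalRing.ResidueField ↥𝔓.P, c ≠ 0 ∧
            tkrTilde ℓ hζk ((((t4niBFix 𝔓 K hK hζ p hp0 hpq).r0 y : (↥(tbBarF 𝔓 K))ˣ) :
                ↥(tbBarF 𝔓 K)) : LaurentSeries (IsLocalRing.ResidueField ↥𝔓.P)) =
              HahnSeries.C c * ((((t4niBFix 𝔓 K hK hζ p hp0 hpq).r0 y' : (↥(tbBarF 𝔓 K))ˣ) :
                ↥(tbBarF 𝔓 K)) : LaurentSeries (IsLocalRing.ResidueField ↥𝔓.P)))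

end Defs

/-- **(c) = (B3)** at `(𝔓, K, p, W)` (owner: helper5): a function of `𝔽̄_q(X₀(K))` with `p`-divisible
divisor which is an eigenfunction (modulo constants and `p`-th powers) of the `T̃_ℓ`, `ℓ ∤ K q` good for
`W`, `ℓ ≠ p`, with the eigenvalues of `W`, and which is NOT a `p`-th power, forces residual modularity of
the level `K q` -/
def MltL2AbCmpAt (𝔓 : FFPlace) (K : ℕ) [NeZero K] (p : ℕ) (W : WeierstrassCurve ℤ) : Prop :=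
  ∀ yb : (↥(tbBarF 𝔓 K))ˣ,
    (∀ s : Place (IsLocalRing.ResidueField ↥𝔓.P) ↥(tbBarF 𝔓 K),
      (p : ℤ) ∣ s.ord (yb : ↥(tbBarF 𝔓 K))) →
    (∀ (ℓ : ℕ) [NeZero ℓ], ℓ.Prime → ¬ ℓ ∣ K * 𝔓.p → W.IsGoodPrimeFor ℓ → ℓ ≠ p →
      ∀ (ζ : (↥𝔓.P)ˣ)
        (hζK : IsPrimitiveRoot ((Units.map (𝔓.P.subtype : ↥𝔓.P →* Qb) ζ : Qbˣ) : Qb) ℓ)
        (hζk : IsPrimitiveRoot ((Units.map ((IsLocalRing.residue ↥𝔓.P : ↥𝔓.P →+*
          IsLocalRing.ResidueField ↥𝔓.P) : ↥𝔓.P →* IsLocalRing.ResidueField ↥𝔓.P) ζ :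
          (IsLocalRing.ResidueField ↥𝔓.P)ˣ) : IsLocalRing.ResidueField ↥𝔓.P) ℓ),
        ∃ (c : IsLocalRing.ResidueField ↥𝔓.P) (ub : (↥(tbBarF 𝔓 K))ˣ), c ≠ 0 ∧
          tkrTilde ℓ hζk ((yb : ↥(tbBarF 𝔓 K)) :
              LaurentSeries (IsLocalRing.ResidueField ↥𝔓.P)) =
            HahnSeries.C c *
              (((yb ^ (W.apOfModel ℓ) * ub ^ p : (↥(tbBarF 𝔓 K))ˣ) :
                ↥(tbBarF 𝔓 K)) : LaurentSeries (IsLocalRing.ResidueField ↥𝔓.P))) →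
    (¬ ∃ t : (↥(tbBarF 𝔓 K))ˣ, yb = t ^ p) →
    W.IsResiduallyModularOfLevel p (K * 𝔓.p)

end

end Fermat.Agent.MLT
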