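/-
MLT / [L2-JL] / (G-Hecke)(a) (helper7), file 1: **the two degeneracy maps at an auxiliary prime `ℓ`
between the levels `N' q q` and `(N' ℓ) q q`** over an arbitrary field `L`, and their compatibility
with the three degeneracy maps `a0, a1, a2 : F_{N'} → F_{N' q q}` of T4.

* `mltl2hA : F_{N' q q} →ₐ[L] F_{N' ℓ q q}` (the same Laurent series),
* `mltl2hB : F_{N' q q} →ₐ[L] F_{N' ℓ q q}` (`𝔮 ↦ 𝔮^ℓ`),
* `mltl2hA_a0 … mltl2hB_a2`: `A (a_i f) = a_i (α_ℓ f)`, `B (a_i f) = a_i (β_ℓ f)`,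
* `mltl2h_w_A`, `mltl2h_w_B`: the Atkin–Lehner involutions `w_{q²}` of the two levels commute with
  `A`, `B` (by lead's uniqueness `t4m_ext`).
-/
import Mathlib
import Fermat.Agent.Lib.T4.Inst.MidEx5
import Fermat.Agent.Lib.T4.Inst.Mid

set_option autoImplicit false
set_option linter.unusedSectionVars false
set_option linter.unusedVariables false
set_option linter.style.haveILetI false

open HahnSeries ModularCurve Fermat.Agent.T1 Fermat.Agent.T2 Fermat.Agent.T4 IntermediateField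

noncomputable section

namespace Fermat.Agent.MLT

section Level

variable (L : Type) [Field L] [Algebra ℚ L] (N' q ℓ : ℕ) [NeZero N'] [NeZero q] [NeZero ℓ]

theorem mltl2h_level_eq : N' * q * q * ℓ = N' * ℓ * q * q := by ring

theorem mltl2h_mem_cast {N M : ℕ} (h : N = M) {x : LaurentSeries L} (hx : x ∈ TaF L N) :
    x ∈ TaF L M := by
  subst h
  exact hx

/-- the identity between the two ways of writing the level -/
def mltl2hCast : ↥(TaF L (N' * q * q * ℓ)) →ₐ[L] ↥(TaF L (N' * ℓ * q * q)) :=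
  IntermediateField.inclusion (le_of_eq (congrArg (TaF L) (mltl2h_level_eq N' q ℓ)))

/-- `A_ℓ : F_{N' q q} → F_{N' ℓ q q}`, the same Laurent series -/
def mltl2hA : ↥(TaF L (N' * q * q)) →ₐ[L] ↥(TaF L (N' * ℓ * q * q)) :=
  (mltl2hCast L N' q ℓ).comp (heckeAlphaBar L (N' * q * q) ℓ)

/-- `B_ℓ : F_{N' q q} → F_{N' ℓ q q}`, `𝔮 ↦ 𝔮^ℓ` -/
def mltl2hB : ↥(TaF L (N' * q * q)) →ₐ[L] ↥(TaF L (N' * ℓ * q * q)) :=
  (mltl2hCast L N' q ℓ).comp (heckeBetaBar L (N' * q * q) ℓ)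

variable {L N' q ℓ}

@[simp] theorem coe_mltl2hCast (x : ↥(TaF L (N' * q * q * ℓ))) :
    ((mltl2hCast L N' q ℓ x : ↥(TaF L (N' * ℓ * q * q))) : LaurentSeries L) = (x : LaurentSeries L) :=
  IntermediateField.coe_inclusion _ x

@[simp] theorem coe_mltl2hA (x : ↥(TaF L (N' * q * q))) :
    ((mltl2hA L N' q ℓ x : ↥(TaF L (N' * ℓ * q * q))) : LaurentSeries L) = (x : LaurentSeries L) := by
  rw [mltl2hA, AlgHom.comp_apply, coe_mltl2hCast, coe_heckeAlphaBar]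

@[simp] theorem coe_mltl2hB (x : ↥(TaF L (N' * q * q))) :
    ((mltl2hB L N' q ℓ x : ↥(TaF L (N' * ℓ * q * q))) : LaurentSeries L) =
      qExpand L ℓ (x : LaurentSeries L) := by
  rw [mltl2hB, AlgHom.comp_apply, coe_mltl2hCast, coe_heckeBetaBar]

theorem mltl2hA_injective : Function.Injective (mltl2hA L N' q ℓ) := fun x y h => by
  have h1 := congrArg (fun z : ↥(TaF L (N' * ℓ * q * q)) => (z : LaurentSeries L)) h
  simp only [coe_mltl2hA] at h1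
  exact Subtype.ext h1

theorem mltl2h_qExpand_comm {R : Type*} [CommRing R] (a b : ℕ) [NeZero a] [NeZero b]
    (f : LaurentSeries R) :
    qExpand R a (qExpand R b f) = qExpand R b (qExpand R a f) := by
  haveI : NeZero (a * b) := ⟨Nat.mul_ne_zero (NeZero.ne a) (NeZero.ne b)⟩
  haveI : NeZero (b * a) := ⟨Nat.mul_ne_zero (NeZero.ne b) (NeZero.ne a)⟩
  rw [qExpand_qExpand, qExpand_qExpand]
  exact qExpand_congr (mul_comm a b) f

theorem mltl2hA_a0 (f : ↥(TaF L N')) :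
    mltl2hA L N' q ℓ (t4vA0 L N' q f) = t4vA0 L (N' * ℓ) q (heckeAlphaBar L N' ℓ f) := by
  apply Subtype.ext
  rw [coe_mltl2hA, coe_t4vA0, coe_t4vA0, coe_heckeAlphaBar]

theorem mltl2hA_a1 (f : ↥(TaF L N')) :
    mltl2hA L N' q ℓ (t4vA1 L N' q f) = t4vA1 L (N' * ℓ) q (heckeAlphaBar L N' ℓ f) := by
  apply Subtype.ext
  rw [coe_mltl2hA, coe_t4vA1, coe_t4vA1, coe_heckeAlphaBar]

theorem mltl2hA_a2 (f : ↥(TaF L N')) :
    mltl2hA L N' q ℓ (t4vA2 L N' q f) = t4vA2 L (N' * ℓ) q (heckeAlphaBar L N' ℓ f) := by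
  apply Subtype.ext
  rw [coe_mltl2hA, coe_t4vA2, coe_t4vA2, coe_heckeAlphaBar]

theorem mltl2hB_a0 (f : ↥(TaF L N')) :
    mltl2hB L N' q ℓ (t4vA0 L N' q f) = t4vA0 L (N' * ℓ) q (heckeBetaBar L N' ℓ f) := by
  apply Subtype.ext
  rw [coe_mltl2hB, coe_t4vA0, coe_t4vA0, coe_heckeBetaBar]

theorem mltl2hB_a1 (f : ↥(TaF L N')) :
    mltl2hB L N' q ℓ (t4vA1 L N' q f) = t4vA1 L (N' * ℓ) q (heckeBetaBar L N' ℓ f) := by
  apply Subtype.ext
  rw [coe_mltl2hB, coe_t4vA1, coe_t4vA1, coe_heckeBetaBar, mltl2h_qExpand_comm]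

theorem mltl2hB_a2 (f : ↥(TaF L N')) :
    mltl2hB L N' q ℓ (t4vA2 L N' q f) = t4vA2 L (N' * ℓ) q (heckeBetaBar L N' ℓ f) := by
  apply Subtype.ext
  rw [coe_mltl2hB, coe_t4vA2, coe_t4vA2, coe_heckeBetaBar, mltl2h_qExpand_comm ℓ q,
    mltl2h_qExpand_comm ℓ q]

/-- **uniqueness** (lead's `t4m_ext` in terms of `a0, a1, a2`) -/
theorem mltl2h_ext (hq : q.Prime) {R : Type*} [DivisionRing R]
    (φ ψ : ↥(TaF L (N' * q * q)) →+* R)
    (hc : ∀ c : L, φ (algebraMap L _ c) = ψ (algebraMap L _ c))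
    (h0 : ∀ f : ↥(TaF L N'), φ (t4vA0 L N' q f) = ψ (t4vA0 L N' q f))
    (h1 : ∀ f : ↥(TaF L N'), φ (t4vA1 L N' q f) = ψ (t4vA1 L N' q f))
    (h2 : ∀ f : ↥(TaF L N'), φ (t4vA2 L N' q f) = ψ (t4vA2 L N' q f)) : φ = ψ :=
  t4m_ext L N' q hq φ ψ hc h0 h1 h2

/-- `w_{q²}` commutes with `A_ℓ` -/
theorem mltl2h_w_A (hq : q.Prime) (W : T4iAL L N' q) (W' : T4iAL L (N' * ℓ) q)
    (x : ↥(TaF L (N' * q * q))) :
    W'.w (mltl2hA L N' q ℓ x) = mltl2hA L N' q ℓ (W.w x) := by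
  have key : ((W'.w : ↥(TaF L (N' * ℓ * q * q)) →+* ↥(TaF L (N' * ℓ * q * q))).comp
      (mltl2hA L N' q ℓ : ↥(TaF L (N' * q * q)) →+* ↥(TaF L (N' * ℓ * q * q)))) =
      ((mltl2hA L N' q ℓ : ↥(TaF L (N' * q * q)) →+* ↥(TaF L (N' * ℓ * q * q))).comp
        (W.w : ↥(TaF L (N' * q * q)) →+* ↥(TaF L (N' * q * q)))) := by
    apply mltl2h_ext hq
    · intro c
      show W'.w (mltl2hA L N' q ℓ (algebraMap L _ c)) = mltl2hA L N' q ℓ (W.w (algebraMap L _ c))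
      rw [AlgHom.commutes, AlgEquiv.commutes, AlgEquiv.commutes, AlgHom.commutes]
    · intro f
      show W'.w (mltl2hA L N' q ℓ (t4vA0 L N' q f)) = mltl2hA L N' q ℓ (W.w (t4vA0 L N' q f))
      rw [mltl2hA_a0, W'.w_a0, W.w_a0, mltl2hA_a2]
    · intro f
      show W'.w (mltl2hA L N' q ℓ (t4vA1 L N' q f)) = mltl2hA L N' q ℓ (W.w (t4vA1 L N' q f))
      rw [mltl2hA_a1, W'.w_a1, W.w_a1, mltl2hA_a1]
    · intro f
      show W'.w (mltl2hA L N' q ℓ (t4vA2 L N' q f)) = mltl2hA L N' q ℓ (W.w (t4vA2 L N' q f))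
      rw [mltl2hA_a2, W'.w_a2, W.w_a2, mltl2hA_a0]
  exact DFunLike.congr_fun key x

/-- `w_{q²}` commutes with `B_ℓ` -/
theorem mltl2h_w_B (hq : q.Prime) (W : T4iAL L N' q) (W' : T4iAL L (N' * ℓ) q)
    (x : ↥(TaF L (N' * q * q))) :
    W'.w (mltl2hB L N' q ℓ x) = mltl2hB L N' q ℓ (W.w x) := by
  have key : ((W'.w : ↥(TaF L (N' * ℓ * q * q)) →+* ↥(TaF L (N' * ℓ * q * q))).comp
      (mltl2hB L N' q ℓ : ↥(TaF L (N' * q * q)) →+* ↥(TaF L (N' * ℓ * q * q)))) =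
      ((mltl2hB L N' q ℓ : ↥(TaF L (N' * q * q)) →+* ↥(TaF L (N' * ℓ * q * q))).comp
        (W.w : ↥(TaF L (N' * q * q)) →+* ↥(TaF L (N' * q * q)))) := by
    apply mltl2h_ext hq
    · intro c
      show W'.w (mltl2hB L N' q ℓ (algebraMap L _ c)) = mltl2hB L N' q ℓ (W.w (algebraMap L _ c))
      rw [AlgHom.commutes, AlgEquiv.commutes, AlgEquiv.commutes, AlgHom.commutes]
    · intro f
      show W'.w (mltl2hB L N' q ℓ (t4vA0 L N' q f)) = mltl2hB L N' q ℓ (W.w (t4vA0 L N' q f))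
      rw [mltl2hB_a0, W'.w_a0, W.w_a0, mltl2hB_a2]
    · intro f
      show W'.w (mltl2hB L N' q ℓ (t4vA1 L N' q f)) = mltl2hB L N' q ℓ (W.w (t4vA1 L N' q f))
      rw [mltl2hB_a1, W'.w_a1, W.w_a1, mltl2hB_a1]
    · intro f
      show W'.w (mltl2hB L N' q ℓ (t4vA2 L N' q f)) = mltl2hB L N' q ℓ (W.w (t4vA2 L N' q f))
      rw [mltl2hB_a2, W'.w_a2, W.w_a2, mltl2hB_a0]
  exact DFunLike.congr_fun key x

end Level

end Fermat.Agent.MLT
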