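/-
MLT / [L2-JL] / (G-Hecke)(a) (helper7), file 3: **the degree `[F_{N' ℓ q q} : F_{N' q q}] = ℓ + 1`
along `A_ℓ`** over an unramified DVR level `(L, O)` with residue characteristic `q`
(`q ∤ N' ℓ`, `ℓ ∤ N'` prime): both fields have the full degree `ψ` over `L(j)`.
-/
import Mathlib
import Fermat.Agent.Lib.MLT.L2.HkLevel
import Fermat.Agent.Lib.T4.Inst.Val
import Fermat.Agent.Lib.Igusa.PsiStep

set_option autoImplicit false
set_option linter.unusedSectionVars false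
set_option linter.unusedVariables false
set_option linter.style.haveILetI false

open HahnSeries ModularCurve Fermat.Agent.T1 Fermat.Agent.T2 Fermat.Agent.T4 IntermediateField

noncomputable section

namespace Fermat.Agent.MLT

section Degree

variable {L : Type} [Field L] [Algebra ℚ L] (O : ValuationSubring L) {k : Type} [Field k]
  (π : ↥O →+* k) [IsDiscreteValuationRing ↥O] (hπ : Function.Surjective π) [IsAlgClosed k]
  {N' q : ℕ} [NeZero N'] [hq : Fact q.Prime] [CharP k q] (hN' : (N' : k) ≠ 0)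
  (W1 : T2iAL L N' q) (Fr : T2iFrob k N' q) (W : T4iAL L N' q)
  (hqO : Irreducible ((q : ℕ) : ↥O))
  {L' : Type*} [Field L'] [Algebra L L'] (O' : ValuationSubring L')
  [IsDiscreteValuationRing ↥O'] (π' : ↥O' →+* k) (C : T4iCyc O O' π π' q)
  (M : T4iMid L L' N' q C.ζ)

attribute [local instance] t2iAlgebra t2i_isScalarTower

include O π hπ hN' W1 Fr W hqO O' π' C M in
/-- `[F_{N' q q} : L(j)] = ψ(N') (q + 1) q` -/
theorem mltl2h_finrank_base :
    Module.finrank ↥(L⟮taJ (L := L) (N' * q * q)⟯) ↥(TaF L (N' * q * q)) =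
      dedekindPsi N' * (q + 1) * q := by
  have h1 := ta_finrank_tower (heckeAlphaBar L (N' * q) q) (taJ (L := L) (N' * q))
  rw [t2i_alpha_taJ] at h1
  have h3 := ta_finrank_tower (heckeAlphaBar L N' q) (taJ (L := L) N')
  rw [t2i_alpha_taJ] at h3
  have h4 := ta_finrank O π hπ N' hN'
  have h5 := t4v_finrank1 O π hπ hN' W1 Fr
  have h6 := (t4vInput O π hπ hN' W1 Fr W hqO O' π' C M).finrank_eq
  rw [h4, h5] at h3
  rw [h1, h3]
  congr 1

end Degree

section DegreeEll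

variable {L : Type} [Field L] [Algebra ℚ L] (O : ValuationSubring L) {k : Type} [Field k]
  (π : ↥O →+* k) [IsDiscreteValuationRing ↥O] (hπ : Function.Surjective π) [IsAlgClosed k]
  {N' q ℓ : ℕ} [NeZero N'] [hq : Fact q.Prime] [NeZero ℓ] [CharP k q]
  (hN' : (N' : k) ≠ 0) (hN'ℓ : ((N' * ℓ : ℕ) : k) ≠ 0)
  (W1 : T2iAL L N' q) (Fr : T2iFrob k N' q) (W : T4iAL L N' q)
  (W1' : T2iAL L (N' * ℓ) q) (Fr' : T2iFrob k (N' * ℓ) q) (W' : T4iAL L (N' * ℓ) q)
  (hqO : Irreducible ((q : ℕ) : ↥O))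
  {L' : Type*} [Field L'] [Algebra L L'] (O' : ValuationSubring L')
  [IsDiscreteValuationRing ↥O'] (π' : ↥O' →+* k) (C : T4iCyc O O' π π' q)
  (M : T4iMid L L' N' q C.ζ) (M' : T4iMid L L' (N' * ℓ) q C.ζ)

theorem mltl2hA_taJ : mltl2hA L N' q ℓ (taJ (L := L) (N' * q * q)) = taJ (L := L) (N' * ℓ * q * q) := by
  apply Subtype.ext
  rw [coe_mltl2hA]
  rfl

include O π hπ hN' hN'ℓ W1 Fr W W1' Fr' W' hqO O' π' C M M' in
/-- **`[F_{N' ℓ q q} : F_{N' q q}] = ℓ + 1`** along `A_ℓ` -/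
theorem mltl2h_finrank_A (hℓ : ℓ.Prime) (hℓN : ¬ ℓ ∣ N') :
    @Module.finrank ↥(TaF L (N' * q * q)) ↥(TaF L (N' * ℓ * q * q)) _ _
      (mltl2hA L N' q ℓ).toRingHom.toAlgebra.toModule = ℓ + 1 := by
  have h1 := ta_finrank_tower (mltl2hA L N' q ℓ) (taJ (L := L) (N' * q * q))
  rw [mltl2hA_taJ] at h1
  have h2 := mltl2h_finrank_base O π hπ hN' W1 Fr W hqO O' π' C M
  have h3 := mltl2h_finrank_base O π hπ (N' := N' * ℓ)
    (by exact_mod_cast hN'ℓ) W1' Fr' W' hqO O' π' C M'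
  have h4 : dedekindPsi (N' * ℓ) = dedekindPsi N' * (ℓ + 1) :=
    Fermat.Agent.Igusa.igPsi_mul_prime_of_not_dvd hℓ hℓN
  have h5 : 0 < dedekindPsi N' := Fermat.Agent.Igusa.igPsi_pos (NeZero.ne N')
  rw [h2, h3, h4] at h1
  have h6 : 0 < dedekindPsi N' * (q + 1) * q :=
    Nat.mul_pos (Nat.mul_pos h5 (Nat.succ_pos q)) hq.out.pos
  have h7 : dedekindPsi N' * (q + 1) * q * (ℓ + 1) =
      dedekindPsi N' * (q + 1) * q *
        @Module.finrank ↥(TaF L (N' * q * q)) ↥(TaF L (N' * ℓ * q * q)) _ _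
          (mltl2hA L N' q ℓ).toRingHom.toAlgebra.toModule := by
    rw [← h1]
    ring
  exact (Nat.eq_of_mul_eq_mul_left h6 h7).symm

end DegreeEll

end Fermat.Agent.MLT
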