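/-
MLT / [L2-JL] / (G-Hecke)(a) (helper7), file 6: **the functional Hecke operator over `L` and the three
residue maps** (generic unramified DVR level).

`T_ℓ^L y := N_{A_ℓ}(B_ℓ y)` for `y ∈ F_L(N' q q)`.  For `y ∈ 𝒪 = O_inf ∩ O_mid ∩ O_0`:
`T_ℓ^L y ∈ 𝒪` and `ρ_*(T_ℓ^L y) = N_{ᾱ}(β̄ (ρ_* y))` for `* = inf, mid, 0`
(helper3's `DlhRedExt.norm_red` for the three extensions of `HkRedExt`).
-/
import Mathlib
import Fermat.Agent.Lib.MLT.L2.HkRedExt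
import Fermat.Agent.Lib.MLT.L2.HkDeg
import Fermat.Agent.Lib.T4.New.InstU

set_option autoImplicit false
set_option linter.unusedSectionVars false
set_option linter.unusedVariables false
set_option linter.style.haveILetI false
set_option synthInstance.maxHeartbeats 400000

open HahnSeries ModularCurve Fermat.Agent.T1 Fermat.Agent.T2 Fermat.Agent.T4 Fermat.Agent.Delta
  IntermediateField Module AlgebraicCurve

noncomputable section

namespace Fermat.Agent.MLT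

/-- **`T_ℓ^L = N_{A_ℓ} ∘ B_ℓ`** on `F_L(N' q q)` -/
def mltl2hT (L : Type) [Field L] [Algebra ℚ L] (N' q ℓ : ℕ) [NeZero N'] [NeZero q] [NeZero ℓ] :
    ↥(TaF L (N' * q * q)) →* ↥(TaF L (N' * q * q)) :=
  (@Algebra.norm ↥(TaF L (N' * q * q)) ↥(TaF L (N' * ℓ * q * q)) _ _
    (mltl2hA L N' q ℓ).toRingHom.toAlgebra).comp
    ((mltl2hB L N' q ℓ : ↥(TaF L (N' * q * q)) →+* ↥(TaF L (N' * ℓ * q * q))) :
      ↥(TaF L (N' * q * q)) →* ↥(TaF L (N' * ℓ * q * q)))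

theorem mltl2hT_apply (L : Type) [Field L] [Algebra ℚ L] (N' q ℓ : ℕ) [NeZero N'] [NeZero q]
    [NeZero ℓ] (y : ↥(TaF L (N' * q * q))) :
    mltl2hT L N' q ℓ y = @Algebra.norm ↥(TaF L (N' * q * q)) ↥(TaF L (N' * ℓ * q * q)) _ _
      (mltl2hA L N' q ℓ).toRingHom.toAlgebra (mltl2hB L N' q ℓ y) := rfl

section Two

variable {L : Type} [Field L] [Algebra ℚ L] (O : ValuationSubring L) {k : Type} [Field k]
  (π : ↥O →+* k) [IsDiscreteValuationRing ↥O] (hπ : Function.Surjective π) [IsAlgClosed k]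
  {N' q ℓ : ℕ} [NeZero N'] [hq : Fact q.Prime] [NeZero ℓ] [CharP k q]
  (hN' : (N' : k) ≠ 0) (hN'ℓ : ((N' * ℓ : ℕ) : k) ≠ 0)
  (W1 : T2iAL L N' q) (Fr : T2iFrob k N' q) (W : T4iAL L N' q)
  (W1' : T2iAL L (N' * ℓ) q) (Fr' : T2iFrob k (N' * ℓ) q) (W' : T4iAL L (N' * ℓ) q)
  (hqO : Irreducible ((q : ℕ) : ↥O))
  {L' : Type*} [Field L'] [Algebra L L'] (O' : ValuationSubring L')
  [IsDiscreteValuationRing ↥O'] (π' : ↥O' →+* k) (C : T4iCyc O O' π π' q)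
  (M : T4iMid L L' N' q C.ζ) (M' : T4iMid L L' (N' * ℓ) q C.ζ)

attribute [local instance] t2iAlgebra t2i_isScalarTower

include hN'ℓ W1' Fr' W' M' in
/-- **`ρ_inf (T_ℓ y) = N_ᾱ (β̄ (ρ_inf y))`** on the full valuation ring `O_inf` -/
theorem mltl2h_T_inf (hℓ : ℓ.Prime) (hℓN : ¬ ℓ ∣ N')
    (hdegE : @finrank ↥(modularFunctionFieldFullC k N') ↥(modularFunctionFieldFullC k (N' * ℓ)) _ _
      (algebraAlong (dlhAlphaC k N' ℓ)).toModule = ℓ + 1)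
    (y : ↥(t4vOinf (N' := N') (q := q) O π hπ).toSubring) :
    ∃ h : mltl2hT L N' q ℓ (y : ↥(TaF L (N' * q * q))) ∈
        (t4vOinf (N' := N') (q := q) O π hπ).toSubring,
      mltl2hRinf O π hπ hN' W1 Fr W hqO O' π' C M ⟨_, h⟩ =
        @Algebra.norm ↥(modularFunctionFieldFullC k N') ↥(modularFunctionFieldFullC k (N' * ℓ)) _ _
          (algebraAlong (dlhAlphaC k N' ℓ))
          (dlhBetaC k N' ℓ (mltl2hRinf O π hπ hN' W1 Fr W hqO O' π' C M y)) := by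
  letI : Algebra ↥(TaF L (N' * q * q)) ↥(TaF L (N' * ℓ * q * q)) :=
    (mltl2hA L N' q ℓ).toRingHom.toAlgebra
  letI := algebraAlong (dlhAlphaC k N' ℓ)
  haveI : FiniteDimensional ↥(modularFunctionFieldFullC k N')
      ↥(modularFunctionFieldFullC k (N' * ℓ)) := by
    apply FiniteDimensional.of_finrank_pos
    rw [hdegE]
    omega
  have d := mltl2h_redExt_inf O π hπ hN' hN'ℓ W1 Fr W W1' Fr' W' hqO O' π' C M M'
  have hdeg : finrank ↥(TaF L (N' * q * q)) ↥(TaF L (N' * ℓ * q * q)) =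
      finrank ↥(modularFunctionFieldFullC k N') ↥(modularFunctionFieldFullC k (N' * ℓ)) :=
    (mltl2h_finrank_A O π hπ hN' hN'ℓ W1 Fr W W1' Fr' W' hqO O' π' C M M' hℓ hℓN).trans
      hdegE.symm
  obtain ⟨h, e⟩ := d.norm_red hdeg
    ⟨mltl2hB L N' q ℓ (y : ↥(TaF L (N' * q * q))), mltl2h_inf_B_mem O π hπ y.2⟩
  refine ⟨h, ?_⟩
  rw [← mltl2h_rinf_B O π hπ hN' hN'ℓ W1 Fr W W1' Fr' W' hqO O' π' C M M' y]
  exact e

include hN'ℓ W1' Fr' W' M' in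
/-- **`ρ_mid (T_ℓ y) = N_ᾱ (β̄ (ρ_mid y))`** on the full valuation ring `O_mid` -/
theorem mltl2h_T_mid (hℓ : ℓ.Prime) (hℓN : ¬ ℓ ∣ N') (hℓq : ¬ q ∣ ℓ)
    (hdegE : @finrank ↥(modularFunctionFieldFullC k N') ↥(modularFunctionFieldFullC k (N' * ℓ)) _ _
      (algebraAlong (dlhAlphaC k N' ℓ)).toModule = ℓ + 1)
    (y : ↥(t4vOmid O π hπ O' π' C M).toSubring) :
    ∃ h : mltl2hT L N' q ℓ (y : ↥(TaF L (N' * q * q))) ∈ (t4vOmid O π hπ O' π' C M).toSubring,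
      mltl2hRmid O π hπ hN' W1 Fr W hqO O' π' C M ⟨_, h⟩ =
        @Algebra.norm ↥(modularFunctionFieldFullC k N') ↥(modularFunctionFieldFullC k (N' * ℓ)) _ _
          (algebraAlong (dlhAlphaC k N' ℓ))
          (dlhBetaC k N' ℓ (mltl2hRmid O π hπ hN' W1 Fr W hqO O' π' C M y)) := by
  letI : Algebra ↥(TaF L (N' * q * q)) ↥(TaF L (N' * ℓ * q * q)) :=
    (mltl2hA L N' q ℓ).toRingHom.toAlgebra
  letI := algebraAlong (dlhAlphaC k N' ℓ)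
  haveI : FiniteDimensional ↥(modularFunctionFieldFullC k N')
      ↥(modularFunctionFieldFullC k (N' * ℓ)) := by
    apply FiniteDimensional.of_finrank_pos
    rw [hdegE]
    omega
  have d := mltl2h_redExt_mid O π hπ hN' hN'ℓ W1 Fr W W1' Fr' W' hqO O' π' C M M'
  have hdeg : finrank ↥(TaF L (N' * q * q)) ↥(TaF L (N' * ℓ * q * q)) =
      finrank ↥(modularFunctionFieldFullC k N') ↥(modularFunctionFieldFullC k (N' * ℓ)) :=
    (mltl2h_finrank_A O π hπ hN' hN'ℓ W1 Fr W W1' Fr' W' hqO O' π' C M M' hℓ hℓN).trans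
      hdegE.symm
  obtain ⟨h, e⟩ := d.norm_red hdeg
    ⟨mltl2hB L N' q ℓ (y : ↥(TaF L (N' * q * q))),
      mltl2h_mid_B_mem O π hπ O' π' C M M' hℓq y.2⟩
  refine ⟨h, ?_⟩
  rw [← mltl2h_rmid_B O π hπ hN' hN'ℓ W1 Fr W W1' Fr' W' hqO O' π' C M M' hℓq y]
  exact e

include hN'ℓ W1' Fr' W' M' in
/-- **`ρ_0 (T_ℓ y) = N_ᾱ (β̄ (ρ_0 y))`** on the full valuation ring `O_0` -/
theorem mltl2h_T_zero (hℓ : ℓ.Prime) (hℓN : ¬ ℓ ∣ N')
    (hdegE : @finrank ↥(modularFunctionFieldFullC k N') ↥(modularFunctionFieldFullC k (N' * ℓ)) _ _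
      (algebraAlong (dlhAlphaC k N' ℓ)).toModule = ℓ + 1)
    (y : ↥(t4vO0 O π hπ W).toSubring) :
    ∃ h : mltl2hT L N' q ℓ (y : ↥(TaF L (N' * q * q))) ∈ (t4vO0 O π hπ W).toSubring,
      mltl2hR0 O π hπ hN' W1 Fr W hqO O' π' C M ⟨_, h⟩ =
        @Algebra.norm ↥(modularFunctionFieldFullC k N') ↥(modularFunctionFieldFullC k (N' * ℓ)) _ _
          (algebraAlong (dlhAlphaC k N' ℓ))
          (dlhBetaC k N' ℓ (mltl2hR0 O π hπ hN' W1 Fr W hqO O' π' C M y)) := by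
  letI : Algebra ↥(TaF L (N' * q * q)) ↥(TaF L (N' * ℓ * q * q)) :=
    (mltl2hA L N' q ℓ).toRingHom.toAlgebra
  letI := algebraAlong (dlhAlphaC k N' ℓ)
  haveI : FiniteDimensional ↥(modularFunctionFieldFullC k N')
      ↥(modularFunctionFieldFullC k (N' * ℓ)) := by
    apply FiniteDimensional.of_finrank_pos
    rw [hdegE]
    omega
  have d := mltl2h_redExt_zero O π hπ hN' hN'ℓ W1 Fr W W1' Fr' W' hqO O' π' C M M'
  have hdeg : finrank ↥(TaF L (N' * q * q)) ↥(TaF L (N' * ℓ * q * q)) =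
      finrank ↥(modularFunctionFieldFullC k N') ↥(modularFunctionFieldFullC k (N' * ℓ)) :=
    (mltl2h_finrank_A O π hπ hN' hN'ℓ W1 Fr W W1' Fr' W' hqO O' π' C M M' hℓ hℓN).trans
      hdegE.symm
  obtain ⟨h, e⟩ := d.norm_red hdeg
    ⟨mltl2hB L N' q ℓ (y : ↥(TaF L (N' * q * q))), mltl2h_zero_B_mem O π hπ W W' y.2⟩
  refine ⟨h, ?_⟩
  rw [← mltl2h_r0_B O π hπ hN' hN'ℓ W1 Fr W W1' Fr' W' hqO O' π' C M M' y]
  exact e

/-! #### On `𝒪 = O_inf ∩ O_mid ∩ O_0`, in terms of the `E`-valued reductions of T4-N -/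

theorem mltl2h_rho1_eq (f : ↥(t4vInput O π hπ hN' W1 Fr W hqO O' π' C M).Ov) :
    t4niRho1 O π hπ hN' W1 Fr W hqO O' π' C M f =
      mltl2hRinf O π hπ hN' W1 Fr W hqO O' π' C M
        ⟨(f : ↥(TaF L (N' * q * q))), t4ve_mem_inf O π hπ hN' W1 Fr W hqO O' π' C M f⟩ := by
  apply Subtype.ext
  rw [coe_t4niRho1, coe_mltl2hRinf, t4ve_ρ₁_eq]

theorem mltl2h_rho2_eq (f : ↥(t4vInput O π hπ hN' W1 Fr W hqO O' π' C M).Ov) :
    t4niRho2 O π hπ hN' W1 Fr W hqO O' π' C M f =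
      mltl2hRmid O π hπ hN' W1 Fr W hqO O' π' C M
        ⟨(f : ↥(TaF L (N' * q * q))), t4ve_mem_mid O π hπ hN' W1 Fr W hqO O' π' C M f⟩ := by
  apply Subtype.ext
  rw [coe_t4niRho2, coe_mltl2hRmid, t4ve_ρ₂_eq]

theorem mltl2h_rho3_eq (f : ↥(t4vInput O π hπ hN' W1 Fr W hqO O' π' C M).Ov) :
    t4niRho3 O π hπ hN' W1 Fr W hqO O' π' C M f =
      mltl2hR0 O π hπ hN' W1 Fr W hqO O' π' C M
        ⟨(f : ↥(TaF L (N' * q * q))), t4ve_mem_zero O π hπ hN' W1 Fr W hqO O' π' C M f⟩ := by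
  apply Subtype.ext
  rw [coe_t4niRho3, coe_mltl2hR0, t4ve_ρ₃_eq]

include hN'ℓ W1' Fr' W' M' in
/-- **`T_ℓ^L` preserves `𝒪` and the three reductions intertwine it with `N_ᾱ ∘ β̄`** -/
theorem mltl2h_T_Ov (hℓ : ℓ.Prime) (hℓN : ¬ ℓ ∣ N') (hℓq : ¬ q ∣ ℓ)
    (hdegE : @finrank ↥(modularFunctionFieldFullC k N') ↥(modularFunctionFieldFullC k (N' * ℓ)) _ _
      (algebraAlong (dlhAlphaC k N' ℓ)).toModule = ℓ + 1)
    (y : ↥(t4vInput O π hπ hN' W1 Fr W hqO O' π' C M).Ov) :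
    ∃ h : mltl2hT L N' q ℓ (y : ↥(TaF L (N' * q * q))) ∈
        (t4vInput O π hπ hN' W1 Fr W hqO O' π' C M).Ov,
      t4niRho1 O π hπ hN' W1 Fr W hqO O' π' C M ⟨_, h⟩ =
        @Algebra.norm ↥(modularFunctionFieldFullC k N') ↥(modularFunctionFieldFullC k (N' * ℓ)) _ _
          (algebraAlong (dlhAlphaC k N' ℓ))
          (dlhBetaC k N' ℓ (t4niRho1 O π hπ hN' W1 Fr W hqO O' π' C M y)) ∧
      t4niRho2 O π hπ hN' W1 Fr W hqO O' π' C M ⟨_, h⟩ =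
        @Algebra.norm ↥(modularFunctionFieldFullC k N') ↥(modularFunctionFieldFullC k (N' * ℓ)) _ _
          (algebraAlong (dlhAlphaC k N' ℓ))
          (dlhBetaC k N' ℓ (t4niRho2 O π hπ hN' W1 Fr W hqO O' π' C M y)) ∧
      t4niRho3 O π hπ hN' W1 Fr W hqO O' π' C M ⟨_, h⟩ =
        @Algebra.norm ↥(modularFunctionFieldFullC k N') ↥(modularFunctionFieldFullC k (N' * ℓ)) _ _
          (algebraAlong (dlhAlphaC k N' ℓ))
          (dlhBetaC k N' ℓ (t4niRho3 O π hπ hN' W1 Fr W hqO O' π' C M y)) := by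
  obtain ⟨h1, e1⟩ := mltl2h_T_inf O π hπ hN' hN'ℓ W1 Fr W W1' Fr' W' hqO O' π' C M M' hℓ hℓN
    hdegE ⟨_, t4ve_mem_inf O π hπ hN' W1 Fr W hqO O' π' C M y⟩
  obtain ⟨h2, e2⟩ := mltl2h_T_mid O π hπ hN' hN'ℓ W1 Fr W W1' Fr' W' hqO O' π' C M M' hℓ hℓN
    hℓq hdegE ⟨_, t4ve_mem_mid O π hπ hN' W1 Fr W hqO O' π' C M y⟩
  obtain ⟨h3, e3⟩ := mltl2h_T_zero O π hπ hN' hN'ℓ W1 Fr W W1' Fr' W' hqO O' π' C M M' hℓ hℓN
    hdegE ⟨_, t4ve_mem_zero O π hπ hN' W1 Fr W hqO O' π' C M y⟩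
  have h : mltl2hT L N' q ℓ (y : ↥(TaF L (N' * q * q))) ∈
      (t4vInput O π hπ hN' W1 Fr W hqO O' π' C M).Ov :=
    (mem_t4vInput_Ov_iff O π hπ hN' W1 Fr W hqO O' π' C M _).mpr ⟨h1, h3, h2⟩
  refine ⟨h, ?_, ?_, ?_⟩
  · rw [mltl2h_rho1_eq, mltl2h_rho1_eq]
    exact e1
  · rw [mltl2h_rho2_eq, mltl2h_rho2_eq]
    exact e2
  · rw [mltl2h_rho3_eq, mltl2h_rho3_eq]
    exact e3

/-! #### In terms of the instance `(D, B)` of T4-N -/

include hN'ℓ W1' Fr' W' M' in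
/-- **(G-Hecke)(a), generic level**: `T_ℓ^L` preserves the group `D.U` of units at the three
valuations, and the three residue maps of `B` intertwine it with `N_ᾱ ∘ β̄` -/
theorem mltl2h_hecke_U (hℓ : ℓ.Prime) (hℓN : ¬ ℓ ∣ N') (hℓq : ¬ q ∣ ℓ)
    (hdegE : @finrank ↥(modularFunctionFieldFullC k N') ↥(modularFunctionFieldFullC k (N' * ℓ)) _ _
      (algebraAlong (dlhAlphaC k N' ℓ)).toModule = ℓ + 1)
    (m : ℕ) (hm : m ≠ 0) (hqm : Nat.Coprime m q)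
    (y : ↥(t4niAU O π hπ hN' W1 Fr W hqO O' π' C M m).U) :
    ∃ y' : ↥(t4niAU O π hπ hN' W1 Fr W hqO O' π' C M m).U,
      (((y' : (↥(TaF L (N' * q * q)))ˣ)) : ↥(TaF L (N' * q * q))) =
        mltl2hT L N' q ℓ (((y : (↥(TaF L (N' * q * q)))ˣ)) : ↥(TaF L (N' * q * q))) ∧
      (((t4niBU O π hπ hN' W1 Fr W hqO O' π' C M m hm hqm).rinf y' :
          (↥(modularFunctionFieldFullC k N'))ˣ) : ↥(modularFunctionFieldFullC k N')) =
        @Algebra.norm ↥(modularFunctionFieldFullC k N') ↥(modularFunctionFieldFullC k (N' * ℓ)) _ _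
          (algebraAlong (dlhAlphaC k N' ℓ))
          (dlhBetaC k N' ℓ (((t4niBU O π hπ hN' W1 Fr W hqO O' π' C M m hm hqm).rinf y :
            (↥(modularFunctionFieldFullC k N'))ˣ) : ↥(modularFunctionFieldFullC k N'))) ∧
      (((t4niBU O π hπ hN' W1 Fr W hqO O' π' C M m hm hqm).rmid y' :
          (↥(modularFunctionFieldFullC k N'))ˣ) : ↥(modularFunctionFieldFullC k N')) =
        @Algebra.norm ↥(modularFunctionFieldFullC k N') ↥(modularFunctionFieldFullC k (N' * ℓ)) _ _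
          (algebraAlong (dlhAlphaC k N' ℓ))
          (dlhBetaC k N' ℓ (((t4niBU O π hπ hN' W1 Fr W hqO O' π' C M m hm hqm).rmid y :
            (↥(modularFunctionFieldFullC k N'))ˣ) : ↥(modularFunctionFieldFullC k N'))) ∧
      (((t4niBU O π hπ hN' W1 Fr W hqO O' π' C M m hm hqm).r0 y' :
          (↥(modularFunctionFieldFullC k N'))ˣ) : ↥(modularFunctionFieldFullC k N')) =
        @Algebra.norm ↥(modularFunctionFieldFullC k N') ↥(modularFunctionFieldFullC k (N' * ℓ)) _ _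
          (algebraAlong (dlhAlphaC k N' ℓ))
          (dlhBetaC k N' ℓ (((t4niBU O π hπ hN' W1 Fr W hqO O' π' C M m hm hqm).r0 y :
            (↥(modularFunctionFieldFullC k N'))ˣ) : ↥(modularFunctionFieldFullC k N'))) := by
  obtain ⟨hy, hyi⟩ := t4ni_mem_Ov_of_mem_U O π hπ hN' W1 Fr W hqO O' π' C M m
    (t4ni_happrox O π hπ hN' W1 Fr W hqO O' π' C M) y.2
  obtain ⟨h, e1, e2, e3⟩ := mltl2h_T_Ov O π hπ hN' hN'ℓ W1 Fr W W1' Fr' W' hqO O' π' C M M'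
    hℓ hℓN hℓq hdegE ⟨_, hy⟩
  obtain ⟨hi, -, -, -⟩ := mltl2h_T_Ov O π hπ hN' hN'ℓ W1 Fr W W1' Fr' W' hqO O' π' C M M'
    hℓ hℓN hℓq hdegE ⟨_, hyi⟩
  have hU : Units.map (mltl2hT L N' q ℓ) (y : (↥(TaF L (N' * q * q)))ˣ) ∈
      (t4niAU O π hπ hN' W1 Fr W hqO O' π' C M m).U := by
    refine t4ni_mem_U_of_mem_Ov O π hπ hN' W1 Fr W hqO O' π' C M m
      (t4ni_happrox O π hπ hN' W1 Fr W hqO O' π' C M) h ?_
    rw [← map_inv]
    exact hi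
  exact ⟨⟨_, hU⟩, rfl, e1, e2, e3⟩

end Two

end Fermat.Agent.MLT
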