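/-
MLT / [L2-JL] (helper7), file 10: **compatibility of the T4 instances at the levels `N'` and `N' ℓ`
along `A_ℓ : F_L(N' q q) → F_L(N' ℓ q q)`** (the same Laurent series), `ℓ ≥ 1` ARBITRARY (not
necessarily prime, not necessarily prime to `N'`; e.g. `ℓ = 9` for the passage to a rigid level):

* the three vertical valuations: `v'_*(A y) = v_*(y)`,
* the three residue maps: `ρ'_*(A y) = ᾱ (ρ_* y)`,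
generic level and inertia level (`t4niAFix`, `t4niBFix`).
-/
import Mathlib
import Fermat.Agent.Lib.MLT.L2.HkMain
import Fermat.Agent.Lib.T4.New.InstFix

set_option autoImplicit false
set_option linter.unusedSectionVars false
set_option linter.unusedVariables false
set_option linter.style.haveILetI false
set_option synthInstance.maxHeartbeats 400000

open HahnSeries ModularCurve Fermat.Agent.T1 Fermat.Agent.T2 Fermat.Agent.T4 Fermat.Agent.Delta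
  IntermediateField Module AlgebraicCurve

noncomputable section

namespace Fermat.Agent.MLT

section Unif

variable (L : Type) [Field L] [Algebra ℚ L] (N' q ℓ : ℕ) [NeZero N'] [NeZero q] [NeZero ℓ]

theorem mltl2hA_Q : mltl2hA L N' q ℓ (t4vQ L N' q) = t4vQ L (N' * ℓ) q :=
  AlgHom.commutes _ _

theorem mltl2h_alpha_taJ : heckeAlphaBar L N' ℓ (taJ N') = taJ (N' * ℓ) := by
  apply Subtype.ext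
  rw [coe_heckeAlphaBar]
  rfl

theorem mltl2hA_Pi : mltl2hA L N' q ℓ (t4vPi L N' q) = t4vPi L (N' * ℓ) q := by
  rw [t4vPi, t4vPi, map_sub, mltl2hA_a2, mltl2hA_a0, mltl2h_alpha_taJ]

end Unif

section Two

variable {L : Type} [Field L] [Algebra ℚ L] (O : ValuationSubring L) {k : Type} [Field k]
  (π : ↥O →+* k) [IsDiscreteValuationRing ↥O] (hπ : Function.Surjective π) [IsAlgClosed k]
  {N' q ℓ : ℕ} [NeZero N'] [hq : Fact q.Prime] [NeZero ℓ] [CharP k q]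
  (hN' : (N' : k) ≠ 0) (hN'ℓ : ((N' * ℓ : ℕ) : k) ≠ 0)
  (W1 : T2iAL L N' q) (Fr : T2iFrob k N' q) (W : T4iAL L N' q)
  (W1' : T2iAL L (N' * ℓ) q) (Fr' : T2iFrob k (N' * ℓ) q) (W' : T4iAL L (N' * ℓ) q)
  (hqO : Irreducible ((q : ℕ) : ↥O))
  {L' : Type*} [Field L'] [Algebra L L'] (O' : ValuationSubring L')
  [IsDiscreteValuationRing ↥O'] (π' : ↥O' →+* k) (C : T4iCyc O O' π π' q)
  (M : T4iMid L L' N' q C.ζ) (M' : T4iMid L L' (N' * ℓ) q C.ζ)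

attribute [local instance] t2iAlgebra t2i_isScalarTower

/-! #### Valuations -/

theorem mltl2h_vinf_A (y : (↥(TaF L (N' * q * q)))ˣ) :
    t4niVinf O π hπ hqO (N' := N' * ℓ)
        (Additive.ofMul (Units.map (mltl2hA L N' q ℓ : ↥(TaF L (N' * q * q)) →*
          ↥(TaF L (N' * ℓ * q * q))) y)) =
      t4niVinf O π hπ hqO (N' := N') (Additive.ofMul y) := by
  have h := T4niUnif.ord_map (t4ni_unif_inf O π hπ (N' := N') hqO)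
    (t4ni_unif_inf O π hπ (N' := N' * ℓ) hqO)
    (mltl2hA L N' q ℓ : ↥(TaF L (N' * q * q)) →+* ↥(TaF L (N' * ℓ * q * q)))
    (fun a ha => mltl2h_inf_A_mem O π hπ ha) (e := 1) (u := 1) (Subring.one_mem _)
    (by rw [inv_one]; exact Subring.one_mem _)
    (by rw [zpow_one, mul_one]; exact mltl2hA_Q L N' q ℓ) y
  rw [one_mul] at h
  exact h

theorem mltl2h_vmid_A (y : (↥(TaF L (N' * q * q)))ˣ) :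
    t4niVmid O π hπ O' π' C M'
        (Additive.ofMul (Units.map (mltl2hA L N' q ℓ : ↥(TaF L (N' * q * q)) →*
          ↥(TaF L (N' * ℓ * q * q))) y)) =
      t4niVmid O π hπ O' π' C M (Additive.ofMul y) := by
  have h := T4niUnif.ord_map (t4ni_unif_mid O π hπ O' π' C M)
    (t4ni_unif_mid O π hπ O' π' C M')
    (mltl2hA L N' q ℓ : ↥(TaF L (N' * q * q)) →+* ↥(TaF L (N' * ℓ * q * q)))
    (fun a ha => mltl2h_mid_A_mem O π hπ O' π' C M M' ha) (e := 1) (u := 1) (Subring.one_mem _)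
    (by rw [inv_one]; exact Subring.one_mem _)
    (by rw [zpow_one, mul_one]; exact mltl2hA_Pi L N' q ℓ) y
  rw [one_mul] at h
  exact h

theorem mltl2h_v0_A (y : (↥(TaF L (N' * q * q)))ˣ) :
    t4niV0 O π hπ W' hqO
        (Additive.ofMul (Units.map (mltl2hA L N' q ℓ : ↥(TaF L (N' * q * q)) →*
          ↥(TaF L (N' * ℓ * q * q))) y)) =
      t4niV0 O π hπ W hqO (Additive.ofMul y) := by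
  have h := T4niUnif.ord_map (t4ni_unif_zero O π hπ W hqO) (t4ni_unif_zero O π hπ W' hqO)
    (mltl2hA L N' q ℓ : ↥(TaF L (N' * q * q)) →+* ↥(TaF L (N' * ℓ * q * q)))
    (fun a ha => mltl2h_zero_A_mem O π hπ W W' ha) (e := 1) (u := 1) (Subring.one_mem _)
    (by rw [inv_one]; exact Subring.one_mem _)
    (by rw [zpow_one, mul_one]; exact mltl2hA_Q L N' q ℓ) y
  rw [one_mul] at h
  exact h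

/-! #### Residues on `𝒪` -/

theorem mltl2h_A_mem_Ov {y : ↥(TaF L (N' * q * q))}
    (hy : y ∈ (t4vInput O π hπ hN' W1 Fr W hqO O' π' C M).Ov) :
    mltl2hA L N' q ℓ y ∈ (t4vInput O π hπ hN'ℓ W1' Fr' W' hqO O' π' C M').Ov := by
  obtain ⟨h1, h2, h3⟩ := (mem_t4vInput_Ov_iff O π hπ hN' W1 Fr W hqO O' π' C M _).mp hy
  exact (mem_t4vInput_Ov_iff O π hπ hN'ℓ W1' Fr' W' hqO O' π' C M' _).mpr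
    ⟨mltl2h_inf_A_mem O π hπ h1, mltl2h_zero_A_mem O π hπ W W' h2,
      mltl2h_mid_A_mem O π hπ O' π' C M M' h3⟩

theorem mltl2h_rho1_A (y : ↥(t4vInput O π hπ hN' W1 Fr W hqO O' π' C M).Ov) :
    t4niRho1 O π hπ hN'ℓ W1' Fr' W' hqO O' π' C M'
        ⟨_, mltl2h_A_mem_Ov O π hπ hN' hN'ℓ W1 Fr W W1' Fr' W' hqO O' π' C M M' y.2⟩ =
      dlhAlphaC k N' ℓ (t4niRho1 O π hπ hN' W1 Fr W hqO O' π' C M y) := by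
  apply Subtype.ext
  rw [coe_t4niRho1, coe_dlhAlphaC, coe_t4niRho1, t4ve_ρ₁_eq, t4ve_ρ₁_eq]
  exact mltl2h_inf_A_res O π hπ _

theorem mltl2h_rho2_A (y : ↥(t4vInput O π hπ hN' W1 Fr W hqO O' π' C M).Ov) :
    t4niRho2 O π hπ hN'ℓ W1' Fr' W' hqO O' π' C M'
        ⟨_, mltl2h_A_mem_Ov O π hπ hN' hN'ℓ W1 Fr W W1' Fr' W' hqO O' π' C M M' y.2⟩ =
      dlhAlphaC k N' ℓ (t4niRho2 O π hπ hN' W1 Fr W hqO O' π' C M y) := by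
  apply Subtype.ext
  rw [coe_t4niRho2, coe_dlhAlphaC, coe_t4niRho2, t4ve_ρ₂_eq, t4ve_ρ₂_eq]
  exact mltl2h_mid_A_res O π hπ O' π' C M M' _

theorem mltl2h_rho3_A (y : ↥(t4vInput O π hπ hN' W1 Fr W hqO O' π' C M).Ov) :
    t4niRho3 O π hπ hN'ℓ W1' Fr' W' hqO O' π' C M'
        ⟨_, mltl2h_A_mem_Ov O π hπ hN' hN'ℓ W1 Fr W W1' Fr' W' hqO O' π' C M M' y.2⟩ =
      dlhAlphaC k N' ℓ (t4niRho3 O π hπ hN' W1 Fr W hqO O' π' C M y) := by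
  apply Subtype.ext
  rw [coe_t4niRho3, coe_dlhAlphaC, coe_t4niRho3, t4ve_ρ₃_eq, t4ve_ρ₃_eq]
  exact mltl2h_zero_A_res O π hπ W W' _

/-! #### In terms of the instance `(D, B)` of T4-N -/

/-- `A` maps `D.U` into `D'.U` -/
theorem mltl2h_A_mem_U (m : ℕ) (y : ↥(t4niAU O π hπ hN' W1 Fr W hqO O' π' C M m).U) :
    Units.map (mltl2hA L N' q ℓ : ↥(TaF L (N' * q * q)) →* ↥(TaF L (N' * ℓ * q * q)))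
      (y : (↥(TaF L (N' * q * q)))ˣ) ∈ (t4niAU O π hπ hN'ℓ W1' Fr' W' hqO O' π' C M' m).U :=
  ⟨(mltl2h_vinf_A O π hπ hqO _).trans y.2.1,
    (mltl2h_vmid_A O π hπ O' π' C M M' _).trans y.2.2.1,
    (mltl2h_v0_A O π hπ W W' hqO _).trans y.2.2.2⟩

theorem mltl2h_rinf_A_U (m : ℕ) (hm : m ≠ 0) (hqm : Nat.Coprime m q)
    (y : ↥(t4niAU O π hπ hN' W1 Fr W hqO O' π' C M m).U) :
    (((t4niBU O π hπ hN'ℓ W1' Fr' W' hqO O' π' C M' m hm hqm).rinf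
        ⟨_, mltl2h_A_mem_U O π hπ hN' hN'ℓ W1 Fr W W1' Fr' W' hqO O' π' C M M' m y⟩ :
        (↥(modularFunctionFieldFullC k (N' * ℓ)))ˣ) : ↥(modularFunctionFieldFullC k (N' * ℓ))) =
      dlhAlphaC k N' ℓ (((t4niBU O π hπ hN' W1 Fr W hqO O' π' C M m hm hqm).rinf y :
        (↥(modularFunctionFieldFullC k N'))ˣ) : ↥(modularFunctionFieldFullC k N')) := by
  have hy := (t4ni_mem_Ov_of_mem_U O π hπ hN' W1 Fr W hqO O' π' C M m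
    (t4ni_happrox O π hπ hN' W1 Fr W hqO O' π' C M) y.2).1
  exact mltl2h_rho1_A O π hπ hN' hN'ℓ W1 Fr W W1' Fr' W' hqO O' π' C M M' ⟨_, hy⟩

theorem mltl2h_rmid_A_U (m : ℕ) (hm : m ≠ 0) (hqm : Nat.Coprime m q)
    (y : ↥(t4niAU O π hπ hN' W1 Fr W hqO O' π' C M m).U) :
    (((t4niBU O π hπ hN'ℓ W1' Fr' W' hqO O' π' C M' m hm hqm).rmid
        ⟨_, mltl2h_A_mem_U O π hπ hN' hN'ℓ W1 Fr W W1' Fr' W' hqO O' π' C M M' m y⟩ :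
        (↥(modularFunctionFieldFullC k (N' * ℓ)))ˣ) : ↥(modularFunctionFieldFullC k (N' * ℓ))) =
      dlhAlphaC k N' ℓ (((t4niBU O π hπ hN' W1 Fr W hqO O' π' C M m hm hqm).rmid y :
        (↥(modularFunctionFieldFullC k N'))ˣ) : ↥(modularFunctionFieldFullC k N')) := by
  have hy := (t4ni_mem_Ov_of_mem_U O π hπ hN' W1 Fr W hqO O' π' C M m
    (t4ni_happrox O π hπ hN' W1 Fr W hqO O' π' C M) y.2).1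
  exact mltl2h_rho2_A O π hπ hN' hN'ℓ W1 Fr W W1' Fr' W' hqO O' π' C M M' ⟨_, hy⟩

theorem mltl2h_r0_A_U (m : ℕ) (hm : m ≠ 0) (hqm : Nat.Coprime m q)
    (y : ↥(t4niAU O π hπ hN' W1 Fr W hqO O' π' C M m).U) :
    (((t4niBU O π hπ hN'ℓ W1' Fr' W' hqO O' π' C M' m hm hqm).r0
        ⟨_, mltl2h_A_mem_U O π hπ hN' hN'ℓ W1 Fr W W1' Fr' W' hqO O' π' C M M' m y⟩ :
        (↥(modularFunctionFieldFullC k (N' * ℓ)))ˣ) : ↥(modularFunctionFieldFullC k (N' * ℓ))) =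
      dlhAlphaC k N' ℓ (((t4niBU O π hπ hN' W1 Fr W hqO O' π' C M m hm hqm).r0 y :
        (↥(modularFunctionFieldFullC k N'))ˣ) : ↥(modularFunctionFieldFullC k N')) := by
  have hy := (t4ni_mem_Ov_of_mem_U O π hπ hN' W1 Fr W hqO O' π' C M m
    (t4ni_happrox O π hπ hN' W1 Fr W hqO O' π' C M) y.2).1
  exact mltl2h_rho3_A O π hπ hN' hN'ℓ W1 Fr W W1' Fr' W' hqO O' π' C M M' ⟨_, hy⟩

end Two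

/-! ### The inertia level -/

section Fix

open Fermat.Agent.TW Fermat.Agent.S05Lib

local notation "Qb" => AlgebraicClosure ℚ

attribute [local instance] t2i_dvr t2i_isAlgClosed t2i_charP t2i_fact t2iAlgebra t2i_isScalarTower

variable (𝔓 : FFPlace) (K ℓ : ℕ) [NeZero K] [NeZero ℓ] (hK : ¬ 𝔓.p ∣ K) (hKℓ : ¬ 𝔓.p ∣ K * ℓ)
  {ζ : Qb} (hζ : IsPrimitiveRoot ζ 𝔓.p) (p : ℕ)

/-- `v'_inf (A y) = v_inf y` for the instances at the levels `K ℓ` and `K` -/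
theorem mltj5_vinf_A (y : (↥(tbLevF 𝔓 (K * 𝔓.p * 𝔓.p) ⊤))ˣ) :
    (t4niAFix 𝔓 (K * ℓ) hKℓ hζ p).vinf
        (Additive.ofMul (Units.map (mltl2hA ↥(tbFix 𝔓 (⊤ : Subgroup 𝔓.I)) K 𝔓.p ℓ :
          ↥(tbLevF 𝔓 (K * 𝔓.p * 𝔓.p) ⊤) →* ↥(tbLevF 𝔓 (K * ℓ * 𝔓.p * 𝔓.p) ⊤)) y)) =
      (t4niAFix 𝔓 K hK hζ p).vinf (Additive.ofMul y) :=
  mltl2h_vinf_A (tbFixO 𝔓 ⊤) (tbFixRes 𝔓 ⊤) (tbFixRes_surjective 𝔓 ⊤) (t4cy_irreducible_p 𝔓) y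

/-- `v'_mid (A y) = v_mid y` -/
theorem mltj5_vmid_A (y : (↥(tbLevF 𝔓 (K * 𝔓.p * 𝔓.p) ⊤))ˣ) :
    (t4niAFix 𝔓 (K * ℓ) hKℓ hζ p).vmid
        (Additive.ofMul (Units.map (mltl2hA ↥(tbFix 𝔓 (⊤ : Subgroup 𝔓.I)) K 𝔓.p ℓ :
          ↥(tbLevF 𝔓 (K * 𝔓.p * 𝔓.p) ⊤) →* ↥(tbLevF 𝔓 (K * ℓ * 𝔓.p * 𝔓.p) ⊤)) y)) =
      (t4niAFix 𝔓 K hK hζ p).vmid (Additive.ofMul y) := by
  letI := t4cyAlgebra 𝔓 (le_top : t4cyH 𝔓 ζ ≤ ⊤)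
  exact mltl2h_vmid_A (tbFixO 𝔓 ⊤) (tbFixRes 𝔓 ⊤) (tbFixRes_surjective 𝔓 ⊤)
    (tbFixO 𝔓 (t4cyH 𝔓 ζ)) (tbFixRes 𝔓 (t4cyH 𝔓 ζ)) (t4iCycFix 𝔓 hζ) (t4vMidFix 𝔓 K hK hζ)
    (t4vMidFix 𝔓 (K * ℓ) hKℓ hζ) y

/-- `v'_0 (A y) = v_0 y` -/
theorem mltj5_v0_A (y : (↥(tbLevF 𝔓 (K * 𝔓.p * 𝔓.p) ⊤))ˣ) :
    (t4niAFix 𝔓 (K * ℓ) hKℓ hζ p).v0
        (Additive.ofMul (Units.map (mltl2hA ↥(tbFix 𝔓 (⊤ : Subgroup 𝔓.I)) K 𝔓.p ℓ :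
          ↥(tbLevF 𝔓 (K * 𝔓.p * 𝔓.p) ⊤) →* ↥(tbLevF 𝔓 (K * ℓ * 𝔓.p * 𝔓.p) ⊤)) y)) =
      (t4niAFix 𝔓 K hK hζ p).v0 (Additive.ofMul y) :=
  mltl2h_v0_A (tbFixO 𝔓 ⊤) (tbFixRes 𝔓 ⊤) (tbFixRes_surjective 𝔓 ⊤) (t4iALFix 𝔓 ⊤ K hK)
    (t4iALFix 𝔓 ⊤ (K * ℓ) hKℓ) (t4cy_irreducible_p 𝔓) y

/-- `A` maps the units `D.U` of the level `K` into the units `D'.U` of the level `K ℓ` -/
theorem mltj5_A_mem_U (y : ↥(t4niAFix 𝔓 K hK hζ p).U) :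
    Units.map (mltl2hA ↥(tbFix 𝔓 (⊤ : Subgroup 𝔓.I)) K 𝔓.p ℓ :
      ↥(tbLevF 𝔓 (K * 𝔓.p * 𝔓.p) ⊤) →* ↥(tbLevF 𝔓 (K * ℓ * 𝔓.p * 𝔓.p) ⊤))
      (y : (↥(tbLevF 𝔓 (K * 𝔓.p * 𝔓.p) ⊤))ˣ) ∈ (t4niAFix 𝔓 (K * ℓ) hKℓ hζ p).U :=
  ⟨(mltj5_vinf_A 𝔓 K ℓ hK hKℓ hζ p _).trans y.2.1,
    (mltj5_vmid_A 𝔓 K ℓ hK hKℓ hζ p _).trans y.2.2.1,
    (mltj5_v0_A 𝔓 K ℓ hK hKℓ hζ p _).trans y.2.2.2⟩

variable (hp0 : p ≠ 0) (hpq : Nat.Coprime p 𝔓.p)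

/-- `r'_inf (A y) = ᾱ (r_inf y)` -/
theorem mltj5_rinf_A (y : ↥(t4niAFix 𝔓 K hK hζ p).U) :
    (((t4niBFix 𝔓 (K * ℓ) hKℓ hζ p hp0 hpq).rinf ⟨_, mltj5_A_mem_U 𝔓 K ℓ hK hKℓ hζ p y⟩ :
        (↥(tbBarF 𝔓 (K * ℓ)))ˣ) : ↥(tbBarF 𝔓 (K * ℓ))) =
      dlhAlphaC (IsLocalRing.ResidueField ↥𝔓.P) K ℓ
        (((t4niBFix 𝔓 K hK hζ p hp0 hpq).rinf y : (↥(tbBarF 𝔓 K))ˣ) : ↥(tbBarF 𝔓 K)) := by
  letI := t4cyAlgebra 𝔓 (le_top : t4cyH 𝔓 ζ ≤ ⊤)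
  have key := mltl2h_rinf_A_U (tbFixO 𝔓 ⊤) (tbFixRes 𝔓 ⊤) (tbFixRes_surjective 𝔓 ⊤)
    (t2i_natCast_ne_zero 𝔓 hK) (t2i_natCast_ne_zero 𝔓 hKℓ) (t2iALFix 𝔓 ⊤ K hK) (t2iFrobFix 𝔓 K)
    (t4iALFix 𝔓 ⊤ K hK) (t2iALFix 𝔓 ⊤ (K * ℓ) hKℓ) (t2iFrobFix 𝔓 (K * ℓ))
    (t4iALFix 𝔓 ⊤ (K * ℓ) hKℓ) (t4cy_irreducible_p 𝔓) (tbFixO 𝔓 (t4cyH 𝔓 ζ))
    (tbFixRes 𝔓 (t4cyH 𝔓 ζ)) (t4iCycFix 𝔓 hζ) (t4vMidFix 𝔓 K hK hζ)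
    (t4vMidFix 𝔓 (K * ℓ) hKℓ hζ) p hp0 hpq
  exact key y

/-- `r'_mid (A y) = ᾱ (r_mid y)` -/
theorem mltj5_rmid_A (y : ↥(t4niAFix 𝔓 K hK hζ p).U) :
    (((t4niBFix 𝔓 (K * ℓ) hKℓ hζ p hp0 hpq).rmid ⟨_, mltj5_A_mem_U 𝔓 K ℓ hK hKℓ hζ p y⟩ :
        (↥(tbBarF 𝔓 (K * ℓ)))ˣ) : ↥(tbBarF 𝔓 (K * ℓ))) =
      dlhAlphaC (IsLocalRing.ResidueField ↥𝔓.P) K ℓ
        (((t4niBFix 𝔓 K hK hζ p hp0 hpq).rmid y : (↥(tbBarF 𝔓 K))ˣ) : ↥(tbBarF 𝔓 K)) := by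
  letI := t4cyAlgebra 𝔓 (le_top : t4cyH 𝔓 ζ ≤ ⊤)
  have key := mltl2h_rmid_A_U (tbFixO 𝔓 ⊤) (tbFixRes 𝔓 ⊤) (tbFixRes_surjective 𝔓 ⊤)
    (t2i_natCast_ne_zero 𝔓 hK) (t2i_natCast_ne_zero 𝔓 hKℓ) (t2iALFix 𝔓 ⊤ K hK) (t2iFrobFix 𝔓 K)
    (t4iALFix 𝔓 ⊤ K hK) (t2iALFix 𝔓 ⊤ (K * ℓ) hKℓ) (t2iFrobFix 𝔓 (K * ℓ))
    (t4iALFix 𝔓 ⊤ (K * ℓ) hKℓ) (t4cy_irreducible_p 𝔓) (tbFixO 𝔓 (t4cyH 𝔓 ζ))
    (tbFixRes 𝔓 (t4cyH 𝔓 ζ)) (t4iCycFix 𝔓 hζ) (t4vMidFix 𝔓 K hK hζ)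
    (t4vMidFix 𝔓 (K * ℓ) hKℓ hζ) p hp0 hpq
  exact key y

/-- `r'_0 (A y) = ᾱ (r_0 y)` -/
theorem mltj5_r0_A (y : ↥(t4niAFix 𝔓 K hK hζ p).U) :
    (((t4niBFix 𝔓 (K * ℓ) hKℓ hζ p hp0 hpq).r0 ⟨_, mltj5_A_mem_U 𝔓 K ℓ hK hKℓ hζ p y⟩ :
        (↥(tbBarF 𝔓 (K * ℓ)))ˣ) : ↥(tbBarF 𝔓 (K * ℓ))) =
      dlhAlphaC (IsLocalRing.ResidueField ↥𝔓.P) K ℓ
        (((t4niBFix 𝔓 K hK hζ p hp0 hpq).r0 y : (↥(tbBarF 𝔓 K))ˣ) : ↥(tbBarF 𝔓 K)) := by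
  letI := t4cyAlgebra 𝔓 (le_top : t4cyH 𝔓 ζ ≤ ⊤)
  have key := mltl2h_r0_A_U (tbFixO 𝔓 ⊤) (tbFixRes 𝔓 ⊤) (tbFixRes_surjective 𝔓 ⊤)
    (t2i_natCast_ne_zero 𝔓 hK) (t2i_natCast_ne_zero 𝔓 hKℓ) (t2iALFix 𝔓 ⊤ K hK) (t2iFrobFix 𝔓 K)
    (t4iALFix 𝔓 ⊤ K hK) (t2iALFix 𝔓 ⊤ (K * ℓ) hKℓ) (t2iFrobFix 𝔓 (K * ℓ))
    (t4iALFix 𝔓 ⊤ (K * ℓ) hKℓ) (t4cy_irreducible_p 𝔓) (tbFixO 𝔓 (t4cyH 𝔓 ζ))
    (tbFixRes 𝔓 (t4cyH 𝔓 ζ)) (t4iCycFix 𝔓 hζ) (t4vMidFix 𝔓 K hK hζ)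
    (t4vMidFix 𝔓 (K * ℓ) hKℓ hζ) p hp0 hpq
  exact key y

end Fix

end Fermat.Agent.MLT
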