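/-
MLT / [L2] (architect helper9), package P9, part 1: **the assembly at rigid levels**

    `MltjBrSS → MltjJLK → MltjGeomOut → MltL2JLRigid`.

Assume the level `K q` is not residually modular.  `ihbc_exists_killer` (level `K q`) gives a polynomial `h`
in the `T_ℓ` with `θ(h) ≠ 0` in `𝔽_p` which kills the torsion of `J₀(K q)(ℚ̄)`; (JL-K) says that all rows of the
matrix of `h` on `ℤ^Σ` are equal; (G-out) gives non-constant jump data `ξ : Σ → 𝕜ˣ`, `ξ^p` constant, which are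
an eigenvector modulo constants of the Brandt matrices with the eigenvalues of `W`; `mltj_mat_const` then says
that `ξ` is constant: contradiction.
-/
import Fermat.Agent.Lib.MLT.L2.Kill.SSMat
import Fermat.Agent.Lib.Ihara.B.Cmp.Killer

set_option autoImplicit false
set_option linter.unusedSectionVars false
set_option linter.unusedVariables false
set_option linter.style.haveILetI false
set_option synthInstance.maxHeartbeats 400000

open WeierstrassCurve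

namespace Fermat.Agent.MLT

open ModularCurve HahnSeries Fermat.Agent.T1 Fermat.Agent.T2 Fermat.Agent.TW
  Fermat.Agent.Delta Fermat.Agent.T3 Fermat.Agent.Alpha AlgebraicCurve Fermat.Agent.Curve
  Fermat.Agent.Ihara Fermat.Agent.Mazur Fermat.Agent.S33 Fermat.Agent.S33Q

local notation "Qb" => AlgebraicClosure ℚ
local notation "GQ" => (AlgebraicClosure ℚ ≃ₐ[ℚ] AlgebraicClosure ℚ)

noncomputable section

attribute [local instance 5000] dlhAlgK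

/-- the set of the good primes for `(W, M, p)` -/
def mltjGoodSet (W : WeierstrassCurve ℤ) (M p : ℕ) : Set Nat.Primes :=
  {ℓ | ¬ ((ℓ : Nat.Primes) : ℕ) ∣ M ∧ W.IsGoodPrimeFor ((ℓ : Nat.Primes) : ℕ) ∧ ((ℓ : Nat.Primes) : ℕ) ≠ p}

theorem mltjGoodSet_not_dvd (W : WeierstrassCurve ℤ) (M p : ℕ) :
    ∀ ℓ ∈ mltjGoodSet W M p, ¬ ((ℓ : Nat.Primes) : ℕ) ∣ M := fun ℓ hℓ => hℓ.1

/-- **the killer at a level which is not residually modular** -/
theorem mltj_exists_killer {p : ℕ} (hp : p.Prime) (W : WeierstrassCurve ℤ) (M : ℕ) [NeZero M]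
    (hM : ¬ W.IsResiduallyModularOfLevel p M) :
    ∃ h : FreeAlgebra ℤ ↥(mltjGoodSet W M p),
      ((ihbcThetaZ (mltjGoodSet W M p) (fun ℓ => W.apOfModel ℓ) h : ℤ) : ZMod p) ≠ 0 ∧
      ∀ (n : ℕ), n ≠ 0 → ∀ y : JZero M, n • y = 0 → ihbcRhoJ M (mltjGoodSet W M p) h y = 0 := by
  haveI : Fact p.Prime := ⟨hp⟩
  obtain ⟨h, hθ, hkill⟩ := ihbc_exists_killer M (mltjGoodSet W M p) (mltjGoodSet_not_dvd W M p) p hp
    (fun ℓ => W.apOfModel ℓ) (fun x hxp heig => by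
      by_contra hx0
      refine hM (dlw_D0 M p W x hx0 hxp (fun ℓ hℓ hℓM hgood hℓp => ?_))
      exact heig ⟨ℓ, hℓ⟩ ⟨hℓM, hgood, hℓp⟩)
  rw [ihbcTheta_eq] at hθ
  exact ⟨h, hθ, hkill⟩

/-- **[L2-JL] at rigid levels, from the three contracts** -/
theorem mltj_JL_rigid (hBS : MltjBrSS) (hJ : MltjJLK) (hG : MltjGeomOut) : MltL2JLRigid := by
  classical
  intro p hp hp2 W hΔ hss hirr K q _ _ hq hqp hqK h49 hpq A hA x hx0 hxE hfix hpA hpB
  by_contra hnot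
  set 𝔓 : FFPlace := ⟨A, q, hq, hA⟩ with h𝔓
  haveI : NeZero K := ⟨fun h0 => NeZero.ne (K * q) (by rw [h0, zero_mul])⟩
  have hK : ¬ 𝔓.p ∣ K := hqK
  rcases hG p hp hp2 W hΔ hss hirr 𝔓 K hK h49 hqp hpq x hx0 hxE hfix hpA hpB with hlev | hξ
  · exact hnot hlev
  obtain ⟨ξ, hξp, ⟨P₀, hP₀, P₁, hP₁, hne⟩, hξe⟩ := hξ
  -- the killer
  set S : Set Nat.Primes := mltjGoodSet W (K * 𝔓.p) p with hSdef
  have hS : ∀ ℓ ∈ S, ¬ ((ℓ : Nat.Primes) : ℕ) ∣ K * 𝔓.p := mltjGoodSet_not_dvd W (K * 𝔓.p) p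
  obtain ⟨h, hθ, hkill⟩ := mltj_exists_killer hp W (K * 𝔓.p) hnot
  have hJLK := hJ 𝔓 K hK h49 S hS h hkill
  have hBS' := hBS 𝔓 K hK h49
  -- the finite set `Σ`
  haveI : Fintype ↥(mltjSS 𝔓 K hK h49) := (mltjSS_finite 𝔓 K hK h49).fintype
  -- the vector
  let f' : Place (IsLocalRing.ResidueField ↥𝔓.P) ↥(tbBarF 𝔓 K) →
      Additive (IsLocalRing.ResidueField ↥𝔓.P)ˣ := fun Q => Additive.ofMul (ξ Q)
  let f : ↥(mltjSS 𝔓 K hK h49) → Additive (IsLocalRing.ResidueField ↥𝔓.P)ˣ := fun Q => f' Q.1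
  have hrow : ∀ ℓ : ↥S, ∃ r, MltjRowSum (mltjMat 𝔓 K hK h49 S hS ℓ) r := fun ℓ =>
    ⟨_, mltj_rowSum 𝔓 K hK h49 S hS hBS' ℓ⟩
  have heig : ∀ ℓ : ↥S, MltjEigMod (mltjMat 𝔓 K hK h49 S hS ℓ) f (W.apOfModel ℓ.1) := by
    intro ℓ
    haveI : NeZero ((ℓ : Nat.Primes) : ℕ) := ⟨ℓ.1.2.ne_zero⟩
    obtain ⟨c, hc⟩ := hξe ((ℓ : Nat.Primes) : ℕ) ℓ.1.2 (mltj_ne_p 𝔓 K S hS ℓ)
      (mltj_not_dvd_K 𝔓 K S hS ℓ) ℓ.2.2.1 ℓ.2.2.2
    refine ⟨Additive.ofMul c, fun P => ?_⟩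
    have h1 := congrArg Additive.ofMul (hc P.1 P.2)
    rw [ofMul_mul, ofMul_zpow] at h1
    rw [mltjMulVec_apply, ← h1]
    have h2 := mltj_sum_SS 𝔓 K hK h49 (mltjBrTS 𝔓 K hK S hS ℓ (Finsupp.single P.1 1))
      (fun Q hQ => mltj_brT_supp 𝔓 K hK h49 S hS hBS' ℓ P Q hQ) (fun Q n => n • f' Q)
      (fun Q => zero_smul _ _)
    refine Eq.trans ?_ (Eq.trans h2.symm ?_)
    · rfl
    · unfold Finsupp.sum Finsupp.prod
      rw [ofMul_prod]
      refine Finset.sum_congr rfl fun Q _ => ?_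
      rw [ofMul_zpow]
      rfl
  have hrows : ∀ P P' Q : ↥(mltjSS 𝔓 K hK h49),
      FreeAlgebra.lift ℤ (mltjMat 𝔓 K hK h49 S hS) h P Q
        = FreeAlgebra.lift ℤ (mltjMat 𝔓 K hK h49 S hS) h P' Q := by
    intro P P' Q
    set v : Place (IsLocalRing.ResidueField ↥𝔓.P) ↥(tbBarF 𝔓 K) → ℤ :=
      fun R => if R = Q.1 then 1 else 0 with hv
    have hcol : ∀ R : ↥(mltjSS 𝔓 K hK h49),
        mltjFunRho 𝔓 K hK S hS h v R.1
          = FreeAlgebra.lift ℤ (mltjMat 𝔓 K hK h49 S hS) h R Q := by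
      intro R
      rw [mltjFunRho_mat 𝔓 K hK h49 S hS hBS' h v R, Finset.sum_eq_single Q]
      · rw [hv]
        simp only [if_true, mul_one]
      · intro Q' _ hQ'
        rw [hv]
        simp only
        rw [if_neg (fun h => hQ' (Subtype.ext h)), mul_zero]
      · intro hQ
        exact absurd (Finset.mem_univ Q) hQ
    rw [← hcol P, ← hcol P']
    exact hJLK v P.1 P.2 P'.1 P'.2
  have hf : ∀ P P' : ↥(mltjSS 𝔓 K hK h49), p • (f P - f P') = 0 := by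
    intro P P'
    rw [nsmul_sub, sub_eq_zero]
    show p • Additive.ofMul (ξ P.1) = p • Additive.ofMul (ξ P'.1)
    rw [← ofMul_pow, ← ofMul_pow, hξp P.1 P.2 P'.1 P'.2]
  have hconst := mltj_mat_const (mltjMat 𝔓 K hK h49 S hS) (fun ℓ : ↥S => W.apOfModel ℓ.1) f hrow heig h
    hrows p hp hθ hf ⟨P₀, hP₀⟩ ⟨P₁, hP₁⟩
  exact hne (Additive.ofMul.injective hconst)

end

end Fermat.Agent.MLT
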