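/-
MLT / [L2] (architect helper9), package P9, part 2: **the assembly of the non-rigid case (γ)**

    `MltjBrSS → MltjJLKTwo → MltjGeomOutTwo → MltL2JLTwo`   (`p = 3`, `q = 2`, `K₀` odd squarefree, `e = 9`).

Assume the level `K₀ · 2` is not residually modular.  `mltj_exists_killer` (level `K₀ · 2`) gives a polynomial `h`
in the `T_ℓ`, `ℓ` good, `ℓ ∤ K₀ · 2`, `ℓ ≠ 3`, with `θ(h) ≠ 0` in `𝔽_3` which kills the torsion of `J₀(K₀ · 2)(ℚ̄)`;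
(JL-K, two levels) says that the matrix of `h` on `ℤ^Σ`, `Σ = mltjSS 𝔓 (K₀ · 9)`, maps the functions which are
constant on the classes of `mltjSame` to functions which are constant on `Σ`; (G-out, two levels) gives
non-constant jump data `ξ : Σ → 𝕜ˣ`, `ξ³` constant, constant on the classes of `mltjSame`, an eigenvector modulo
constants of the Brandt matrices of the level `K₀ · 9` with the eigenvalues of `W`.  The indicator functions of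
the level sets of `ξ` are constant on the classes of `mltjSame`, so `(h^{Br} ξ)` is constant on `Σ`
(`mltj_mulVec_eq_of_level`), and `mltj_mat_const_of_eq` says that `ξ` is constant: contradiction.
-/
import Fermat.Agent.Lib.MLT.L2.Assembly
import Fermat.Agent.Lib.MLT.L2.Kill.MatrixTwo
import Fermat.Agent.Lib.MLT.Contracts.L2JLTwo

set_option autoImplicit false
set_option linter.unusedSectionVars false
set_option linter.unusedVariables false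
set_option linter.style.haveILetI false
set_option synthInstance.maxHeartbeats 400000

open WeierstrassCurve

namespace Fermat.Agent.MLT

open ModularCurve HahnSeries Fermat.Agent.T1 Fermat.Agent.T2 Fermat.Agent.TW
  Fermat.Agent.Delta Fermat.Agent.T3 Fermat.Agent.Alpha AlgebraicCurve Fermat.Agent.Curve
  Fermat.Agent.Ihara Fermat.Agent.Mazur Fermat.Agent.S33 Fermat.Agent.S33Q

local notation "Qb" => AlgebraicClosure ℚ
local notation "GQ" => (AlgebraicClosure ℚ ≃ₐ[ℚ] AlgebraicClosure ℚ)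

noncomputable section

attribute [local instance 5000] dlhAlgK

/-- **[L2-JL] at `p = 3`, `q = 2`, `K₀` odd squarefree, from the three two-level contracts** -/
theorem mltj_JL_two (hBS : MltjBrSS) (hJ : MltjJLKTwo) (hG : MltjGeomOutTwo) : MltL2JLTwo := by
  classical
  intro W hΔ hss hirr K₀ _ h2K hsq A hA x hx0 hxE hfix hpA hpB
  by_contra hnot
  have hp : Nat.Prime 3 := Nat.prime_three
  set 𝔓 : FFPlace := ⟨A, 2, Nat.prime_two, hA⟩ with h𝔓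
  have h𝔓p : 𝔓.p = 2 := rfl
  haveI : NeZero K₀ := ⟨fun h0 => NeZero.ne (K₀ * 2) (by rw [h0, zero_mul])⟩
  have hK : ¬ 𝔓.p ∣ K₀ * 9 := by
    intro h
    rcases (Nat.Prime.dvd_mul Nat.prime_two).mp h with h1 | h1
    · exact h2K h1
    · norm_num at h1
  have h49 : 4 ∣ K₀ * 9 ∨ 9 ∣ K₀ * 9 := Or.inr (Dvd.intro_left K₀ rfl)
  rcases hG W hΔ hss hirr 𝔓 K₀ h𝔓p h2K hsq hK h49 x hx0 hxE hfix hpA hpB with hlev | hξ
  · exact hnot hlev
  obtain ⟨ξ, hξp, ⟨P₀, hP₀, P₁, hP₁, hne⟩, hξsame, hξe⟩ := hξ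
  -- the killer at the level `K₀ · 2`
  set S : Set Nat.Primes := mltjGoodSet W (K₀ * 𝔓.p) 3 with hSdef
  have hS : ∀ ℓ ∈ S, ¬ ((ℓ : Nat.Primes) : ℕ) ∣ K₀ * 9 * 𝔓.p := by
    intro ℓ hℓ h
    rcases (Nat.Prime.dvd_mul ℓ.2).mp h with h1 | h1
    · rcases (Nat.Prime.dvd_mul ℓ.2).mp h1 with h2 | h2
      · exact hℓ.1 (Dvd.dvd.mul_right h2 _)
      · have h3 : ((ℓ : Nat.Primes) : ℕ) ∣ 3 ^ 2 := by norm_num; exact h2
        exact hℓ.2.2 ((Nat.prime_dvd_prime_iff_eq ℓ.2 hp).mp (ℓ.2.dvd_of_dvd_pow h3))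
    · exact hℓ.1 (Dvd.dvd.mul_left h1 _)
  obtain ⟨h, hθ, hkill⟩ := mltj_exists_killer hp W (K₀ * 𝔓.p) hnot
  have hJLK := hJ 𝔓 K₀ h𝔓p hK h49 S hS h hkill
  have hBS' := hBS 𝔓 (K₀ * 9) hK h49
  haveI : Fintype ↥(mltjSS 𝔓 (K₀ * 9) hK h49) := (mltjSS_finite 𝔓 (K₀ * 9) hK h49).fintype
  -- the vector
  let f' : Place (IsLocalRing.ResidueField ↥𝔓.P) ↥(tbBarF 𝔓 (K₀ * 9)) →
      Additive (IsLocalRing.ResidueField ↥𝔓.P)ˣ := fun Q => Additive.ofMul (ξ Q)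
  let f : ↥(mltjSS 𝔓 (K₀ * 9) hK h49) → Additive (IsLocalRing.ResidueField ↥𝔓.P)ˣ := fun Q => f' Q.1
  have hrow : ∀ ℓ : ↥S, ∃ r, MltjRowSum (mltjMat 𝔓 (K₀ * 9) hK h49 S hS ℓ) r := fun ℓ =>
    ⟨_, mltj_rowSum 𝔓 (K₀ * 9) hK h49 S hS hBS' ℓ⟩
  have heig : ∀ ℓ : ↥S, MltjEigMod (mltjMat 𝔓 (K₀ * 9) hK h49 S hS ℓ) f (W.apOfModel ℓ.1) := by
    intro ℓ
    haveI : NeZero ((ℓ : Nat.Primes) : ℕ) := ⟨ℓ.1.2.ne_zero⟩
    obtain ⟨c, hc⟩ := hξe ((ℓ : Nat.Primes) : ℕ) ℓ.1.2 (mltj_ne_p 𝔓 (K₀ * 9) S hS ℓ)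
      (mltj_not_dvd_K 𝔓 (K₀ * 9) S hS ℓ) ℓ.2.2.1 ℓ.2.2.2
    refine ⟨Additive.ofMul c, fun P => ?_⟩
    have h1 := congrArg Additive.ofMul (hc P.1 P.2)
    rw [ofMul_mul, ofMul_zpow] at h1
    rw [mltjMulVec_apply, ← h1]
    have h2 := mltj_sum_SS 𝔓 (K₀ * 9) hK h49
      (mltjBrTS 𝔓 (K₀ * 9) hK S hS ℓ (Finsupp.single P.1 1))
      (fun Q hQ => mltj_brT_supp 𝔓 (K₀ * 9) hK h49 S hS hBS' ℓ P Q hQ) (fun Q n => n • f' Q)
      (fun Q => zero_smul _ _)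
    refine Eq.trans ?_ (Eq.trans h2.symm ?_)
    · rfl
    · unfold Finsupp.sum Finsupp.prod
      rw [ofMul_prod]
      refine Finset.sum_congr rfl fun Q _ => ?_
      rw [ofMul_zpow]
      rfl
  -- `(h^{Br} f)` is constant on `Σ`
  have hMf : ∀ P P' : ↥(mltjSS 𝔓 (K₀ * 9) hK h49),
      mltjMulVec (FreeAlgebra.lift ℤ (mltjMat 𝔓 (K₀ * 9) hK h49 S hS) h) f P
        = mltjMulVec (FreeAlgebra.lift ℤ (mltjMat 𝔓 (K₀ * 9) hK h49 S hS) h) f P' := by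
    intro P P'
    refine mltj_mulVec_eq_of_level _ f P P' (fun m₀ => ?_)
    set v : Place (IsLocalRing.ResidueField ↥𝔓.P) ↥(tbBarF 𝔓 (K₀ * 9)) → ℤ :=
      fun R => if f' R = m₀ then 1 else 0 with hv
    have hvsame : ∀ R ∈ mltjSS 𝔓 (K₀ * 9) hK h49, ∀ R' ∈ mltjSS 𝔓 (K₀ * 9) hK h49,
        mltjSame 𝔓 K₀ 9 hK h49 R R' → v R = v R' := by
      intro R hR R' hR' hRR'
      have h3 : f' R = f' R' := congrArg Additive.ofMul (hξsame R hR R' hR' hRR')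
      rw [hv]
      simp only
      rw [h3]
    have h4 := hJLK v hvsame P.1 P.2 P'.1 P'.2
    rw [mltjFunRho_mat 𝔓 (K₀ * 9) hK h49 S hS hBS' h v P,
      mltjFunRho_mat 𝔓 (K₀ * 9) hK h49 S hS hBS' h v P'] at h4
    exact h4
  have hf : ∀ P P' : ↥(mltjSS 𝔓 (K₀ * 9) hK h49), 3 • (f P - f P') = 0 := by
    intro P P'
    rw [nsmul_sub, sub_eq_zero]
    show 3 • Additive.ofMul (ξ P.1) = 3 • Additive.ofMul (ξ P'.1)
    rw [← ofMul_pow, ← ofMul_pow, hξp P.1 P.2 P'.1 P'.2]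
  have hconst := mltj_mat_const_of_eq (mltjMat 𝔓 (K₀ * 9) hK h49 S hS)
    (fun ℓ : ↥S => W.apOfModel ℓ.1) f hrow heig h ⟨P₀, hP₀⟩ ⟨P₁, hP₁⟩ (hMf _ _) 3 hp hθ (hf _ _)
  exact hne (Additive.ofMul.injective hconst)

end

end Fermat.Agent.MLT
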