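/-
MLT / [L2] (helper9): **the class-level core of CAR-MOD and the wiring to the contract**.

`MltL2Core`: for `p` odd, `W` semistable with `W[p]` irreducible, a level `M` with `q² ∥ M`, `q ≠ p`,
a place `A | q` of `ℚ̄`: a non-zero class `x ∈ J₀(M)[p]` in the `W`-eigenspace (`dlwEig M p W`) which is
fixed by the inertia group of `A` forces residual modularity of the level `M / q`.

`mltl2_contract_of_core : MltL2Core → MltL2Contract` is pure wiring: `dlw_exists_eigen`,
`dlw_exists_iso` (a Galois-equivariant copy `V₀ ≅ W[p]` inside the eigenspace) and `s58l_fixed` (the inertia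
group at a semistable prime `q ≠ p` fixes at least `p` points of `W[p]`, hence a non-zero one).
-/
import Mathlib
import Fermat.Agent.Lib.MLT.Contracts.L2
import Fermat.Agent.Lib.Delta.Wire.Final
import Fermat.Agent.Lib.S58.LocalFinal
import Fermat.Agent.Lib.Helper6.FrobeniusExists

set_option autoImplicit false
set_option linter.unusedSectionVars false
set_option linter.unusedVariables false
set_option linter.style.haveILetI false

open WeierstrassCurve WeierstrassCurve.Affine WeierstrassCurve.Affine.Point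

namespace Fermat.Agent.MLT

open ModularCurve Fermat.Agent.Delta Fermat.Agent.S58 Fermat.Agent.S24Lib

local notation "Qb" => AlgebraicClosure ℚ
local notation "GQ" => (AlgebraicClosure ℚ ≃ₐ[ℚ] AlgebraicClosure ℚ)

/-- **the class-level core of CAR-MOD**: an inertia-fixed non-zero class of the `W`-eigenspace of
`J₀(M)[p]`, `q² ∥ M`, `q ≠ p`, gives residual modularity of the level `M / q` -/
def MltL2Core : Prop :=
  ∀ (p : ℕ), p.Prime → p ≠ 2 →
    ∀ (W : WeierstrassCurve ℤ), W.Δ ≠ 0 → W.IsSemistableModel → W.ModRepIsIrreducible p →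
      ∀ (M q : ℕ) [NeZero M], q.Prime → q ≠ p → q ^ 2 ∣ M → ¬ q ^ 3 ∣ M →
        ∀ (A : ValuationSubring Qb), A.LiesOverPrime q →
          ∀ x : JZero M, x ≠ 0 → x ∈ dlwEig M p W →
            (∀ σ ∈ A.inertiaSubgroupIn ℚ, σ • x = x) →
            W.IsResiduallyModularOfLevel p (M / q)

/-- the inertia group at a semistable prime `q ≠ p` fixes a non-zero point of `W[p]`, `p` odd -/
theorem mltl2_exists_fixed (W : WeierstrassCurve ℤ) (hΔ : W.Δ ≠ 0) (hss : W.IsSemistableModel)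
    {p q : ℕ} (hp : p.Prime) (hp2 : p ≠ 2) (hq : q.Prime) (hqp : q ≠ p)
    (A : ValuationSubring Qb) (hA : A.LiesOverPrime q) :
    ∃ Q : S58Tors W p, Q ≠ 0 ∧ ∀ σ ∈ A.inertiaSubgroupIn ℚ, σ • Q = Q := by
  have hodd : Odd p := hp.odd_of_ne_two hp2
  have hqp' : ¬ q ∣ p := fun h => hqp ((Nat.prime_dvd_prime_iff_eq hq hp).mp h)
  obtain ⟨T₀, hfin, hcard, hfix⟩ := s58l_fixed W hΔ hq (hss q hq) hodd hqp' A hA
  have h2 : 1 < T₀.ncard := lt_of_lt_of_le hp.one_lt hcard
  obtain ⟨Q, hQ, hQ0⟩ := Set.exists_ne_of_one_lt_ncard h2 (0 : S58Tors W p)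
  exact ⟨Q, hQ0, fun σ hσ => hfix σ hσ Q hQ⟩

/-- **the contract of [L2] from the class-level core** -/
theorem mltl2_contract_of_core (hcore : MltL2Core) : MltL2Contract := by
  intro p hp hp2 W hΔ hss hirr M q hM hq hqp hq2 hq3 hres
  haveI : Fact p.Prime := ⟨hp⟩
  haveI : NeZero M := ⟨hM.ne'⟩
  obtain ⟨f, 𝔪, hf, hmax, hpm, hcong⟩ := hres
  obtain ⟨x₀, hx₀, hx₀p, hx₀e⟩ :=
    dlw_exists_eigen (N := M) (p := p) (W := W) f 𝔪 hf hmax hpm hcong
  obtain ⟨V₀, ψ, hle, hstab, hψ⟩ := dlw_exists_iso M hp2 W hΔ hirr x₀ hx₀ ⟨hx₀p, hx₀e⟩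
  obtain ⟨A, φ, hA, -⟩ := Fermat.Agent.Lib.Helper6.exists_frobenius q hq
  obtain ⟨Q, hQ0, hQfix⟩ := mltl2_exists_fixed W hΔ hss hp hp2 hq hqp A hA
  refine hcore p hp hp2 W hΔ hss hirr M q hq hqp hq2 hq3 A hA ((ψ Q : ↥V₀) : JZero M) ?_
    (hle (ψ Q).2) ?_
  · intro h0
    apply hQ0
    apply ψ.injective
    rw [_root_.map_zero]
    exact Subtype.ext h0
  · intro σ hσ
    rw [← hψ, hQfix σ hσ]

end Fermat.Agent.MLT
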