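/-
MLT / [L2-JL] / (G-Hecke)(a) (helper7), file 8: **the characteristic-`p` inputs WITHOUT rigidity of the
level**: for every level `N` prime to the residue characteristic and `ℓ ∤ N` prime,
`[F̄_{Nℓ} : ᾱ F̄_N] = ℓ + 1` (helper5's `ta_bar_finrank`: `[F̄_N : k(j̄)] = ψ(N)` at EVERY level), and helper3's
norm formula `T̃_ℓ x̄ = N_ᾱ (β̄ x̄)` (`dlh_norm_beta`, there at a rigid level) at every level.
-/
import Mathlib
import Fermat.Agent.Lib.Delta.Hecke.NormBar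
import Fermat.Agent.Lib.T1.GoodRed.BarDegree
import Fermat.Agent.Lib.T2.Inst.LevelH

set_option autoImplicit false
set_option linter.unusedSectionVars false
set_option linter.unusedVariables false
set_option linter.style.haveILetI false
set_option synthInstance.maxHeartbeats 400000

namespace Fermat.Agent.MLT

open ModularCurve HahnSeries Fermat.Agent.T1 Fermat.Agent.T2 Fermat.Agent.TW Fermat.Agent.S24Lib
  Fermat.Agent.S05Lib AlgebraicCurve Fermat.Agent.Curve Fermat.Agent.T3 Fermat.Agent.Delta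
  IntermediateField Module

local notation "Qb" => AlgebraicClosure ℚ

noncomputable section

/-- **`[F̄_{Nℓ} : ᾱ F̄_N] = ℓ + 1`** at every level `N` invertible in `k` -/
theorem mltl2h_finrank_alphaC (k : Type*) [Field k] [IsAlgClosed k] (N ℓ : ℕ) [NeZero N]
    [NeZero ℓ] (hN : (N : k) ≠ 0) (hNℓ : ((N * ℓ : ℕ) : k) ≠ 0) (hℓ : ℓ.Prime)
    (hℓN : ¬ ℓ ∣ N) :
    @finrank ↥(modularFunctionFieldFullC k N) ↥(modularFunctionFieldFullC k (N * ℓ)) _ _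
      (algebraAlong (dlhAlphaC k N ℓ)).toModule = ℓ + 1 := by
  have h1 := dlh_finrank_tower (dlhAlphaC k N ℓ) (taBarJ k N)
  have h2 : dlhAlphaC k N ℓ (taBarJ k N) = taBarJ k (N * ℓ) :=
    Subtype.ext (coe_dlhAlphaC k N ℓ _)
  rw [h2, ta_bar_finrank k N hN, ta_bar_finrank k (N * ℓ) hNℓ,
    Fermat.Agent.Igusa.igPsi_mul_prime_of_not_dvd hℓ hℓN] at h1
  have hpos : 0 < dedekindPsi N := Fermat.Agent.Igusa.igPsi_pos (NeZero.ne N)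
  exact Nat.eq_of_mul_eq_mul_left hpos h1

attribute [local instance 5000] dlhAlgK

section Place

variable (𝔓 : FFPlace) {N ℓ : ℕ} [NeZero N] [NeZero ℓ]

/-- `[F̄_{Nℓ} : ᾱ F̄_N] = ℓ + 1` at the place `𝔓` -/
theorem mltl2h_finrank_alphaC_P (hN : ¬ 𝔓.p ∣ N) (hℓ : ℓ.Prime) (hℓN : ¬ ℓ ∣ N)
    (hℓp : ℓ ≠ 𝔓.p) :
    @finrank ↥(tbBarF 𝔓 N) ↥(tbBarF 𝔓 (N * ℓ)) _ _
      (algebraAlong (dlhAlphaC (IsLocalRing.ResidueField ↥𝔓.P) N ℓ)).toModule = ℓ + 1 := by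
  haveI : IsAlgClosed (IsLocalRing.ResidueField ↥𝔓.P) := t2i_isAlgClosed 𝔓
  exact mltl2h_finrank_alphaC _ N ℓ (t2i_natCast_ne_zero 𝔓 hN)
    (t2i_natCast_ne_zero 𝔓 (dlh_not_dvd_mul 𝔓 hN hℓ hℓp)) hℓ hℓN

/-- **the norm formula in characteristic `p`** at every level prime to `p` -/
theorem mltl2h_norm_beta (hN : ¬ 𝔓.p ∣ N) (hℓ : ℓ.Prime) (hℓN : ¬ ℓ ∣ N)
    (hℓp : ℓ ≠ 𝔓.p) (ζ : (↥𝔓.P)ˣ)
    (hζK : IsPrimitiveRoot ((Units.map (𝔓.P.subtype : ↥𝔓.P →* Qb) ζ : Qbˣ) : Qb) ℓ)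
    (hζk : IsPrimitiveRoot ((Units.map ((IsLocalRing.residue ↥𝔓.P : ↥𝔓.P →+*
        IsLocalRing.ResidueField ↥𝔓.P) : ↥𝔓.P →* IsLocalRing.ResidueField ↥𝔓.P) ζ :
        (IsLocalRing.ResidueField ↥𝔓.P)ˣ) : IsLocalRing.ResidueField ↥𝔓.P) ℓ)
    (x : ↥(tbBarF 𝔓 N)) :
    ((@Algebra.norm ↥(tbBarF 𝔓 N) ↥(tbBarF 𝔓 (N * ℓ)) _ _
        (algebraAlong (dlhAlphaC (IsLocalRing.ResidueField ↥𝔓.P) N ℓ))
        (dlhBetaC (IsLocalRing.ResidueField ↥𝔓.P) N ℓ x) : ↥(tbBarF 𝔓 N)) :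
      LaurentSeries (IsLocalRing.ResidueField ↥𝔓.P)) =
      tkrTilde ℓ hζk (x : LaurentSeries (IsLocalRing.ResidueField ↥𝔓.P)) := by
  haveI : Fact ℓ.Prime := ⟨hℓ⟩
  have hNℓ : ¬ 𝔓.p ∣ N * ℓ := dlh_not_dvd_mul 𝔓 hN hℓ hℓp
  letI := algebraAlong (heckeAlphaBar Qb N ℓ)
  letI := algebraAlong (dlhAlphaC (IsLocalRing.ResidueField ↥𝔓.P) N ℓ)
  haveI : FiniteDimensional ↥(tbBarF 𝔓 N) ↥(tbBarF 𝔓 (N * ℓ)) := by
    apply FiniteDimensional.of_finrank_pos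
    rw [mltl2h_finrank_alphaC_P 𝔓 hN hℓ hℓN hℓp]
    omega
  have d := dlh_redExt 𝔓 N hN ℓ hNℓ
  obtain ⟨y, rfl⟩ := (tbBaseQ (t3aOK 𝔓 N hN)).res_surj x
  have hdeg : finrank ↥(modularFunctionFieldBar N) ↥(modularFunctionFieldBar (N * ℓ)) =
      finrank ↥(tbBarF 𝔓 N) ↥(tbBarF 𝔓 (N * ℓ)) := by
    rw [mltl2h_finrank_alphaC_P 𝔓 hN hℓ hℓN hℓp]
    exact t3k_finrank_alpha N ℓ hℓN
  obtain ⟨hmem, hres⟩ := d.norm_red hdeg
    ⟨heckeBetaBar Qb N ℓ (y : ↥(modularFunctionFieldBar N)), dlh_beta_mem 𝔓 N ℓ y⟩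
  rw [dlh_res_beta 𝔓 N hN ℓ hNℓ y] at hres
  show ((Algebra.norm ↥(tbBarF 𝔓 N) (dlhBetaC (IsLocalRing.ResidueField ↥𝔓.P) N ℓ
    ((tbBaseQ (t3aOK 𝔓 N hN)).res y)) : ↥(tbBarF 𝔓 N)) :
      LaurentSeries (IsLocalRing.ResidueField ↥𝔓.P)) = _
  have hres' : Algebra.norm ↥(tbBarF 𝔓 N) (dlhBetaC (IsLocalRing.ResidueField ↥𝔓.P) N ℓ
      ((tbBaseQ (t3aOK 𝔓 N hN)).res y)) = tbResQ (t3aOK 𝔓 N hN)
        ⟨Algebra.norm ↥(modularFunctionFieldBar N)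
          (heckeBetaBar Qb N ℓ (y : ↥(modularFunctionFieldBar N))), hmem⟩ := hres.symm
  rw [hres', coe_tbResQ]
  have h1 : Algebra.norm ↥(modularFunctionFieldBar N)
      (heckeBetaBar Qb N ℓ (y : ↥(modularFunctionFieldBar N))) =
      tkrHecke N ℓ (y : ↥(modularFunctionFieldBar N)) := t3k_norm_eq N ℓ hℓN _
  show tbRhoFun 𝔓.P (IsLocalRing.residue ↥𝔓.P)
    ((Algebra.norm ↥(modularFunctionFieldBar N)
      (heckeBetaBar Qb N ℓ (y : ↥(modularFunctionFieldBar N))) : ↥(modularFunctionFieldBar N)) :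
        LaurentSeries Qb) = _
  rw [h1, ← tkrTilde_eq_tkrHecke hℓ hℓN hζK,
    (dlh_gauss_tilde 𝔓.P (IsLocalRing.residue ↥𝔓.P) y.2 ℓ ζ hζK hζk).2]
  rfl

end Place

end

end Fermat.Agent.MLT
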