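/-
MLT / [L2-JL] / (G-Hecke)(a) (helper7), file 4: **the functional Hecke operator over the inertia
field**.  `T_ℓ^L y := N_{A_ℓ}(B_ℓ y)` for `y ∈ F_L(N' q q)` satisfies
`Φ (T_ℓ^L y) = tkrHecke (N' q q) ℓ (Φ y)` over `ℚ̄`.

* `mltl2h_norm_bc`  : base change of the norm (general fields);
* `mltl2h_norm_Qb`  : `N_{A_ℓ}(B_ℓ y) = tkrHecke (N' q q) ℓ y` over `ℚ̄` (helper7's `t3k_norm_eq` through the
  identification of the two ways of writing the level);
* `mltl2h_norm_phi` : the formula over `L = tbFix 𝔓 H`.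
-/
import Mathlib
import Fermat.Agent.Lib.MLT.L2.HkLevel
import Fermat.Agent.Lib.T3.Hecke.Emb
import Fermat.Agent.Lib.T1.Inst.CartUp
import Fermat.Agent.Lib.T2.AL.Field

set_option autoImplicit false
set_option linter.unusedSectionVars false
set_option linter.unusedVariables false
set_option linter.style.haveILetI false

open HahnSeries ModularCurve Fermat.Agent.T1 Fermat.Agent.T2 Fermat.Agent.T3 Fermat.Agent.T4 Fermat.Agent.TW
  IntermediateField Module AlgebraicCurve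

noncomputable section

namespace Fermat.Agent.MLT

local notation "Qb" => AlgebraicClosure ℚ

/-- **base change of the norm**: `F ⊂ F'`, `G ⊂ G'` of the same finite degree, `φ : F → G`,
`φ' : F' → G'` compatible, `G' = G · φ'(F')`.  Then `N_{G'/G}(φ' x) = φ (N_{F'/F} x)`. -/
theorem mltl2h_norm_bc {F F' G G' : Type*} [Field F] [Field F'] [Field G] [Field G']
    [Algebra F F'] [Algebra G G'] [FiniteDimensional F F'] (φ : F →+* G) (φ' : F' →+* G')
    (hcomm : ∀ x : F, φ' (algebraMap F F' x) = algebraMap G G' (φ x))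
    (hdeg : finrank G G' = finrank F F')
    (hspan : Submodule.span G (Set.range φ') = ⊤) (x : F') :
    Algebra.norm G (φ' x) = φ (Algebra.norm F x) := by
  classical
  set n := finrank F F' with hn
  let b : Basis (Fin n) F F' := Module.finBasis F F'
  let c : Fin n → G' := fun i => φ' (b i)
  have hsm : ∀ (a : F) (y : F'), φ' (a • y) = φ a • φ' y := by
    intro a y
    rw [Algebra.smul_def, map_mul, hcomm, Algebra.smul_def]
  have hc : ⊤ ≤ Submodule.span G (Set.range c) := by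
    rw [← hspan]
    refine Submodule.span_le.mpr ?_
    rintro _ ⟨y, rfl⟩
    rw [← b.sum_repr y, map_sum]
    refine Submodule.sum_mem _ fun i _ => ?_
    rw [hsm]
    exact Submodule.smul_mem _ _ (Submodule.subset_span ⟨i, rfl⟩)
  let B : Basis (Fin n) G G' := basisOfTopLeSpanOfCardEqFinrank c hc (by
    rw [Fintype.card_fin, hdeg])
  have hB : ∀ i, B i = φ' (b i) := fun i => by
    rw [coe_basisOfTopLeSpanOfCardEqFinrank]
  rw [Algebra.norm_eq_matrix_det B, Algebra.norm_eq_matrix_det b, RingHom.map_det]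
  congr 1
  ext i j
  rw [RingHom.mapMatrix_apply, Matrix.map_apply, Algebra.leftMulMatrix_eq_repr_mul]
  have h1 : φ' x * B j = ∑ i, φ (Algebra.leftMulMatrix b x i j) • B i := by
    have h2 : x * b j = ∑ i, Algebra.leftMulMatrix b x i j • b i := by
      simp only [Algebra.leftMulMatrix_eq_repr_mul]
      rw [b.sum_repr]
    rw [hB, ← map_mul, h2, map_sum]
    refine Finset.sum_congr rfl fun i _ => ?_
    rw [hsm, hB]
  rw [h1, B.repr_sum_self]

/-! ### Over `ℚ̄` -/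

section OverQb

variable (L : Type) [Field L] [Algebra ℚ L] (N' q ℓ : ℕ) [NeZero N'] [NeZero q] [NeZero ℓ]

/-- the identification of the two ways of writing the level, as an equivalence -/
def mltl2hCastE : ↥(TaF L (N' * q * q * ℓ)) ≃ₐ[L] ↥(TaF L (N' * ℓ * q * q)) :=
  IntermediateField.equivOfEq (congrArg (TaF L) (mltl2h_level_eq N' q ℓ))

variable {L N' q ℓ}

theorem mltl2h_coe_equivOfEq {F E : Type*} [Field F] [Field E] [Algebra F E]
    {S T : IntermediateField F E} (h : S = T) (x : ↥S) :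
    ((IntermediateField.equivOfEq h x : ↥T) : E) = (x : E) := by
  subst h
  rfl

theorem coe_mltl2hCastE (x : ↥(TaF L (N' * q * q * ℓ))) :
    ((mltl2hCastE L N' q ℓ x : ↥(TaF L (N' * ℓ * q * q))) : LaurentSeries L) =
      (x : LaurentSeries L) :=
  mltl2h_coe_equivOfEq _ x

theorem mltl2hA_eq_cast (x : ↥(TaF L (N' * q * q))) :
    mltl2hA L N' q ℓ x = mltl2hCastE L N' q ℓ (heckeAlphaBar L (N' * q * q) ℓ x) := by
  apply Subtype.ext
  rw [coe_mltl2hA, coe_mltl2hCastE, coe_heckeAlphaBar]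

theorem mltl2hB_eq_cast (x : ↥(TaF L (N' * q * q))) :
    mltl2hB L N' q ℓ x = mltl2hCastE L N' q ℓ (heckeBetaBar L (N' * q * q) ℓ x) := by
  apply Subtype.ext
  rw [coe_mltl2hB, coe_mltl2hCastE, coe_heckeBetaBar]

end OverQb

section NormQb

variable (N' q ℓ : ℕ) [NeZero N'] [NeZero q] [hℓ : Fact ℓ.Prime]

/-- the compatibility square of the two algebra structures -/
theorem mltl2h_cast_square :
    (@algebraMap ↥(modularFunctionFieldBar (N' * q * q))
        ↥(modularFunctionFieldBar (N' * ℓ * q * q)) _ _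
        (mltl2hA Qb N' q ℓ).toRingHom.toAlgebra).comp
      ((RingEquiv.refl ↥(modularFunctionFieldBar (N' * q * q)) :
        ↥(modularFunctionFieldBar (N' * q * q)) ≃+* ↥(modularFunctionFieldBar (N' * q * q))) :
        ↥(modularFunctionFieldBar (N' * q * q)) →+* ↥(modularFunctionFieldBar (N' * q * q))) =
    (((mltl2hCastE Qb N' q ℓ).toRingEquiv : ↥(modularFunctionFieldBar (N' * q * q * ℓ)) ≃+*
        ↥(modularFunctionFieldBar (N' * ℓ * q * q))) :
        ↥(modularFunctionFieldBar (N' * q * q * ℓ)) →+*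
          ↥(modularFunctionFieldBar (N' * ℓ * q * q))).comp
      (@algebraMap ↥(modularFunctionFieldBar (N' * q * q))
        ↥(modularFunctionFieldBar (N' * q * q * ℓ)) _ _
        (algebraAlong (heckeAlphaBar Qb (N' * q * q) ℓ))) := by
  refine RingHom.ext fun x => ?_
  rw [RingHom.comp_apply, RingHom.comp_apply]
  exact mltl2hA_eq_cast x

/-- `[F_{N' ℓ q q} : A_ℓ F_{N' q q}] = ℓ + 1` over `ℚ̄` -/
theorem mltl2h_finrank_Qb (h : ¬ ℓ ∣ N' * q * q) :
    @finrank ↥(modularFunctionFieldBar (N' * q * q)) ↥(modularFunctionFieldBar (N' * ℓ * q * q)) _ _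
      (mltl2hA Qb N' q ℓ).toRingHom.toAlgebra.toModule = ℓ + 1 := by
  rw [← t3k_finrank_alpha (N' * q * q) ℓ h]
  symm
  exact @Algebra.finrank_eq_of_equiv_equiv _ _ _ _ (algebraAlong (heckeAlphaBar Qb (N' * q * q) ℓ))
    _ _ _ _ (mltl2hA Qb N' q ℓ).toRingHom.toAlgebra (RingEquiv.refl _)
    (mltl2hCastE Qb N' q ℓ).toRingEquiv (mltl2h_cast_square N' q ℓ)

/-- **the functional Hecke operator is `N_{A_ℓ} ∘ B_ℓ`** over `ℚ̄` -/
theorem mltl2h_norm_Qb (h : ¬ ℓ ∣ N' * q * q) (y : ↥(modularFunctionFieldBar (N' * q * q))) :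
    @Algebra.norm ↥(modularFunctionFieldBar (N' * q * q))
      ↥(modularFunctionFieldBar (N' * ℓ * q * q)) _ _
      (mltl2hA Qb N' q ℓ).toRingHom.toAlgebra (mltl2hB Qb N' q ℓ y) = tkrHecke (N' * q * q) ℓ y := by
  rw [← t3k_norm_eq (N' * q * q) ℓ h y]
  have h1 := @Algebra.norm_eq_of_equiv_equiv _ _ _ _ _ _ _ _
    (algebraAlong (heckeAlphaBar Qb (N' * q * q) ℓ)) (mltl2hA Qb N' q ℓ).toRingHom.toAlgebra
    (RingEquiv.refl _) (mltl2hCastE Qb N' q ℓ).toRingEquiv (mltl2h_cast_square N' q ℓ)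
    (heckeBetaBar Qb (N' * q * q) ℓ y)
  rw [h1, mltl2hB_eq_cast]
  rfl

end NormQb

/-! ### Over the fixed field `L = tbFix 𝔓 H` -/

section OverL

variable (𝔓 : FFPlace) (H : Subgroup 𝔓.I) (N' q ℓ : ℕ) [NeZero N'] [NeZero q] [NeZero ℓ]

theorem mltl2h_phi_A (x : ↥(tbLevF 𝔓 (N' * q * q) H)) :
    tbPhiF 𝔓 (N' * ℓ * q * q) H (mltl2hA ↥(tbFix 𝔓 H) N' q ℓ x) =
      mltl2hA Qb N' q ℓ (tbPhiF 𝔓 (N' * q * q) H x) := by
  apply Subtype.ext
  rw [coe_tbPhiF, coe_mltl2hA, coe_mltl2hA, coe_tbPhiF]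

theorem mltl2h_phi_B (x : ↥(tbLevF 𝔓 (N' * q * q) H)) :
    tbPhiF 𝔓 (N' * ℓ * q * q) H (mltl2hB ↥(tbFix 𝔓 H) N' q ℓ x) =
      mltl2hB Qb N' q ℓ (tbPhiF 𝔓 (N' * q * q) H x) := by
  apply Subtype.ext
  rw [coe_tbPhiF, coe_mltl2hB, coe_mltl2hB, coe_tbPhiF]
  exact coeffMap_qExpand _ ℓ _

/-- the generators `j(𝔮^d)` are defined over `L` -/
theorem mltl2h_phi_Jd (N : ℕ) [NeZero N] (d : ℕ) (hd : d ∣ N) :
    tbPhiF 𝔓 N H (t2wJd ↥(tbFix 𝔓 H) N d hd) = t2wJd Qb N d hd := by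
  haveI : NeZero d := t2w_neZero_of_dvd N hd
  apply Subtype.ext
  rw [coe_tbPhiF, coe_t2wJd, coe_t2wJd]
  show coeffMap _ (qExpand _ d (jqModC _)) = _
  rw [coeffMap_qExpand, coeffMap_jqModC]

/-- **`F_{ℚ̄}(N' ℓ q q) = A_ℓ F_{ℚ̄}(N' q q) · Φ F_L(N' ℓ q q)`** -/
theorem mltl2h_span [hℓ : Fact ℓ.Prime] (h : ¬ ℓ ∣ N' * q * q) :
    @Submodule.span ↥(modularFunctionFieldBar (N' * q * q))
      ↥(modularFunctionFieldBar (N' * ℓ * q * q)) _ _
      (mltl2hA Qb N' q ℓ).toRingHom.toAlgebra.toModule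
      (Set.range (tbPhiF 𝔓 (N' * ℓ * q * q) H)) = ⊤ := by
  letI : Algebra ↥(modularFunctionFieldBar (N' * q * q))
    ↥(modularFunctionFieldBar (N' * ℓ * q * q)) := (mltl2hA Qb N' q ℓ).toRingHom.toAlgebra
  haveI : FiniteDimensional ↥(modularFunctionFieldBar (N' * q * q))
      ↥(modularFunctionFieldBar (N' * ℓ * q * q)) := by
    apply FiniteDimensional.of_finrank_pos
    rw [mltl2h_finrank_Qb N' q ℓ h]
    omega
  set S : Subalgebra ↥(modularFunctionFieldBar (N' * q * q))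
    ↥(modularFunctionFieldBar (N' * ℓ * q * q)) :=
    Algebra.adjoin _ (Set.range (tbPhiF 𝔓 (N' * ℓ * q * q) H)) with hS
  have hmem : ∀ x : ↥(modularFunctionFieldBar (N' * ℓ * q * q)), x ∈ S := by
    intro x
    refine t2w_induction Qb (N' * ℓ * q * q) (P := fun x => x ∈ S) ?_ ?_ ?_ ?_ ?_ x
    · intro c
      have h1 : algebraMap Qb ↥(modularFunctionFieldBar (N' * ℓ * q * q)) c =
          algebraMap ↥(modularFunctionFieldBar (N' * q * q))
            ↥(modularFunctionFieldBar (N' * ℓ * q * q))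
            (algebraMap Qb ↥(modularFunctionFieldBar (N' * q * q)) c) :=
        ((mltl2hA Qb N' q ℓ).commutes c).symm
      rw [h1]
      exact S.algebraMap_mem _
    · intro d hd
      rw [← mltl2h_phi_Jd 𝔓 H (N' * ℓ * q * q) d hd]
      exact Algebra.subset_adjoin ⟨_, rfl⟩
    · intro x y hx hy
      exact S.add_mem hx hy
    · intro x y hx hy
      exact S.mul_mem hx hy
    · intro x hx
      exact (S.inv_mem_of_algebraic (x := ⟨x, hx⟩) (Algebra.IsAlgebraic.isAlgebraic x))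
  have h1 : Subalgebra.toSubmodule S = Submodule.span _
      (Set.range (tbPhiF 𝔓 (N' * ℓ * q * q) H)) := by
    rw [hS, Algebra.adjoin_eq_span]
    congr 1
    have h2 : Set.range (tbPhiF 𝔓 (N' * ℓ * q * q) H) =
        ((MonoidHom.mrange (tbPhiF 𝔓 (N' * ℓ * q * q) H) :
          Submonoid ↥(modularFunctionFieldBar (N' * ℓ * q * q))) :
            Set ↥(modularFunctionFieldBar (N' * ℓ * q * q))) := by
      rw [MonoidHom.coe_mrange]
    rw [h2, Submonoid.closure_eq]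
  rw [← h1]
  refine Submodule.eq_top_iff'.mpr fun x => ?_
  exact hmem x

/-- **the functional Hecke operator over `L`**: `Φ (N_{A_ℓ}(B_ℓ y)) = tkrHecke (N' q q) ℓ (Φ y)` -/
theorem mltl2h_norm_phi [hℓ : Fact ℓ.Prime] (h : ¬ ℓ ∣ N' * q * q)
    (hdeg : @finrank ↥(tbLevF 𝔓 (N' * q * q) H) ↥(tbLevF 𝔓 (N' * ℓ * q * q) H) _ _
      (mltl2hA ↥(tbFix 𝔓 H) N' q ℓ).toRingHom.toAlgebra.toModule = ℓ + 1)
    (y : ↥(tbLevF 𝔓 (N' * q * q) H)) :
    tbPhiF 𝔓 (N' * q * q) H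
      (@Algebra.norm ↥(tbLevF 𝔓 (N' * q * q) H) ↥(tbLevF 𝔓 (N' * ℓ * q * q) H) _ _
        (mltl2hA ↥(tbFix 𝔓 H) N' q ℓ).toRingHom.toAlgebra (mltl2hB ↥(tbFix 𝔓 H) N' q ℓ y)) =
      tkrHecke (N' * q * q) ℓ (tbPhiF 𝔓 (N' * q * q) H y) := by
  letI : Algebra ↥(modularFunctionFieldBar (N' * q * q))
    ↥(modularFunctionFieldBar (N' * ℓ * q * q)) := (mltl2hA Qb N' q ℓ).toRingHom.toAlgebra
  letI : Algebra ↥(tbLevF 𝔓 (N' * q * q) H) ↥(tbLevF 𝔓 (N' * ℓ * q * q) H) :=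
    (mltl2hA ↥(tbFix 𝔓 H) N' q ℓ).toRingHom.toAlgebra
  haveI : FiniteDimensional ↥(tbLevF 𝔓 (N' * q * q) H) ↥(tbLevF 𝔓 (N' * ℓ * q * q) H) := by
    apply FiniteDimensional.of_finrank_pos
    rw [hdeg]
    omega
  have h1 := mltl2h_norm_bc (tbPhiF 𝔓 (N' * q * q) H) (tbPhiF 𝔓 (N' * ℓ * q * q) H)
    (fun x => mltl2h_phi_A 𝔓 H N' q ℓ x)
    ((mltl2h_finrank_Qb N' q ℓ h).trans hdeg.symm) (mltl2h_span 𝔓 H N' q ℓ h)
    (mltl2hB ↥(tbFix 𝔓 H) N' q ℓ y)
  rw [← h1, mltl2h_phi_B]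
  exact mltl2h_norm_Qb N' q ℓ h _

end OverL

end Fermat.Agent.MLT
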