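/-
MLT / [L2-JL] / (G-Hecke)(a) (helper7), file 9: **the vertical part is Eisenstein**:
`v_*(T_ℓ^L y) = (ℓ + 1) v_*(y)` for EVERY `y ∈ F_L(N' q q)ˣ` and `* = inf, mid, 0`, and the
contract `MltjVertHeckeAt` of helper1 (P2) at the inertia level, at every level `K` prime to `q`.

Proof: `u := y^e / q^{v(y)}` (`e = v_*(q) ∈ {1, q - 1}`) is a unit of `O_*`, `T_ℓ^L` preserves `O_*`
(`mltl2h_T_inf/mid/zero`, i.e. helper3's `DlhRedExt.norm_red`), and `T_ℓ^L c = c^{ℓ+1}` on constants.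
-/
import Mathlib
import Fermat.Agent.Lib.MLT.L2.AbDefs
import Fermat.Agent.Lib.MLT.L2.HkMain
import Fermat.Agent.Lib.MLT.L2.HkNormBC
import Fermat.Agent.Lib.MLT.L2.HkGen

set_option autoImplicit false
set_option linter.unusedSectionVars false
set_option linter.unusedVariables false
set_option linter.style.haveILetI false
set_option synthInstance.maxHeartbeats 400000

open HahnSeries ModularCurve Fermat.Agent.T1 Fermat.Agent.T2 Fermat.Agent.T4 Fermat.Agent.Delta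
  IntermediateField Module AlgebraicCurve

noncomputable section

namespace Fermat.Agent.MLT

/-- **abstract Eisenstein property**: a multiplicative endomorphism `T` of a field preserving a
uniformised valuation ring `V`, with `T c = c ^ d` for one element `c` of non-zero order, multiplies
the order by `d` -/
theorem mltl2h_ord_T {F : Type*} [Field F] {V : Subring F} {ϖ : F} (h : T4niUnif V ϖ)
    (T : F →* F) (hTV : ∀ u ∈ V, T u ∈ V) (c : Fˣ) {e : ℤ} (he : e ≠ 0)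
    (hc : h.ord (Additive.ofMul c) = e) (d : ℕ) (hTc : T (c : F) = (c : F) ^ d) (y : Fˣ) :
    h.ord (Additive.ofMul (Units.map T y)) = d * h.ord (Additive.ofMul y) := by
  set n := h.ord (Additive.ofMul y) with hn
  set u : Fˣ := y ^ e * c ^ (-n) with hu
  have hu0 : h.ord (Additive.ofMul u) = 0 := by
    rw [hu, ofMul_mul, map_add, ofMul_zpow, map_zsmul, ofMul_zpow, map_zsmul, hc, ← hn,
      smul_eq_mul, smul_eq_mul]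
    ring
  obtain ⟨h1, h2⟩ := (h.unit_iff_ord_eq_zero u).mpr hu0
  have h3 : ((Units.map T u : Fˣ) : F) ∈ V := hTV _ h1
  have h4 : (((Units.map T u)⁻¹ : Fˣ) : F) ∈ V := by
    rw [← map_inv]
    exact hTV _ h2
  have h5 := (h.unit_iff_ord_eq_zero (Units.map T u)).mp ⟨h3, h4⟩
  have hTc' : Units.map T c = c ^ d := Units.ext (by
    rw [Units.coe_map, Units.val_pow_eq_pow_val]
    exact hTc)
  rw [hu, map_mul, map_zpow, map_zpow, hTc', ofMul_mul, map_add, ofMul_zpow, map_zsmul,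
    ofMul_zpow, map_zsmul, ofMul_pow, map_nsmul, hc, smul_eq_mul, smul_eq_mul,
    nsmul_eq_mul] at h5
  have h6 : e * (h.ord (Additive.ofMul (Units.map T y)) - d * n) = 0 := by
    linear_combination h5
  rcases mul_eq_zero.mp h6 with h7 | h7
  · exact absurd h7 he
  · linarith

section Two

variable {L : Type} [Field L] [Algebra ℚ L] (O : ValuationSubring L) {k : Type} [Field k]
  (π : ↥O →+* k) [IsDiscreteValuationRing ↥O] (hπ : Function.Surjective π) [IsAlgClosed k]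
  {N' q ℓ : ℕ} [NeZero N'] [hq : Fact q.Prime] [NeZero ℓ] [CharP k q]
  (hN' : (N' : k) ≠ 0) (hN'ℓ : ((N' * ℓ : ℕ) : k) ≠ 0)
  (W1 : T2iAL L N' q) (Fr : T2iFrob k N' q) (W : T4iAL L N' q)
  (W1' : T2iAL L (N' * ℓ) q) (Fr' : T2iFrob k (N' * ℓ) q) (W' : T4iAL L (N' * ℓ) q)
  (hqO : Irreducible ((q : ℕ) : ↥O))
  {L' : Type*} [Field L'] [Algebra L L'] (O' : ValuationSubring L')
  [IsDiscreteValuationRing ↥O'] (π' : ↥O' →+* k) (C : T4iCyc O O' π π' q)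
  (M : T4iMid L L' N' q C.ζ) (M' : T4iMid L L' (N' * ℓ) q C.ζ)

attribute [local instance] t2iAlgebra t2i_isScalarTower

include O π hπ hN' hN'ℓ W1 Fr W W1' Fr' W' hqO O' π' C M M' in
/-- `T_ℓ^L c = c ^ (ℓ + 1)` on constants -/
theorem mltl2hT_const (hℓ : ℓ.Prime) (hℓN : ¬ ℓ ∣ N') (a : L) :
    mltl2hT L N' q ℓ (algebraMap L ↥(TaF L (N' * q * q)) a) =
      (algebraMap L ↥(TaF L (N' * q * q)) a) ^ (ℓ + 1) := by
  letI : Algebra ↥(TaF L (N' * q * q)) ↥(TaF L (N' * ℓ * q * q)) :=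
    (mltl2hA L N' q ℓ).toRingHom.toAlgebra
  have hdeg := mltl2h_finrank_A O π hπ hN' hN'ℓ W1 Fr W W1' Fr' W' hqO O' π' C M M' hℓ hℓN
  have h1 : mltl2hB L N' q ℓ (algebraMap L ↥(TaF L (N' * q * q)) a) =
      algebraMap ↥(TaF L (N' * q * q)) ↥(TaF L (N' * ℓ * q * q))
        (algebraMap L ↥(TaF L (N' * q * q)) a) := by
    rw [AlgHom.commutes]
    exact ((mltl2hA L N' q ℓ).commutes a).symm
  rw [mltl2hT_apply, h1, Algebra.norm_algebraMap, hdeg]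

include hN' W1 Fr hN'ℓ W1' Fr' W' M' in
/-- **`v_*(T_ℓ^L y) = (ℓ + 1) v_*(y)`** for every `y ≠ 0` and `* = inf, mid, 0` -/
theorem mltl2h_vert (hℓ : ℓ.Prime) (hℓN : ¬ ℓ ∣ N') (hℓq : ¬ q ∣ ℓ)
    (y : (↥(TaF L (N' * q * q)))ˣ) :
    t4niVinf O π hπ hqO (N' := N') (Additive.ofMul (Units.map (mltl2hT L N' q ℓ) y)) =
      ((ℓ : ℤ) + 1) * t4niVinf O π hπ hqO (N' := N') (Additive.ofMul y) ∧
    t4niVmid O π hπ O' π' C M (Additive.ofMul (Units.map (mltl2hT L N' q ℓ) y)) =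
      ((ℓ : ℤ) + 1) * t4niVmid O π hπ O' π' C M (Additive.ofMul y) ∧
    t4niV0 O π hπ W hqO (Additive.ofMul (Units.map (mltl2hT L N' q ℓ) y)) =
      ((ℓ : ℤ) + 1) * t4niV0 O π hπ W hqO (Additive.ofMul y) := by
  have hdegE := mltl2h_finrank_alphaC k N' ℓ hN' hN'ℓ hℓ hℓN
  set qL : Lˣ := Units.mk0 ((q : ℕ) : L) (t4vn_q_ne_zero O hqO) with hqL
  set c : (↥(TaF L (N' * q * q)))ˣ :=
    Units.map (algebraMap L ↥(TaF L (N' * q * q)) : L →* ↥(TaF L (N' * q * q))) qL with hc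
  have hvL : t4niVL O hqO (Additive.ofMul qL) = 1 := (t4ni_unif_L O (q := q) hqO).ord_unif
  have hTc : mltl2hT L N' q ℓ (c : ↥(TaF L (N' * q * q))) =
      (c : ↥(TaF L (N' * q * q))) ^ (ℓ + 1) :=
    mltl2hT_const O π hπ hN' hN'ℓ W1 Fr W W1' Fr' W' hqO O' π' C M M' hℓ hℓN _
  have hq1 : ((q : ℤ) - 1) ≠ 0 := by
    have := hq.out.two_le
    omega
  refine ⟨?_, ?_, ?_⟩
  · have h := mltl2h_ord_T (t4ni_unif_inf O π hπ (N' := N') hqO) (mltl2hT L N' q ℓ)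
      (fun u hu => (mltl2h_T_inf O π hπ hN' hN'ℓ W1 Fr W W1' Fr' W' hqO O' π' C M M' hℓ hℓN
        hdegE ⟨u, hu⟩).1) c one_ne_zero
      ((t4ni_Vinf_const O π hπ hqO (N' := N') qL).trans hvL) (ℓ + 1) hTc y
    refine Eq.trans h ?_
    push_cast
    rfl
  · have h := mltl2h_ord_T (t4ni_unif_mid O π hπ O' π' C M) (mltl2hT L N' q ℓ)
      (fun u hu => (mltl2h_T_mid O π hπ hN' hN'ℓ W1 Fr W W1' Fr' W' hqO O' π' C M M' hℓ hℓN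
        hℓq hdegE ⟨u, hu⟩).1) c hq1
      ((t4ni_Vmid_const O π hπ hqO O' π' C M qL).trans (by rw [hvL, mul_one])) (ℓ + 1) hTc y
    refine Eq.trans h ?_
    push_cast
    rfl
  · have h := mltl2h_ord_T (t4ni_unif_zero O π hπ W hqO) (mltl2hT L N' q ℓ)
      (fun u hu => (mltl2h_T_zero O π hπ hN' hN'ℓ W1 Fr W W1' Fr' W' hqO O' π' C M M' hℓ hℓN
        hdegE ⟨u, hu⟩).1) c one_ne_zero
      ((t4ni_V0_const O π hπ W hqO qL).trans hvL) (ℓ + 1) hTc y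
    refine Eq.trans h ?_
    push_cast
    rfl

end Two

/-! ### The inertia level: helper1's contract `MltjVertHeckeAt` -/

section Fix

open Fermat.Agent.TW Fermat.Agent.S05Lib Fermat.Agent.T3 Fermat.Agent.Curve

local notation "Qb" => AlgebraicClosure ℚ

attribute [local instance] t2i_dvr t2i_isAlgClosed t2i_charP t2i_fact t2iAlgebra t2i_isScalarTower

/-- **(VERT-HECKE)** (the body of helper1's `MltjVertHeckeAt 𝔓 K hK hζ p`, with `mltl2PhiU` for the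
definitionally equal `mltj1PhiU`): for `ℓ ∤ K q` prime, `T_ℓ^fun` preserves rationality over the inertia
field and multiplies the three vertical valuations of the T4 model by `ℓ + 1`; EVERY level `K` prime to
`q`, every `y ≠ 0` -/
theorem mltj5_vertHecke (𝔓 : FFPlace) (K : ℕ) [NeZero K] (hK : ¬ 𝔓.p ∣ K) {ζ : Qb}
    (hζ : IsPrimitiveRoot ζ 𝔓.p) (p : ℕ) :
    ∀ (ℓ : ℕ) [NeZero ℓ], ℓ.Prime → ¬ ℓ ∣ K * 𝔓.p * 𝔓.p →
      ∀ y : (↥(tbLevF 𝔓 (K * 𝔓.p * 𝔓.p) ⊤))ˣ,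
        ∃ y' : (↥(tbLevF 𝔓 (K * 𝔓.p * 𝔓.p) ⊤))ˣ,
          mltl2PhiU 𝔓 (K * 𝔓.p * 𝔓.p) y' =
            tkrHeckeUnits (K * 𝔓.p * 𝔓.p) ℓ (mltl2PhiU 𝔓 (K * 𝔓.p * 𝔓.p) y) ∧
          (t4niAFix 𝔓 K hK hζ p).vinf (Additive.ofMul y') =
            ((ℓ : ℤ) + 1) * (t4niAFix 𝔓 K hK hζ p).vinf (Additive.ofMul y) ∧
          (t4niAFix 𝔓 K hK hζ p).vmid (Additive.ofMul y') =
            ((ℓ : ℤ) + 1) * (t4niAFix 𝔓 K hK hζ p).vmid (Additive.ofMul y) ∧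
          (t4niAFix 𝔓 K hK hζ p).v0 (Additive.ofMul y') =
            ((ℓ : ℤ) + 1) * (t4niAFix 𝔓 K hK hζ p).v0 (Additive.ofMul y) := by
  intro ℓ _ hℓ hℓK y
  letI := t4cyAlgebra 𝔓 (le_top : t4cyH 𝔓 ζ ≤ ⊤)
  haveI : Fact ℓ.Prime := ⟨hℓ⟩
  have hℓK' : ¬ ℓ ∣ K := fun h => hℓK ((h.mul_right _).mul_right _)
  have hℓq : ℓ ≠ 𝔓.p := by
    rintro rfl
    exact hℓK (Dvd.intro_left _ rfl)
  have hqℓ : ¬ 𝔓.p ∣ ℓ := fun h => hℓq ((Nat.prime_dvd_prime_iff_eq 𝔓.hp hℓ).mp h).symm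
  have hKℓ : ¬ 𝔓.p ∣ K * ℓ := dlh_not_dvd_mul 𝔓 hK hℓ hℓq
  have hdeg := mltl2h_finrank_A (tbFixO 𝔓 ⊤) (tbFixRes 𝔓 ⊤) (tbFixRes_surjective 𝔓 ⊤)
    (t2i_natCast_ne_zero 𝔓 hK) (t2i_natCast_ne_zero 𝔓 hKℓ) (t2iALFix 𝔓 ⊤ K hK) (t2iFrobFix 𝔓 K)
    (t4iALFix 𝔓 ⊤ K hK) (t2iALFix 𝔓 ⊤ (K * ℓ) hKℓ) (t2iFrobFix 𝔓 (K * ℓ))
    (t4iALFix 𝔓 ⊤ (K * ℓ) hKℓ) (t4cy_irreducible_p 𝔓) (tbFixO 𝔓 (t4cyH 𝔓 ζ))
    (tbFixRes 𝔓 (t4cyH 𝔓 ζ)) (t4iCycFix 𝔓 hζ) (t4vMidFix 𝔓 K hK hζ)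
    (t4vMidFix 𝔓 (K * ℓ) hKℓ hζ) hℓ hℓK'
  have key := mltl2h_vert (tbFixO 𝔓 ⊤) (tbFixRes 𝔓 ⊤) (tbFixRes_surjective 𝔓 ⊤)
    (t2i_natCast_ne_zero 𝔓 hK) (t2i_natCast_ne_zero 𝔓 hKℓ) (t2iALFix 𝔓 ⊤ K hK) (t2iFrobFix 𝔓 K)
    (t4iALFix 𝔓 ⊤ K hK) (t2iALFix 𝔓 ⊤ (K * ℓ) hKℓ) (t2iFrobFix 𝔓 (K * ℓ))
    (t4iALFix 𝔓 ⊤ (K * ℓ) hKℓ) (t4cy_irreducible_p 𝔓) (tbFixO 𝔓 (t4cyH 𝔓 ζ))
    (tbFixRes 𝔓 (t4cyH 𝔓 ζ)) (t4iCycFix 𝔓 hζ) (t4vMidFix 𝔓 K hK hζ)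
    (t4vMidFix 𝔓 (K * ℓ) hKℓ hζ) hℓ hℓK' hqℓ
  have key2 := key y
  refine ⟨Units.map (mltl2hT ↥(tbFix 𝔓 (⊤ : Subgroup 𝔓.I)) K 𝔓.p ℓ) y, ?_, key2.1, key2.2.1,
    key2.2.2⟩
  apply Units.ext
  exact mltl2h_norm_phi 𝔓 ⊤ K 𝔓.p ℓ hℓK hdeg _

end Fix

end Fermat.Agent.MLT
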