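/-
MLT / [L2-JL] / (G-Hecke)(a) (helper7), file 7: **`MltL2AbHeckeAt` at EVERY level `K`** prime to
`q = 𝔓.p` (no rigidity needed): for a prime `ℓ ∤ K q`, the functional Hecke operator
`T_ℓ^fun` preserves `L`-rationality (`L = ℚ̄^I`) and the group `D.U` of units at the three vertical
valuations of the T4 model of `X₀(K q²)`, and the three residue maps `rinf, rmid, r0 : D.U → Eˣ`
(`E = 𝔽̄_q(X₀(K))`) intertwine it with `T̃_ℓ`: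

  `r_* (T_ℓ y) = T̃_ℓ (r_* y)`,   `* = inf, mid, 0`.
-/
import Mathlib
import Fermat.Agent.Lib.MLT.L2.AbDefs
import Fermat.Agent.Lib.MLT.L2.HkMain
import Fermat.Agent.Lib.MLT.L2.HkNormBC
import Fermat.Agent.Lib.MLT.L2.HkGen

set_option autoImplicit false
set_option linter.unusedSectionVars false
set_option linter.unusedVariables false
set_option linter.style.haveILetI false
set_option synthInstance.maxHeartbeats 400000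

open WeierstrassCurve

namespace Fermat.Agent.MLT

open ModularCurve HahnSeries Fermat.Agent.T1 Fermat.Agent.T2 Fermat.Agent.T4 Fermat.Agent.TW
  Fermat.Agent.Delta Fermat.Agent.T3 Fermat.Agent.Alpha AlgebraicCurve Fermat.Agent.Curve
  Fermat.Agent.S05Lib Module IntermediateField

local notation "Qb" => AlgebraicClosure ℚ

noncomputable section

attribute [local instance] t2i_dvr t2i_isAlgClosed t2i_charP t2i_fact t2iAlgebra t2i_isScalarTower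

/-- **(G-Hecke)(a) = `MltL2AbHeckeAt`** (every level `K` prime to `q`) -/
theorem mltj5_abHecke_gen (𝔓 : FFPlace) (K : ℕ) [NeZero K] (hK : ¬ 𝔓.p ∣ K) {ζ : Qb}
    (hζ : IsPrimitiveRoot ζ 𝔓.p) (p : ℕ) (hp0 : p ≠ 0) (hpq : Nat.Coprime p 𝔓.p) :
    MltL2AbHeckeAt 𝔓 K hK hζ p hp0 hpq := by
  intro ℓ _ hℓ hℓK y
  letI := t4cyAlgebra 𝔓 (le_top : t4cyH 𝔓 ζ ≤ ⊤)
  haveI : Fact ℓ.Prime := ⟨hℓ⟩
  have hℓK' : ¬ ℓ ∣ K := fun h => hℓK ((h.mul_right _).mul_right _)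
  have hℓq : ℓ ≠ 𝔓.p := by
    rintro rfl
    exact hℓK (Dvd.intro_left _ rfl)
  have hqℓ : ¬ 𝔓.p ∣ ℓ := fun h => hℓq ((Nat.prime_dvd_prime_iff_eq 𝔓.hp hℓ).mp h).symm
  have hKℓ : ¬ 𝔓.p ∣ K * ℓ := dlh_not_dvd_mul 𝔓 hK hℓ hℓq
  have hdegE := mltl2h_finrank_alphaC_P 𝔓 hK hℓ hℓK' hℓq
  have hdeg := mltl2h_finrank_A (tbFixO 𝔓 ⊤) (tbFixRes 𝔓 ⊤) (tbFixRes_surjective 𝔓 ⊤)
    (t2i_natCast_ne_zero 𝔓 hK) (t2i_natCast_ne_zero 𝔓 hKℓ) (t2iALFix 𝔓 ⊤ K hK) (t2iFrobFix 𝔓 K)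
    (t4iALFix 𝔓 ⊤ K hK) (t2iALFix 𝔓 ⊤ (K * ℓ) hKℓ) (t2iFrobFix 𝔓 (K * ℓ))
    (t4iALFix 𝔓 ⊤ (K * ℓ) hKℓ) (t4cy_irreducible_p 𝔓) (tbFixO 𝔓 (t4cyH 𝔓 ζ))
    (tbFixRes 𝔓 (t4cyH 𝔓 ζ)) (t4iCycFix 𝔓 hζ) (t4vMidFix 𝔓 K hK hζ)
    (t4vMidFix 𝔓 (K * ℓ) hKℓ hζ) hℓ hℓK'
  have key := mltl2h_hecke_U (tbFixO 𝔓 ⊤) (tbFixRes 𝔓 ⊤)
    (tbFixRes_surjective 𝔓 ⊤)
    (t2i_natCast_ne_zero 𝔓 hK) (t2i_natCast_ne_zero 𝔓 hKℓ) (t2iALFix 𝔓 ⊤ K hK) (t2iFrobFix 𝔓 K)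
    (t4iALFix 𝔓 ⊤ K hK) (t2iALFix 𝔓 ⊤ (K * ℓ) hKℓ) (t2iFrobFix 𝔓 (K * ℓ))
    (t4iALFix 𝔓 ⊤ (K * ℓ) hKℓ) (t4cy_irreducible_p 𝔓) (tbFixO 𝔓 (t4cyH 𝔓 ζ))
    (tbFixRes 𝔓 (t4cyH 𝔓 ζ)) (t4iCycFix 𝔓 hζ) (t4vMidFix 𝔓 K hK hζ)
    (t4vMidFix 𝔓 (K * ℓ) hKℓ hζ) hℓ hℓK' hqℓ hdegE p hp0 hpq
  have key2 := key y
  obtain ⟨y', hh⟩ := key2
  have hy' := hh.1
  have e1 := hh.2.1
  have e2 := hh.2.2.1
  have e3 := hh.2.2.2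
  refine ⟨y', ?_, ?_⟩
  · apply Units.ext
    rw [coe_mltl2PhiU, tkrHeckeUnits_coe, coe_mltl2PhiU, hy', mltl2hT_apply]
    exact mltl2h_norm_phi 𝔓 ⊤ K 𝔓.p ℓ hℓK hdeg _
  · intro ζ' hζK hζk
    have hC : ∀ x : LaurentSeries (IsLocalRing.ResidueField ↥𝔓.P),
        HahnSeries.C (1 : IsLocalRing.ResidueField ↥𝔓.P) * x = x := fun x => by
      rw [HahnSeries.C_one, one_mul]
    refine ⟨⟨1, one_ne_zero, ?_⟩, ⟨1, one_ne_zero, ?_⟩, ⟨1, one_ne_zero, ?_⟩⟩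
    · rw [hC]
      refine Eq.trans ?_ (congrArg Subtype.val e1.symm)
      exact (mltl2h_norm_beta 𝔓 hK hℓ hℓK' hℓq ζ' hζK hζk _).symm
    · rw [hC]
      refine Eq.trans ?_ (congrArg Subtype.val e2.symm)
      exact (mltl2h_norm_beta 𝔓 hK hℓ hℓK' hℓq ζ' hζK hζk _).symm
    · rw [hC]
      refine Eq.trans ?_ (congrArg Subtype.val e3.symm)
      exact (mltl2h_norm_beta 𝔓 hK hℓ hℓK' hℓq ζ' hζK hζk _).symm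

/-- the rigid-level form announced in h7-m190 (the rigidity hypothesis is not used) -/
theorem mltj5_abHecke (𝔓 : FFPlace) (K : ℕ) [NeZero K] (hK : ¬ 𝔓.p ∣ K) {ζ : Qb}
    (hζ : IsPrimitiveRoot ζ 𝔓.p) (p : ℕ) (hp0 : p ≠ 0) (hpq : Nat.Coprime p 𝔓.p)
    (h49 : 4 ∣ K ∨ 9 ∣ K) : MltL2AbHeckeAt 𝔓 K hK hζ p hp0 hpq :=
  mltj5_abHecke_gen 𝔓 K hK hζ p hp0 hpq

end

end Fermat.Agent.MLT
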