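/-
MLT / [L2-JL] (helper7): **the characteristic polynomial commutes with reduction** for an unramified
extension of valued fields without defect (`DlhRedExt`, helper3) whose residue degree is the degree.

* `dlh_matrix_red`     : the multiplication matrix of `x ∈ O'` in a lifted residue basis has entries in `O`
                         and reduces to the multiplication matrix of `r' x`;
* `dlh_charpoly_red`   : `charpoly_{F'/F}(x) ∈ O[X]` and its reduction is `charpoly_{E'/E}(r' x)`;
* `dlh_isIntegralElem` : every `x ∈ O'` is integral over `O`.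
-/
import Mathlib
import Fermat.Agent.Lib.Delta.Hecke.NormRed

set_option autoImplicit false
set_option linter.unusedSectionVars false
set_option linter.unusedVariables false
set_option linter.style.haveILetI false

namespace Fermat.Agent.MLT

open Module Fermat.Agent.Delta Polynomial

variable {F F' E E' : Type*} [Field F] [Field F'] [Field E] [Field E'] [Algebra F F']
  [Algebra E E'] {O : Subring F} {O' : Subring F'} {r : ↥O →+* E} {r' : ↥O' →+* E'}

/-- **the multiplication matrix commutes with reduction** -/
theorem dlh_matrix_red (d : DlhRedExt O O' r r') [FiniteDimensional E E']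
    (hdeg : finrank F F' = finrank E E') (x : ↥O') :
    ∃ (B : Basis (Fin (finrank E E')) F F') (bb : Basis (Fin (finrank E E')) E E')
      (M : Matrix (Fin (finrank E E')) (Fin (finrank E E')) ↥O),
      Algebra.leftMulMatrix B (x : F') = M.map O.subtype ∧
      Algebra.leftMulMatrix bb (r' x) = M.map r := by
  classical
  set n := finrank E E' with hn
  let bb : Basis (Fin n) E E' := Module.finBasis E E'
  choose b hb using fun i => d.surj' (bb i)
  have hbb : (fun i => r' (b i)) = bb := funext hb
  have hli : LinearIndependent E (fun i => r' (b i)) := by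
    rw [hbb]; exact bb.linearIndependent
  have hliF := d.linearIndependent_lift b hli
  haveI : Nonempty (Fin n) := ⟨⟨0, Module.finrank_pos⟩⟩
  let B : Basis (Fin n) F F' := basisOfLinearIndependentOfCardEqFinrank hliF (by
    rw [Fintype.card_fin, hdeg])
  have hB : ∀ i, B i = ((b i : ↥O') : F') := fun i => by
    rw [coe_basisOfLinearIndependentOfCardEqFinrank]
  have hM : ∀ i j, Algebra.leftMulMatrix B (x : F') i j ∈ O := by
    intro i j
    have h1 : ∑ i, Algebra.leftMulMatrix B (x : F') i j • ((b i : ↥O') : F') =
        ((x * b j : ↥O') : F') := by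
      simp only [Algebra.leftMulMatrix_eq_repr_mul, ← hB]
      rw [B.sum_repr, hB, Subring.coe_mul]
    exact d.orth b hli _ _ h1 i
  let M : Matrix (Fin n) (Fin n) ↥O := fun i j => ⟨_, hM i j⟩
  refine ⟨B, bb, M, ?_, ?_⟩
  · ext i j; rfl
  · ext i j
    rw [Matrix.map_apply, Algebra.leftMulMatrix_eq_repr_mul]
    have h3 : x * b j =
        ∑ i, (⟨algebraMap F F' ((M i j : ↥O) : F), d.map_mem (M i j)⟩ : ↥O') * b i := by
      apply Subtype.ext
      simp only [AddSubmonoidClass.coe_finsetSum, Subring.coe_mul]
      have h4 : ∑ i, Algebra.leftMulMatrix B (x : F') i j • B i = (x : F') * B j := by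
        simp only [Algebra.leftMulMatrix_eq_repr_mul]
        rw [B.sum_repr]
      rw [hB] at h4
      rw [← h4]
      refine Finset.sum_congr rfl (fun i _ => ?_)
      rw [Algebra.smul_def, hB]
    have h5 := congrArg r' h3
    rw [map_mul, map_sum, hb] at h5
    have h6 : ∑ i, r' ((⟨algebraMap F F' ((M i j : ↥O) : F), d.map_mem (M i j)⟩ : ↥O') * b i) =
        ∑ i, r (M i j) • bb i := by
      refine Finset.sum_congr rfl (fun i _ => ?_)
      rw [map_mul, d.comp (M i j), hb, Algebra.smul_def]
    rw [h5, h6, bb.repr_sum_self]

/-- **the characteristic polynomial commutes with reduction** -/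
theorem dlh_charpoly_red (d : DlhRedExt O O' r r') [FiniteDimensional F F']
    [FiniteDimensional E E'] (hdeg : finrank F F' = finrank E E') (x : ↥O') :
    ∃ P : Polynomial ↥O, P.Monic ∧
      P.map O.subtype = (LinearMap.mulLeft F (x : F')).charpoly ∧
      P.map r = (LinearMap.mulLeft E (r' x)).charpoly := by
  classical
  obtain ⟨B, bb, M, hMF, hME⟩ := dlh_matrix_red d hdeg x
  refine ⟨M.charpoly, Matrix.charpoly_monic M, ?_, ?_⟩
  · rw [← Matrix.charpoly_map, ← hMF, ← Algebra.toMatrix_lmul_eq, LinearMap.charpoly_toMatrix]
  · rw [← Matrix.charpoly_map, ← hME, ← Algebra.toMatrix_lmul_eq, LinearMap.charpoly_toMatrix]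

/-- every element of `O'` is integral over `O` -/
theorem dlh_isIntegralElem (d : DlhRedExt O O' r r') [FiniteDimensional E E']
    (hdeg : finrank F F' = finrank E E') (x : ↥O') :
    ((algebraMap F F').comp O.subtype).IsIntegralElem (x : F') := by
  classical
  haveI : Module.Finite F F' := by
    obtain ⟨B, -, -, -, -⟩ := dlh_matrix_red d hdeg x
    exact Module.Finite.of_basis B
  obtain ⟨P, hP, hPF, -⟩ := dlh_charpoly_red d hdeg x
  refine ⟨P, hP, ?_⟩
  have h1 : Polynomial.eval₂ ((algebraMap F F').comp O.subtype) (x : F') P =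
      Polynomial.aeval (x : F') (P.map O.subtype) := by
    rw [Polynomial.aeval_def, Polynomial.eval₂_map]
  rw [h1, hPF]
  have h2 := LinearMap.aeval_self_charpoly (LinearMap.mulLeft F (x : F'))
  have h3 : Polynomial.aeval (LinearMap.mulLeft F (x : F'))
      (LinearMap.mulLeft F (x : F')).charpoly 1 =
      Polynomial.aeval (x : F') (LinearMap.mulLeft F (x : F')).charpoly := by
    have h4 : (LinearMap.mulLeft F (x : F')) = Algebra.lmul F F' (x : F') := rfl
    rw [h4, Polynomial.aeval_algHom_apply]
    simp
  rw [← h3, h2]
  rfl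

end Fermat.Agent.MLT
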