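/-
MLT / [L2-JL] (helper7): **going up and going down between two chart presentations** (generic).

`P1` a presentation of `B₁ ⊂ F₁`, `P` a presentation of `B ⊂ F`, `F₁ → F` a field extension with
`T4PresOver P1 P` (`B₁ → B`, `B` integral over `B₁`); "vertical" valuation rings `O1 i` of `F₁` and
`O i` of `F` (`i : ι`), `O i` over `O1 i`.

* `mltgCentre`               : the centre on `B` of a valuation ring containing `B`;
* `mltg_isFractionRing`, `mltg_isIntegrallyClosed` : `B` is integrally closed with fraction field `F`;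
* `mltg_hasGoingDown`        : `B₁ → B` satisfies going down;
* `mltg_vert_of_under`       : a prime of `B` whose contraction contains the vertical centres of `B₁`
                               contains the vertical centres of `B`;
* `mltg_exists_over`         : going up for the centre of a valuation ring of `F`;
* `mltg_through_beta`        : for a second embedding `β : F₁ → F` (`β B₁ ⊂ B`, compatible with the
                               vertical valuations): if the restriction of `w` along `F₁ → F` passes through a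
                               triple point, so does its restriction along `β`.
-/
import Mathlib
import Fermat.Agent.Lib.T4.Local.Norm

set_option autoImplicit false
set_option linter.unusedSectionVars false
set_option linter.unusedVariables false
set_option linter.style.haveILetI false

namespace Fermat.Agent.MLT

open Fermat.Agent.T4

section One

variable {F : Type*} [Field F] (P : T4Pres F)

/-- the centre on `B` of a valuation ring containing `B` -/
def mltgCentre (V : ValuationSubring F) (hV : ∀ b ∈ P.B, b ∈ V) : Ideal ↥P.B where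
  carrier := {b | V.valuation (b : F) < 1}
  add_mem' := fun {a b} ha hb => lt_of_le_of_lt (V.valuation.map_add _ _) (max_lt ha hb)
  zero_mem' := by
    show V.valuation ((0 : P.B) : F) < 1
    rw [Subring.coe_zero, map_zero]; exact zero_lt_one
  smul_mem' := fun c b hb => by
    show V.valuation ((c * b : P.B) : F) < 1
    rw [Subring.coe_mul, map_mul]
    have hc : V.valuation (c : F) ≤ 1 := (V.valuation_le_one_iff _).mpr (hV c c.2)
    calc V.valuation (c : F) * V.valuation (b : F) ≤ 1 * V.valuation (b : F) :=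
          mul_le_mul_left hc _
      _ = V.valuation (b : F) := one_mul _
      _ < 1 := hb

theorem mem_mltgCentre {V : ValuationSubring F} {hV : ∀ b ∈ P.B, b ∈ V} {b : ↥P.B} :
    b ∈ mltgCentre P V hV ↔ V.valuation (b : F) < 1 := Iff.rfl

theorem mltgCentre_isPrime (V : ValuationSubring F) (hV : ∀ b ∈ P.B, b ∈ V) :
    (mltgCentre P V hV).IsPrime := by
  refine ⟨fun h => ?_, fun {a b} hab => ?_⟩
  · have h1 : (1 : ↥P.B) ∈ mltgCentre P V hV := h ▸ Submodule.mem_top
    rw [mem_mltgCentre, Subring.coe_one, map_one] at h1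
    exact lt_irrefl _ h1
  · rw [mem_mltgCentre, Subring.coe_mul, map_mul] at hab
    by_contra hcon
    push Not at hcon
    rw [mem_mltgCentre, mem_mltgCentre, not_lt, not_lt] at hcon
    have ha : V.valuation (a : F) = 1 :=
      le_antisymm ((V.valuation_le_one_iff _).mpr (hV a a.2)) hcon.1
    have hb : V.valuation (b : F) = 1 :=
      le_antisymm ((V.valuation_le_one_iff _).mpr (hV b b.2)) hcon.2
    rw [ha, hb, one_mul] at hab
    exact lt_irrefl _ hab

/-- `F` is the fraction field of `B` -/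
theorem mltg_isFractionRing (hne : P.vals.Nonempty) : IsFractionRing ↥P.B F := by
  obtain ⟨V, hV⟩ := hne
  refine t4l_isFractionRing _ fun f => ?_
  rcases V.mem_or_inv_mem f with hf | hf
  · obtain ⟨c, hc, hc1, hcf⟩ := P.essential V hV f hf
    refine ⟨⟨c * f, hcf⟩, ⟨c, hc⟩, ?_, ?_⟩
    · intro h0
      have h0' : c = 0 := h0
      rw [h0', map_zero] at hc1
      exact zero_ne_one hc1
    · exact mul_comm _ _
  · rcases eq_or_ne f 0 with rfl | hf0
    · exact ⟨0, 1, one_ne_zero, by simp⟩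
    obtain ⟨c, hc, hc1, hcf⟩ := P.essential V hV f⁻¹ hf
    have hc0 : c ≠ 0 := by
      rintro rfl
      rw [map_zero] at hc1
      exact zero_ne_one hc1
    refine ⟨⟨c, hc⟩, ⟨c * f⁻¹, hcf⟩, ?_, ?_⟩
    · exact mul_ne_zero hc0 (inv_ne_zero hf0)
    · show f * (c * f⁻¹) = c
      field_simp

/-- `B` is integrally closed in `F` -/
theorem mltg_mem_of_isIntegral {x : F} (hx : IsIntegral ↥P.B x) : x ∈ P.B := by
  rw [P.mem_iff]
  intro V hV
  obtain ⟨p, hp, hpx⟩ := hx
  let φ : ↥P.B →+* ↥V := Subring.inclusion (fun f hf => P.B_le hV hf : P.B ≤ V.toSubring)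
  have hint : IsIntegral ↥V x := by
    refine ⟨p.map φ, hp.map φ, ?_⟩
    rw [Polynomial.eval₂_map]
    exact hpx
  obtain ⟨y, hy⟩ := IsIntegrallyClosed.isIntegral_iff.mp hint
  rw [← hy]
  exact y.2

theorem mltg_isIntegrallyClosed (hne : P.vals.Nonempty) : IsIntegrallyClosed ↥P.B := by
  haveI := mltg_isFractionRing P hne
  refine (isIntegrallyClosed_iff F).mpr fun {x} hx => ?_
  exact ⟨⟨x, mltg_mem_of_isIntegral P hx⟩, rfl⟩

end One

section Two

variable {F1 F : Type*} [Field F1] [Field F] [Algebra F1 F] {P1 : T4Pres F1} {P : T4Pres F}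
  (h : T4PresOver P1 P)

theorem mltg_incl_injective : Function.Injective h.incl := by
  intro a b hab
  have h1 := congrArg (fun t : ↥P.B => (t : F)) hab
  simp only [T4PresOver.coe_incl] at h1
  exact Subtype.ext ((algebraMap F1 F).injective h1)

/-- **going down** for `B₁ → B` -/
theorem mltg_hasGoingDown (hne : P1.vals.Nonempty) :
    letI : Algebra ↥P1.B ↥P.B := h.incl.toAlgebra
    Algebra.HasGoingDown ↥P1.B ↥P.B := by
  letI : Algebra ↥P1.B ↥P.B := h.incl.toAlgebra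
  haveI : Algebra.IsIntegral ↥P1.B ↥P.B := ⟨h.incl_isIntegral⟩
  haveI : IsIntegrallyClosed ↥P1.B := mltg_isIntegrallyClosed P1 hne
  haveI : FaithfulSMul ↥P1.B ↥P.B :=
    (faithfulSMul_iff_algebraMap_injective _ _).mpr (mltg_incl_injective h)
  infer_instance

variable {ι : Type*} (O1 : ι → ValuationSubring F1) (O : ι → ValuationSubring F)

/-- **the vertical centres go up**: a prime of `B` whose contraction contains the vertical centres of
`B₁` contains the vertical centres of `B` -/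
theorem mltg_vert_of_under (hne : P1.vals.Nonempty)
    (hO1 : ∀ i, ∀ b ∈ P1.B, b ∈ O1 i) (hO : ∀ i, ∀ b ∈ P.B, b ∈ O i)
    (hcomp : ∀ i, ∀ b : ↥P1.B, (O i).valuation (algebraMap F1 F (b : F1)) < 1 ↔
      (O1 i).valuation (b : F1) < 1)
    (hsep : ∀ i, ∃ s : ↥P1.B, ¬ (O1 i).valuation (s : F1) < 1 ∧
      ∀ j, j ≠ i → (O1 j).valuation (s : F1) < 1)
    (ϖ : ↥P1.B) (hϖ : ∀ i, (O1 i).valuation (ϖ : F1) < 1)
    (hrad : ∀ b : ↥P.B, (∀ i, (O i).valuation (b : F) < 1) →
      ∃ (n : ℕ) (c : ↥P.B), b ^ n = h.incl ϖ * c)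
    (𝔫 : Ideal ↥P.B) [h𝔫 : 𝔫.IsPrime]
    (hn : ∀ i, ∀ b : ↥P1.B, (O1 i).valuation (b : F1) < 1 → b ∈ h.under 𝔫) :
    ∀ i, ∀ b : ↥P.B, (O i).valuation (b : F) < 1 → b ∈ 𝔫 := by
  classical
  intro i b hb
  letI : Algebra ↥P1.B ↥P.B := h.incl.toAlgebra
  haveI := mltg_hasGoingDown h hne
  haveI hp1 : (mltgCentre P1 (O1 i) (hO1 i)).IsPrime := mltgCentre_isPrime P1 (O1 i) (hO1 i)
  haveI hq1 : (h.under 𝔫).IsPrime := Ideal.IsPrime.comap h.incl
  haveI hlo : 𝔫.LiesOver (h.under 𝔫) := ⟨rfl⟩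
  have hle : mltgCentre P1 (O1 i) (hO1 i) ≤ h.under 𝔫 := fun b hb => hn i b hb
  obtain ⟨𝔮, h𝔮le, h𝔮p, h𝔮lo⟩ := Ideal.exists_ideal_le_liesOver_of_le (p := mltgCentre P1 (O1 i)
    (hO1 i)) (q := h.under 𝔫) 𝔫 hle
  have h𝔮 : ∀ a : ↥P1.B, h.incl a ∈ 𝔮 ↔ (O1 i).valuation (a : F1) < 1 := by
    intro a
    have h1 := h𝔮lo.over
    have h2 : a ∈ mltgCentre P1 (O1 i) (hO1 i) ↔ a ∈ Ideal.under ↥P1.B 𝔮 := by rw [← h1]
    rw [← mem_mltgCentre P1 (hV := hO1 i), h2]
    rfl
  obtain ⟨s, hs, hsj⟩ := hsep i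
  -- `b * s` lies in all the vertical centres
  have hbs : ∀ j, (O j).valuation ((b * h.incl s : ↥P.B) : F) < 1 := by
    intro j
    rw [Subring.coe_mul, map_mul, T4PresOver.coe_incl]
    by_cases hji : j = i
    · subst hji
      have h1 : (O j).valuation (algebraMap F1 F (s : F1)) ≤ 1 :=
        (ValuationSubring.valuation_le_one_iff _ _).mpr (hO j _ (h.map_mem _ s.2))
      calc (O j).valuation (b : F) * (O j).valuation (algebraMap F1 F (s : F1))
          ≤ (O j).valuation (b : F) * 1 := mul_le_mul_right h1 _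
        _ = (O j).valuation (b : F) := mul_one _
        _ < 1 := hb
    · have h1 : (O j).valuation (b : F) ≤ 1 :=
        (ValuationSubring.valuation_le_one_iff _ _).mpr (hO j _ b.2)
      have h2 : (O j).valuation (algebraMap F1 F (s : F1)) < 1 := (hcomp j s).mpr (hsj j hji)
      calc (O j).valuation (b : F) * (O j).valuation (algebraMap F1 F (s : F1))
          ≤ 1 * (O j).valuation (algebraMap F1 F (s : F1)) := mul_le_mul_left h1 _
        _ = (O j).valuation (algebraMap F1 F (s : F1)) := one_mul _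
        _ < 1 := h2
  obtain ⟨n, c, hnc⟩ := hrad _ hbs
  have hϖ𝔮 : h.incl ϖ ∈ 𝔮 := (h𝔮 ϖ).mpr (hϖ i)
  have hpow : (b * h.incl s) ^ n ∈ 𝔮 := by
    rw [hnc]
    exact 𝔮.mul_mem_right _ hϖ𝔮
  have hmem : b * h.incl s ∈ 𝔮 := h𝔮p.mem_of_pow_mem n hpow
  rcases h𝔮p.mem_or_mem hmem with hb𝔮 | hs𝔮
  · exact h𝔮le hb𝔮
  · exact absurd ((h𝔮 s).mp hs𝔮) hs

include h in
/-- every valuation ring of `F` containing the image of `B₁` contains `B` -/
theorem mltg_B_le_of_B1 (w : ValuationSubring F)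
    (hw1 : ∀ b ∈ P1.B, algebraMap F1 F b ∈ w) : ∀ b ∈ P.B, b ∈ w := by
  intro b hb
  obtain ⟨p, hp, hpb⟩ := h.integral b hb
  let φ : ↥P1.B →+* ↥w :=
    ((algebraMap F1 F).comp P1.B.subtype).codRestrict w.toSubring (fun b => hw1 b b.2)
  have hint : IsIntegral ↥w b := by
    refine ⟨p.map φ, hp.map φ, ?_⟩
    rw [Polynomial.eval₂_map]
    exact hpb
  obtain ⟨y, hy⟩ := IsIntegrallyClosed.isIntegral_iff.mp hint
  rw [← hy]
  exact y.2

/-- **going up** for the centre of a valuation ring of `F` -/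
theorem mltg_exists_over (w : ValuationSubring F) (hw1 : ∀ b ∈ P1.B, algebraMap F1 F b ∈ w)
    (𝔫₁ : Ideal ↥P1.B) [h𝔫₁ : 𝔫₁.IsPrime]
    (hw : ∀ b : ↥P1.B, w.valuation (algebraMap F1 F (b : F1)) < 1 → b ∈ 𝔫₁) :
    ∃ 𝔫 : Ideal ↥P.B, 𝔫.IsPrime ∧ h.under 𝔫 = 𝔫₁ ∧
      ∀ b : ↥P.B, w.valuation (b : F) < 1 → b ∈ 𝔫 := by
  letI : Algebra ↥P1.B ↥P.B := h.incl.toAlgebra
  haveI : Algebra.IsIntegral ↥P1.B ↥P.B := ⟨h.incl_isIntegral⟩
  have hle : (mltgCentre P w (mltg_B_le_of_B1 h w hw1)).comap (algebraMap ↥P1.B ↥P.B) ≤ 𝔫₁ := by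
    intro b hb
    exact hw b hb
  obtain ⟨Q, hIQ, hQp, hQ⟩ := Ideal.exists_ideal_over_prime_of_isIntegral 𝔫₁
    (mltgCentre P w (mltg_B_le_of_B1 h w hw1)) hle
  exact ⟨Q, hQp, hQ, fun b hb => hIQ hb⟩

/-- **transport of triple points along a second embedding** -/
theorem mltg_through_beta (hne : P1.vals.Nonempty)
    (hO1 : ∀ i, ∀ b ∈ P1.B, b ∈ O1 i) (hO : ∀ i, ∀ b ∈ P.B, b ∈ O i)
    (hcomp : ∀ i, ∀ b : ↥P1.B, (O i).valuation (algebraMap F1 F (b : F1)) < 1 ↔
      (O1 i).valuation (b : F1) < 1)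
    (hsep : ∀ i, ∃ s : ↥P1.B, ¬ (O1 i).valuation (s : F1) < 1 ∧
      ∀ j, j ≠ i → (O1 j).valuation (s : F1) < 1)
    (ϖ : ↥P1.B) (hϖ : ∀ i, (O1 i).valuation (ϖ : F1) < 1)
    (hrad : ∀ b : ↥P.B, (∀ i, (O i).valuation (b : F) < 1) →
      ∃ (n : ℕ) (c : ↥P.B), b ^ n = h.incl ϖ * c)
    (β : F1 →+* F) (hβ : ∀ b ∈ P1.B, β b ∈ P.B)
    (hβO : ∀ i, ∀ b : ↥P1.B, (O1 i).valuation (b : F1) < 1 → (O i).valuation (β (b : F1)) < 1)
    (w : ValuationSubring F) (hw1 : ∀ b ∈ P1.B, algebraMap F1 F b ∈ w)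
    (𝔫₁ : Ideal ↥P1.B) [h𝔫₁ : 𝔫₁.IsPrime]
    (htr : ∀ i, ∀ b : ↥P1.B, (O1 i).valuation (b : F1) < 1 → b ∈ 𝔫₁)
    (hw : ∀ b : ↥P1.B, w.valuation (algebraMap F1 F (b : F1)) < 1 → b ∈ 𝔫₁) :
    ∃ 𝔪 : Ideal ↥P1.B, 𝔪.IsMaximal ∧
      (∀ i, ∀ b : ↥P1.B, (O1 i).valuation (b : F1) < 1 → b ∈ 𝔪) ∧
      ∀ b : ↥P1.B, w.valuation (β (b : F1)) < 1 → b ∈ 𝔪 := by
  obtain ⟨𝔫, h𝔫p, h𝔫u, h𝔫w⟩ := mltg_exists_over h w hw1 𝔫₁ hw
  haveI := h𝔫p
  have hvert := mltg_vert_of_under h O1 O hne hO1 hO hcomp hsep ϖ hϖ hrad 𝔫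
    (fun i b hb => h𝔫u ▸ htr i b hb)
  let βB : ↥P1.B →+* ↥P.B := (β.comp P1.B.subtype).codRestrict P.B fun b => hβ b b.2
  have hne_top : 𝔫.comap βB ≠ ⊤ := (Ideal.IsPrime.comap βB).ne_top
  obtain ⟨𝔪, h𝔪, hle⟩ := Ideal.exists_le_maximal _ hne_top
  refine ⟨𝔪, h𝔪, fun i b hb => hle ?_, fun b hb => hle ?_⟩
  · exact hvert i (βB b) (hβO i b hb)
  · exact h𝔫w (βB b) hb

end Two

section Aux

variable {F : Type*} [Field F] (P : T4Pres F)

/-- **the radical of a vertical element**: an element of `B` which is a non-unit at all the vertical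
valuation rings (those at which `ϖ` is a non-unit) has a power divisible by `ϖ` in `B` -/
theorem mltg_rad {ι : Type*} [Fintype ι] (O : ι → ValuationSubring F) (hOv : ∀ i, O i ∈ P.vals)
    (ϖ : ↥P.B) (hϖ0 : (ϖ : F) ≠ 0)
    (hvert : ∀ V ∈ P.vals, V.valuation (ϖ : F) < 1 → ∃ i, V = O i)
    (b : ↥P.B) (hb : ∀ i, (O i).valuation (b : F) < 1) :
    ∃ (n : ℕ) (c : ↥P.B), b ^ n = ϖ * c := by
  classical
  rcases eq_or_ne (b : F) 0 with hb0 | hb0
  · refine ⟨1, 0, ?_⟩
    apply Subtype.ext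
    rw [pow_one, mul_zero, Subring.coe_zero]
    exact hb0
  have hex : ∀ i, ∃ n : ℕ, (b : F) ^ n * (ϖ : F)⁻¹ ∈ O i := fun i => by
    haveI := P.dvr (O i) (hOv i)
    exact t4l_arch (O i) (hb i) hb0 _
  choose n hn using hex
  have hmem : (b : F) ^ (∑ i, n i) * (ϖ : F)⁻¹ ∈ P.B := by
    rw [P.mem_iff]
    intro V hV
    have hbV : (b : F) ∈ V := P.B_le hV b.2
    by_cases hlt : V.valuation (ϖ : F) < 1
    · obtain ⟨i, rfl⟩ := hvert V hV hlt
      have hle : n i ≤ ∑ j, n j := Finset.single_le_sum (fun _ _ => Nat.zero_le _)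
        (Finset.mem_univ i)
      obtain ⟨m, hm⟩ := Nat.exists_eq_add_of_le hle
      rw [hm, pow_add, mul_comm ((b : F) ^ n i), mul_assoc]
      exact (O i).mul_mem _ _ ((O i).pow_mem hbV m) (hn i)
    · have h1 : V.valuation (ϖ : F) = 1 :=
        le_antisymm ((V.valuation_le_one_iff _).mpr (P.B_le hV ϖ.2)) (not_lt.mp hlt)
      have h2 : (ϖ : F)⁻¹ ∈ V := by
        rw [← V.valuation_le_one_iff, map_inv₀, h1, inv_one]
      exact V.mul_mem _ _ (V.pow_mem hbV _) h2
  refine ⟨∑ i, n i, ⟨_, hmem⟩, ?_⟩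
  apply Subtype.ext
  rw [Subring.coe_mul, SubmonoidClass.coe_pow]
  show (b : F) ^ (∑ i, n i) = (ϖ : F) * ((b : F) ^ (∑ i, n i) * (ϖ : F)⁻¹)
  rw [mul_comm ((b : F) ^ (∑ i, n i)), ← mul_assoc, mul_inv_cancel₀ hϖ0, one_mul]

/-- a separating element of `𝒪` can be moved into `B` -/
theorem mltg_sep {V : ValuationSubring F} (hV : V ∈ P.vals) {e : F} (he : e ∈ V)
    (he1 : V.valuation e = 1) :
    ∃ s : ↥P.B, ¬ V.valuation (s : F) < 1 ∧
      ∀ V' ∈ P.vals, V'.valuation e < 1 → V'.valuation (s : F) < 1 := by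
  obtain ⟨c, hc, hc1, hce⟩ := P.essential V hV e he
  refine ⟨⟨c * e, hce⟩, ?_, fun V' hV' h' => ?_⟩
  · show ¬ V.valuation (c * e) < 1
    rw [map_mul, hc1, he1, one_mul]
    exact lt_irrefl _
  · show V'.valuation (c * e) < 1
    rw [map_mul]
    have h1 : V'.valuation c ≤ 1 := (V'.valuation_le_one_iff _).mpr (P.B_le hV' hc)
    calc V'.valuation c * V'.valuation e ≤ 1 * V'.valuation e := mul_le_mul_left h1 _
      _ = V'.valuation e := one_mul _
      _ < 1 := h'

end Aux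

section Comap

variable {F1 F : Type*} [Field F1] [Field F]

/-- non-units of the restriction of a valuation subring along a ring homomorphism -/
theorem mltg_valuation_comap_lt_one (φ : F1 →+* F) (V : ValuationSubring F) (x : F1) :
    (V.comap φ).valuation x < 1 ↔ V.valuation (φ x) < 1 := by
  rw [t4l_valuation_lt_one_iff, t4l_valuation_lt_one_iff, ValuationSubring.mem_comap, map_inv₀,
    map_eq_zero]

theorem mltg_valuation_eq_one_iff {K : Type*} [Field K] (W : ValuationSubring K) (z : K) :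
    W.valuation z = 1 ↔ z ∈ W ∧ ¬ W.valuation z < 1 := by
  rw [← W.valuation_le_one_iff, not_lt]
  exact ⟨fun h => ⟨h.le, h.ge⟩, fun h => le_antisymm h.1 h.2⟩

/-- units of the restriction of a valuation subring along a ring homomorphism -/
theorem mltg_valuation_comap_eq_one (φ : F1 →+* F) (V : ValuationSubring F) (x : F1) :
    (V.comap φ).valuation x = 1 ↔ V.valuation (φ x) = 1 := by
  rw [mltg_valuation_eq_one_iff, mltg_valuation_eq_one_iff, mltg_valuation_comap_lt_one,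
    ValuationSubring.mem_comap]

end Comap

end Fermat.Agent.MLT
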