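/-
MLT / [L2-JL] (helper7): **the norm of a function which is a unit at all places over `v` is a unit at `v`**
(function fields over an arbitrary constant field; no residue degree hypothesis).
-/
import Mathlib
import Fermat.Agent.Lib.T3.Hecke.Local

set_option autoImplicit false
set_option linter.unusedSectionVars false
set_option linter.unusedVariables false
set_option linter.style.haveILetI false

namespace Fermat.Agent.MLT

open AlgebraicCurve IsDedekindDomain Fermat.Agent.Curve Fermat.Agent.Curve.PlaceAux Fermat.Agent.T3

variable {K F F' : Type*} [Field K] [Field F] [Field F'] [Algebra K F] [Algebra K F']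
  [Algebra F F'] [IsScalarTower K F F'] [FiniteDimensional F F'] [Algebra.IsSeparable F F']
  (v : Place K F)

attribute [local instance] t3hS_isDedekindDomain t3hS_isFractionRing t3hS_moduleFinite
  t3hS_algebra t3hS_isScalarTower t3hS_fintype

/-- a function which is integral at all places over `v` is integral over `O_v` -/
theorem mltg_isIntegral_of_places (u : F')
    (hu : ∀ w : Place K F', w.restrict F = v → u ∈ w.toValuationSubring) :
    IsIntegral ↥v.toValuationSubring u := by
  have hmem : u ∈ (algebraMap (t3hS F' v) F').range := by
    apply HeightOneSpectrum.mem_integers_of_valuation_le_one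
    intro Q
    rw [← t3hPlace_adicValuation, ← mem_iff_adicValuation_le_one]
    exact hu (t3hPlace v Q) (t3hPlace_restrict v Q)
  obtain ⟨s, rfl⟩ := hmem
  exact s.2

/-- **the norm of a unit at all places over `v` is a unit at `v`** -/
theorem mltg_norm_unit (z : F') (hz : z ≠ 0)
    (h : ∀ w : Place K F', w.restrict F = v → w.toValuationSubring.valuation z = 1) :
    v.toValuationSubring.valuation (Algebra.norm F z) = 1 := by
  have h1 : IsIntegral ↥v.toValuationSubring z :=
    mltg_isIntegral_of_places v z (fun w hw =>
      (ValuationSubring.valuation_le_one_iff _ _).mp (h w hw).le)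
  have h2 : IsIntegral ↥v.toValuationSubring z⁻¹ :=
    mltg_isIntegral_of_places v z⁻¹ (fun w hw => by
      rw [← ValuationSubring.valuation_le_one_iff, map_inv₀, h w hw, inv_one])
  have h3 := Algebra.isIntegral_norm F h1
  have h4 := Algebra.isIntegral_norm F h2
  obtain ⟨a, ha⟩ := IsIntegrallyClosed.isIntegral_iff.mp h3
  obtain ⟨b, hb⟩ := IsIntegrallyClosed.isIntegral_iff.mp h4
  have ha' : v.toValuationSubring.valuation (Algebra.norm F z) ≤ 1 := by
    rw [← ha]
    exact (ValuationSubring.valuation_le_one_iff _ _).mpr a.2
  have hb' : v.toValuationSubring.valuation (Algebra.norm F z⁻¹) ≤ 1 := by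
    rw [← hb]
    exact (ValuationSubring.valuation_le_one_iff _ _).mpr b.2
  have hN : Algebra.norm F z * Algebra.norm F z⁻¹ = 1 := by
    rw [← map_mul, mul_inv_cancel₀ hz, map_one]
  have hmul := congrArg v.toValuationSubring.valuation hN
  rw [map_mul, map_one] at hmul
  refine le_antisymm ha' ?_
  by_contra hlt
  push Not at hlt
  have : v.toValuationSubring.valuation (Algebra.norm F z) *
      v.toValuationSubring.valuation (Algebra.norm F z⁻¹) < 1 := by
    calc _ ≤ v.toValuationSubring.valuation (Algebra.norm F z) * 1 := mul_le_mul_right hb' _
      _ = v.toValuationSubring.valuation (Algebra.norm F z) := mul_one _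
      _ < 1 := hlt
  rw [hmul] at this
  exact lt_irrefl _ this

end Fermat.Agent.MLT
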