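/-
MLT / [L2-JL] (helper7), P5(d): **the chart geometry of the two levels `N'` and `N' ℓ`**: the chart-1
presentations `P` of `F = F_L(N' q q)` and `P'` of `F' = F_L(N' ℓ q q)` (`B = IntCl(L[X]) ∩ 𝒪`), the
embeddings `A_ℓ, B_ℓ : F → F'`.

* `mltl2h_presOver_A`   : `T4PresOver P P'` along `A_ℓ`;
* `mltl2h_vert_over`    : a prime of `B'` over a prime of `B` containing the three vertical centres contains
                          the three vertical centres of `B'` (going down);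
* `mltl2h_unit_hor`     : if `y` is a unit at all valuation rings through the triple points of `P`, then
                          `T_ℓ y = N_{A}(B_ℓ y)` is a unit at the horizontal valuation rings through the
                          triple points.
-/
import Mathlib
import Fermat.Agent.Lib.MLT.L2.HkCompat
import Fermat.Agent.Lib.MLT.L2.HkCharRed
import Fermat.Agent.Lib.MLT.L2.HkGoing
import Fermat.Agent.Lib.MLT.L2.HkNormUnit
import Fermat.Agent.Lib.T4.Inst.PresOver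
import Fermat.Agent.Lib.T4.Inst.PresCrt

set_option autoImplicit false
set_option linter.unusedSectionVars false
set_option linter.unusedVariables false
set_option linter.style.haveILetI false
set_option synthInstance.maxHeartbeats 400000

open HahnSeries ModularCurve Fermat.Agent.T1 Fermat.Agent.T2 Fermat.Agent.T4 Fermat.Agent.Delta
  IntermediateField Module AlgebraicCurve

noncomputable section

namespace Fermat.Agent.MLT

/-- the three vertical components -/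
inductive MltVert : Type
  | inf | mid | zero
  deriving DecidableEq, Fintype

section One

attribute [local instance] t2iAlgebra t2i_isScalarTower

variable {L : Type} [Field L] [Algebra ℚ L] (O : ValuationSubring L) {k : Type} [Field k]
  (π : ↥O →+* k) [IsDiscreteValuationRing ↥O] (hπ : Function.Surjective π) [IsAlgClosed k]
  {N' q : ℕ} [NeZero N'] [hq : Fact q.Prime] [CharP k q] (hN' : (N' : k) ≠ 0)
  (W1 : T2iAL L N' q) (Fr : T2iFrob k N' q) (W : T4iAL L N' q)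
  (hqO : Irreducible ((q : ℕ) : ↥O))
  {L' : Type*} [Field L'] [Algebra L L'] (O' : ValuationSubring L')
  [IsDiscreteValuationRing ↥O'] (π' : ↥O' →+* k) (C : T4iCyc O O' π π' q)
  (M : T4iMid L L' N' q C.ζ)
  (P : T4Pres ↥(TaF L (N' * q * q))) {X : ↥(TaF L (N' * q * q))}
  (hPB : ∀ f, f ∈ P.B ↔
    f ∈ t2Int (K := L) X ∧ f ∈ (t4vInput O π hπ hN' W1 Fr W hqO O' π' C M).Ov)
  (hPv : P.vals = t4vpHor L X ∪ t4vwVer O π hπ W O' π' C M)

/-- the three vertical valuation rings -/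
def mltl2hVer : MltVert → ValuationSubring ↥(TaF L (N' * q * q))
  | .inf => t4vOinf (N' := N') (q := q) O π hπ
  | .mid => t4vOmid O π hπ O' π' C M
  | .zero => t4vO0 O π hπ W

theorem mltl2hVer_mem (i : MltVert) :
    mltl2hVer O π hπ W O' π' C M i ∈ t4vwVer O π hπ W O' π' C M := by
  rw [mem_t4vwVer]
  cases i
  · exact Or.inl rfl
  · exact Or.inr (Or.inl rfl)
  · exact Or.inr (Or.inr rfl)

theorem mltl2hVer_exists {V : ValuationSubring ↥(TaF L (N' * q * q))}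
    (hV : V ∈ t4vwVer O π hπ W O' π' C M) : ∃ i, V = mltl2hVer O π hπ W O' π' C M i := by
  rcases (mem_t4vwVer O π hπ W O' π' C M V).mp hV with rfl | rfl | rfl
  · exact ⟨.inf, rfl⟩
  · exact ⟨.mid, rfl⟩
  · exact ⟨.zero, rfl⟩

include hN' W1 Fr hqO in
theorem mltl2hVer_injective :
    Function.Injective (mltl2hVer O π hπ W O' π' C M) := by
  have h1 := t4vOmid_ne_inf O π hπ hN' W1 Fr W hqO O' π' C M
  have h2 := t4vOmid_ne_zero O π hπ hN' W1 Fr W hqO O' π' C M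
  have h3 := t4vO0_ne_inf O π hπ hN' W1 Fr W hqO O' π' C M
  intro i j hij
  cases i <;> cases j <;> first | rfl | (exfalso; simp only [mltl2hVer] at hij; first
    | exact h1 hij | exact h1 hij.symm | exact h2 hij | exact h2 hij.symm | exact h3 hij
    | exact h3 hij.symm)

include hPv in
theorem mltl2hVer_mem_vals (i : MltVert) : mltl2hVer O π hπ W O' π' C M i ∈ P.vals := by
  rw [hPv]
  exact Or.inr (mltl2hVer_mem O π hπ W O' π' C M i)

include hPB in
theorem mltl2h_B_le_ver (i : MltVert) (b : ↥(TaF L (N' * q * q))) (hb : b ∈ P.B) :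
    b ∈ mltl2hVer O π hπ W O' π' C M i :=
  (mem_Ov_iff_forall_t4vwVer O π hπ hN' W1 Fr W hqO O' π' C M b).mp ((hPB b).mp hb).2 _
    (mltl2hVer_mem O π hπ W O' π' C M i)

include hqO in
theorem mltl2hVer_q (i : MltVert) :
    (mltl2hVer O π hπ W O' π' C M i).valuation (t4vQ L N' q) < 1 :=
  t4vwVer_q O π hπ W hqO O' π' C M _ (mltl2hVer_mem O π hπ W O' π' C M i)

include hPB in
/-- the constant `q` as an element of `B` -/
theorem mltl2h_Q_mem_B : t4vQ L N' q ∈ P.B := by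
  rw [hPB]
  refine ⟨?_, ?_⟩
  · exact isIntegral_algebraMap (R := ↥(Algebra.adjoin L {X}))
      (x := algebraMap L ↥(Algebra.adjoin L {X}) ((q : ℕ) : L))
  · rw [mem_t4vInput_Ov_iff]
    exact ⟨t4vQ_mem_inf O π hπ, t4vQ_mem_zero O π hπ W, t4vQ_mem_mid O π hπ O' π' C M⟩

include hPv in
/-- the vertical valuation rings of `P` are the three vertical components -/
theorem mltl2h_vert_exists (V : ValuationSubring ↥(TaF L (N' * q * q))) (hV : V ∈ P.vals)
    (hlt : V.valuation (t4vQ L N' q) < 1) : ∃ i, V = mltl2hVer O π hπ W O' π' C M i := by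
  rw [hPv] at hV
  rcases hV with hV | hV
  · exfalso
    have h1 : (t4vQ L N' q)⁻¹ ∈ V := by
      have h2 := t4vp_algebraMap_mem_hor hV (((q : ℕ) : L)⁻¹)
      rwa [map_inv₀] at h2
    have h3 : V.valuation (t4vQ L N' q)⁻¹ ≤ 1 := (V.valuation_le_one_iff _).mpr h1
    rw [map_inv₀] at h3
    have h4 : V.valuation (t4vQ L N' q) ≠ 0 := (V.valuation.ne_zero_iff).mpr t4vQ_ne_zero
    exact not_lt.mpr ((inv_le_one₀ (zero_lt_iff.mpr h4)).mp h3) hlt
  · exact mltl2hVer_exists O π hπ W O' π' C M hV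

include hN' W1 Fr hqO hPv in
/-- **separation** of the three vertical components by elements of `B` -/
theorem mltl2h_sep (hcrt : T4vwCrt O π hπ W O' π' C M) (i : MltVert) :
    ∃ s : ↥P.B, ¬ (mltl2hVer O π hπ W O' π' C M i).valuation (s : ↥(TaF L (N' * q * q))) < 1 ∧
      ∀ j, j ≠ i →
        (mltl2hVer O π hπ W O' π' C M j).valuation (s : ↥(TaF L (N' * q * q))) < 1 := by
  obtain ⟨e, he, he1, he2⟩ := hcrt _ (mltl2hVer_mem O π hπ W O' π' C M i) 1
  obtain ⟨s, hs1, hs2⟩ := mltg_sep P (mltl2hVer_mem_vals O π hπ W O' π' C M P hPv i)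
    (he _ (mltl2hVer_mem O π hπ W O' π' C M i)) he1
  refine ⟨s, hs1, fun j hji => hs2 _ (mltl2hVer_mem_vals O π hπ W O' π' C M P hPv j) ?_⟩
  have h1 := he2 _ (mltl2hVer_mem O π hπ W O' π' C M j)
    (fun h => hji (mltl2hVer_injective O π hπ hN' W1 Fr W hqO O' π' C M h))
  rw [pow_one] at h1
  exact lt_of_le_of_lt h1 (mltl2hVer_q O π hπ W hqO O' π' C M j)

end One

section Two

attribute [local instance] t2iAlgebra t2i_isScalarTower

variable {L : Type} [Field L] [Algebra ℚ L] (O : ValuationSubring L) {k : Type} [Field k]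
  (π : ↥O →+* k) [IsDiscreteValuationRing ↥O] (hπ : Function.Surjective π) [IsAlgClosed k]
  {N' q ℓ : ℕ} [NeZero N'] [hq : Fact q.Prime] [NeZero ℓ] [CharP k q]
  (hN' : (N' : k) ≠ 0) (hN'ℓ : ((N' * ℓ : ℕ) : k) ≠ 0)
  (W1 : T2iAL L N' q) (Fr : T2iFrob k N' q) (W : T4iAL L N' q)
  (W1' : T2iAL L (N' * ℓ) q) (Fr' : T2iFrob k (N' * ℓ) q) (W' : T4iAL L (N' * ℓ) q)
  (hqO : Irreducible ((q : ℕ) : ↥O))
  {L' : Type*} [Field L'] [Algebra L L'] (O' : ValuationSubring L')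
  [IsDiscreteValuationRing ↥O'] (π' : ↥O' →+* k) (C : T4iCyc O O' π π' q)
  (M : T4iMid L L' N' q C.ζ) (M' : T4iMid L L' (N' * ℓ) q C.ζ)
  (P : T4Pres ↥(TaF L (N' * q * q))) (P' : T4Pres ↥(TaF L (N' * ℓ * q * q)))
  {X : ↥(TaF L (N' * q * q))} {X' : ↥(TaF L (N' * ℓ * q * q))}
  (hPB : ∀ f, f ∈ P.B ↔
    f ∈ t2Int (K := L) X ∧ f ∈ (t4vInput O π hπ hN' W1 Fr W hqO O' π' C M).Ov)
  (hP'B : ∀ f, f ∈ P'.B ↔
    f ∈ t2Int (K := L) X' ∧ f ∈ (t4vInput O π hπ hN'ℓ W1' Fr' W' hqO O' π' C M').Ov)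
  (hPv : P.vals = t4vpHor L X ∪ t4vwVer O π hπ W O' π' C M)
  (hP'v : P'.vals = t4vpHor L X' ∪ t4vwVer O π hπ W' O' π' C M')
  (hAX : mltl2hA L N' q ℓ X = X')

include hPB hP'B hPv hAX in
/-- **`T4PresOver P P'` along `A_ℓ`** -/
theorem mltl2h_presOver_A
    (hfin : @FiniteDimensional ↥(TaF L (N' * q * q)) ↥(TaF L (N' * ℓ * q * q)) _ _
      (mltl2hA L N' q ℓ).toRingHom.toAlgebra.toModule)
    (hfinE : @FiniteDimensional ↥(modularFunctionFieldFullC k N')
      ↥(modularFunctionFieldFullC k (N' * ℓ)) _ _ (algebraAlong (dlhAlphaC k N' ℓ)).toModule)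
    (hdeg : @finrank ↥(TaF L (N' * q * q)) ↥(TaF L (N' * ℓ * q * q)) _ _
        (mltl2hA L N' q ℓ).toRingHom.toAlgebra.toModule =
      @finrank ↥(modularFunctionFieldFullC k N') ↥(modularFunctionFieldFullC k (N' * ℓ)) _ _
        (algebraAlong (dlhAlphaC k N' ℓ)).toModule) :
    @T4PresOver ↥(TaF L (N' * q * q)) ↥(TaF L (N' * ℓ * q * q)) _ _
      (mltl2hA L N' q ℓ).toRingHom.toAlgebra P P' := by
  letI : Algebra ↥(TaF L (N' * q * q)) ↥(TaF L (N' * ℓ * q * q)) :=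
    (mltl2hA L N' q ℓ).toRingHom.toAlgebra
  letI := algebraAlong (dlhAlphaC k N' ℓ)
  haveI : IsScalarTower L ↥(TaF L (N' * q * q)) ↥(TaF L (N' * ℓ * q * q)) :=
    IsScalarTower.of_algebraMap_eq fun c => ((mltl2hA L N' q ℓ).commutes c).symm
  haveI : FiniteDimensional ↥(TaF L (N' * q * q)) ↥(TaF L (N' * ℓ * q * q)) := hfin
  haveI : FiniteDimensional ↥(modularFunctionFieldFullC k N')
      ↥(modularFunctionFieldFullC k (N' * ℓ)) := hfinE
  have hmapX : algebraMap ↥(TaF L (N' * q * q)) ↥(TaF L (N' * ℓ * q * q)) X = X' := hAX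
  refine t4vq_presOver P P' ?_ (fun b _ => Algebra.IsIntegral.isIntegral b) ?_
  · intro b hb
    rw [hPB] at hb
    rw [hP'B]
    refine ⟨t4vq_map_mem_t2Int (K := L) (x1 := X) (x := X') ?_ hb.1, ?_⟩
    · rw [hmapX]
      exact t2Int_self (K := L) X'
    · exact mltl2h_A_mem_Ov O π hπ hN' hN'ℓ W1 Fr W W1' Fr' W' hqO O' π' C M M' hb.2
  · intro V hV b hb
    rw [hP'B] at hb
    rw [hPv] at hV
    rcases hV with hV | hV
    · refine t4vq_isIntegralElem_hor (K := L) (x1 := X) (x := X') ?_ V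
        (fun c => t4vp_algebraMap_mem_hor hV c) ?_ hb.1
      · rw [hmapX]
        exact t2Int_self (K := L) X'
      · obtain ⟨v, rfl, hx⟩ := hV
        exact hx
    · obtain ⟨h1, h2, h3⟩ :=
        (mem_t4vInput_Ov_iff O π hπ hN'ℓ W1' Fr' W' hqO O' π' C M' _).mp hb.2
      rcases (mem_t4vwVer O π hπ W O' π' C M V).mp hV with rfl | rfl | rfl
      · exact dlh_isIntegralElem
          (mltl2h_redExt_inf O π hπ hN' hN'ℓ W1 Fr W W1' Fr' W' hqO O' π' C M M') hdeg ⟨b, h1⟩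
      · exact dlh_isIntegralElem
          (mltl2h_redExt_mid O π hπ hN' hN'ℓ W1 Fr W W1' Fr' W' hqO O' π' C M M') hdeg ⟨b, h3⟩
      · exact dlh_isIntegralElem
          (mltl2h_redExt_zero O π hπ hN' hN'ℓ W1 Fr W W1' Fr' W' hqO O' π' C M M') hdeg ⟨b, h2⟩

/-! #### The vertical valuations under `A_ℓ` and `B_ℓ` -/

theorem mltl2h_ver_A (i : MltVert) {b : ↥(TaF L (N' * q * q))}
    (hb : b ∈ mltl2hVer O π hπ W O' π' C M i) :
    (mltl2hVer O π hπ W' O' π' C M' i).valuation (mltl2hA L N' q ℓ b) < 1 ↔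
      (mltl2hVer O π hπ W O' π' C M i).valuation b < 1 := by
  cases i
  · show (t4vOinf (N' := N' * ℓ) (q := q) O π hπ).valuation _ < 1 ↔
      (t4vOinf (N' := N') (q := q) O π hπ).valuation _ < 1
    rw [t4vOinf_valuation_lt_one_iff O π hπ (mltl2h_inf_A_mem O π hπ hb),
      t4vOinf_valuation_lt_one_iff O π hπ hb, coe_mltl2hA]
  · show (t4vOmid O π hπ O' π' C M').valuation _ < 1 ↔ (t4vOmid O π hπ O' π' C M).valuation _ < 1
    rw [t4vOmid_valuation_lt_one_iff O π hπ O' π' C M' (mltl2h_mid_A_mem O π hπ O' π' C M M' hb),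
      t4vOmid_valuation_lt_one_iff O π hπ O' π' C M hb, mltl2h_mid_A M M' hq.out]
  · show (t4vO0 O π hπ W').valuation _ < 1 ↔ (t4vO0 O π hπ W).valuation _ < 1
    rw [t4vO0_valuation_lt_one_iff O π hπ W' (mltl2h_zero_A_mem O π hπ W W' hb),
      t4vO0_valuation_lt_one_iff O π hπ W hb, mltl2h_w_A hq.out W W', coe_mltl2hA]

theorem mltl2h_ver_B (hℓq : ¬ q ∣ ℓ) (i : MltVert) {b : ↥(TaF L (N' * q * q))}
    (hb : b ∈ mltl2hVer O π hπ W O' π' C M i)
    (hlt : (mltl2hVer O π hπ W O' π' C M i).valuation b < 1) :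
    (mltl2hVer O π hπ W' O' π' C M' i).valuation (mltl2hB L N' q ℓ b) < 1 := by
  cases i
  · have hb' : b ∈ t4vOinf (N' := N') (q := q) O π hπ := hb
    have hlt' : (t4vOinf (N' := N') (q := q) O π hπ).valuation b < 1 := hlt
    show (t4vOinf (N' := N' * ℓ) (q := q) O π hπ).valuation _ < 1
    rw [t4vOinf_valuation_lt_one_iff O π hπ hb'] at hlt'
    rw [t4vOinf_valuation_lt_one_iff O π hπ (mltl2h_inf_B_mem O π hπ hb')]
    have h1 := mltl2h_inf_B_res (ℓ := ℓ) O π hπ hb'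
    rw [t4veRinf_apply, t4veRinf_apply] at h1
    rw [h1, hlt', map_zero]
  · have hb' : b ∈ t4vOmid O π hπ O' π' C M := hb
    have hlt' : (t4vOmid O π hπ O' π' C M).valuation b < 1 := hlt
    show (t4vOmid O π hπ O' π' C M').valuation _ < 1
    rw [t4vOmid_valuation_lt_one_iff O π hπ O' π' C M hb'] at hlt'
    rw [t4vOmid_valuation_lt_one_iff O π hπ O' π' C M'
      (mltl2h_mid_B_mem O π hπ O' π' C M M' hℓq hb')]
    have h1 := mltl2h_mid_B_res O π hπ O' π' C M M' hℓq hb'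
    rw [t4veRmid_apply, t4veRmid_apply] at h1
    rw [h1, hlt', map_zero]
  · have hb' : b ∈ t4vO0 O π hπ W := hb
    have hlt' : (t4vO0 O π hπ W).valuation b < 1 := hlt
    show (t4vO0 O π hπ W').valuation _ < 1
    rw [t4vO0_valuation_lt_one_iff O π hπ W hb'] at hlt'
    rw [t4vO0_valuation_lt_one_iff O π hπ W' (mltl2h_zero_B_mem O π hπ W W' hb')]
    have h1 := mltl2h_zero_B_res O π hπ W W' hb'
    rw [t4veR0_apply, t4veR0_apply] at h1
    rw [h1, hlt', map_zero]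

include hPB hP'B in
/-- `B_ℓ` maps `B` into `B'` -/
theorem mltl2h_B_mem_B (hℓq : ¬ q ∣ ℓ)
    (hBX : IsIntegral ↥(Algebra.adjoin L {X'}) (mltl2hB L N' q ℓ X))
    (b : ↥(TaF L (N' * q * q))) (hb : b ∈ P.B) : mltl2hB L N' q ℓ b ∈ P'.B := by
  rw [hPB] at hb
  rw [hP'B]
  refine ⟨?_, ?_⟩
  · have h1 := t2d_isIntegral_map (K := L) (K' := L) (F := ↥(TaF L (N' * q * q)))
      (F' := ↥(TaF L (N' * ℓ * q * q))) (RingHom.id L)
      ((mltl2hB L N' q ℓ : ↥(TaF L (N' * q * q)) →ₐ[L] ↥(TaF L (N' * ℓ * q * q))) :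
        ↥(TaF L (N' * q * q)) →+* ↥(TaF L (N' * ℓ * q * q)))
      (fun c => (mltl2hB L N' q ℓ).commutes c) hb.1
    exact t2c_isIntegral_trans hBX h1
  · obtain ⟨h1, h2, h3⟩ := (mem_t4vInput_Ov_iff O π hπ hN' W1 Fr W hqO O' π' C M _).mp hb.2
    exact (mem_t4vInput_Ov_iff O π hπ hN'ℓ W1' Fr' W' hqO O' π' C M' _).mpr
      ⟨mltl2h_inf_B_mem O π hπ h1, mltl2h_zero_B_mem O π hπ W W' h2,
        mltl2h_mid_B_mem O π hπ O' π' C M M' hℓq h3⟩

/-! #### The main theorem -/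

include hPB hP'B hPv hP'v hAX in
/-- **transport of the triple points**: for a valuation ring `w` of `F'` whose restriction along `A_ℓ`
contains `B` with centre in a prime `𝔫` containing the three vertical centres, the restriction of `w`
along `B_ℓ` has its centre in a maximal ideal containing the three vertical centres -/
theorem mltl2h_through_beta (hcrt : T4vwCrt O π hπ W O' π' C M) (hℓq : ¬ q ∣ ℓ)
    (hfin : @FiniteDimensional ↥(TaF L (N' * q * q)) ↥(TaF L (N' * ℓ * q * q)) _ _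
      (mltl2hA L N' q ℓ).toRingHom.toAlgebra.toModule)
    (hfinE : @FiniteDimensional ↥(modularFunctionFieldFullC k N')
      ↥(modularFunctionFieldFullC k (N' * ℓ)) _ _ (algebraAlong (dlhAlphaC k N' ℓ)).toModule)
    (hdeg : @finrank ↥(TaF L (N' * q * q)) ↥(TaF L (N' * ℓ * q * q)) _ _
        (mltl2hA L N' q ℓ).toRingHom.toAlgebra.toModule =
      @finrank ↥(modularFunctionFieldFullC k N') ↥(modularFunctionFieldFullC k (N' * ℓ)) _ _
        (algebraAlong (dlhAlphaC k N' ℓ)).toModule)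
    (hBX : IsIntegral ↥(Algebra.adjoin L {X'}) (mltl2hB L N' q ℓ X))
    (w : ValuationSubring ↥(TaF L (N' * ℓ * q * q)))
    (hw1 : ∀ b ∈ P.B, mltl2hA L N' q ℓ b ∈ w)
    (𝔫 : Ideal ↥P.B) [h𝔫 : 𝔫.IsPrime]
    (htr : ∀ i, ∀ b : ↥P.B,
      (mltl2hVer O π hπ W O' π' C M i).valuation (b : ↥(TaF L (N' * q * q))) < 1 → b ∈ 𝔫)
    (hw : ∀ b : ↥P.B, w.valuation (mltl2hA L N' q ℓ (b : ↥(TaF L (N' * q * q)))) < 1 → b ∈ 𝔫) :
    ∃ 𝔪 : Ideal ↥P.B, 𝔪.IsMaximal ∧
      (∀ i, ∀ b : ↥P.B,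
        (mltl2hVer O π hπ W O' π' C M i).valuation (b : ↥(TaF L (N' * q * q))) < 1 → b ∈ 𝔪) ∧
      ∀ b : ↥P.B, w.valuation (mltl2hB L N' q ℓ (b : ↥(TaF L (N' * q * q)))) < 1 → b ∈ 𝔪 := by
  letI : Algebra ↥(TaF L (N' * q * q)) ↥(TaF L (N' * ℓ * q * q)) :=
    (mltl2hA L N' q ℓ).toRingHom.toAlgebra
  have hA := mltl2h_presOver_A O π hπ hN' hN'ℓ W1 Fr W W1' Fr' W' hqO O' π' C M M' P P' hPB hP'B
    hPv hAX hfin hfinE hdeg
  have hQ' : algebraMap ↥(TaF L (N' * q * q)) ↥(TaF L (N' * ℓ * q * q)) (t4vQ L N' q) =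
      t4vQ L (N' * ℓ) q := mltl2hA_Q L N' q ℓ
  refine mltg_through_beta hA (mltl2hVer O π hπ W O' π' C M) (mltl2hVer O π hπ W' O' π' C M')
    ⟨_, mltl2hVer_mem_vals O π hπ W O' π' C M P hPv .inf⟩
    (mltl2h_B_le_ver O π hπ hN' W1 Fr W hqO O' π' C M P hPB)
    (mltl2h_B_le_ver O π hπ hN'ℓ W1' Fr' W' hqO O' π' C M' P' hP'B)
    (fun i b => mltl2h_ver_A O π hπ W W' O' π' C M M' i
      (mltl2h_B_le_ver O π hπ hN' W1 Fr W hqO O' π' C M P hPB i _ b.2))
    (mltl2h_sep O π hπ hN' W1 Fr W hqO O' π' C M P hPv hcrt)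
    ⟨t4vQ L N' q, mltl2h_Q_mem_B O π hπ hN' W1 Fr W hqO O' π' C M P hPB⟩
    (mltl2hVer_q O π hπ W hqO O' π' C M) ?_
    (mltl2hB L N' q ℓ : ↥(TaF L (N' * q * q)) →+* ↥(TaF L (N' * ℓ * q * q)))
    (mltl2h_B_mem_B O π hπ hN' hN'ℓ W1 Fr W W1' Fr' W' hqO O' π' C M M' P P' hPB hP'B hℓq hBX)
    (fun i b hb => mltl2h_ver_B O π hπ W W' O' π' C M M' hℓq i
      (mltl2h_B_le_ver O π hπ hN' W1 Fr W hqO O' π' C M P hPB i _ b.2) hb)
    w hw1 𝔫 htr hw
  intro b hb
  have h1 := mltg_rad P' (mltl2hVer O π hπ W' O' π' C M')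
    (mltl2hVer_mem_vals O π hπ W' O' π' C M' P' hP'v)
    ⟨t4vQ L (N' * ℓ) q, mltl2h_Q_mem_B O π hπ hN'ℓ W1' Fr' W' hqO O' π' C M' P' hP'B⟩
    t4vQ_ne_zero (mltl2h_vert_exists O π hπ W' O' π' C M' P' hP'v) b hb
  obtain ⟨n, c, hnc⟩ := h1
  refine ⟨n, c, ?_⟩
  rw [hnc]
  congr 1


end Two

end Fermat.Agent.MLT
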