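/-
MLT / [L2-JL] (helper7), P5(d): **the chart geometry of the two levels `N'` and `N' ℓ`**: the chart-1
presentations `P` of `F = F_L(N' q q)` and `P'` of `F' = F_L(N' ℓ q q)` (`B = IntCl(L[X]) ∩ 𝒪`), the
embeddings `A_ℓ, B_ℓ : F → F'`.

* `mltl2h_presOver_A`   : `T4PresOver P P'` along `A_ℓ`;
* `mltl2h_vert_over`    : a prime of `B'` over a prime of `B` containing the three vertical centres contains
                          the three vertical centres of `B'` (going down);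
* `mltl2h_unit_hor`     : if `y` is a unit at all valuation rings through the triple points of `P`, then
                          `T_ℓ y = N_{A}(B_ℓ y)` is a unit at the horizontal valuation rings through the
                          triple points.
-/
import Mathlib
import Fermat.Agent.Lib.MLT.L2.HkTriple
import Fermat.Agent.Lib.MLT.L2.HkCompat
import Fermat.Agent.Lib.MLT.L2.HkCharRed
import Fermat.Agent.Lib.MLT.L2.HkGoing
import Fermat.Agent.Lib.MLT.L2.HkNormUnit
import Fermat.Agent.Lib.T4.Inst.PresOver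
import Fermat.Agent.Lib.T4.Inst.PresCrt

set_option autoImplicit false
set_option linter.unusedSectionVars false
set_option linter.unusedVariables false
set_option linter.style.haveILetI false
set_option synthInstance.maxHeartbeats 400000

open HahnSeries ModularCurve Fermat.Agent.T1 Fermat.Agent.T2 Fermat.Agent.T4 Fermat.Agent.Delta
  IntermediateField Module AlgebraicCurve

noncomputable section

namespace Fermat.Agent.MLT

section Two

attribute [local instance] t2iAlgebra t2i_isScalarTower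

variable {L : Type} [Field L] [Algebra ℚ L] (O : ValuationSubring L) {k : Type} [Field k]
  (π : ↥O →+* k) [IsDiscreteValuationRing ↥O] (hπ : Function.Surjective π) [IsAlgClosed k]
  {N' q ℓ : ℕ} [NeZero N'] [hq : Fact q.Prime] [NeZero ℓ] [CharP k q]
  (hN' : (N' : k) ≠ 0) (hN'ℓ : ((N' * ℓ : ℕ) : k) ≠ 0)
  (W1 : T2iAL L N' q) (Fr : T2iFrob k N' q) (W : T4iAL L N' q)
  (W1' : T2iAL L (N' * ℓ) q) (Fr' : T2iFrob k (N' * ℓ) q) (W' : T4iAL L (N' * ℓ) q)
  (hqO : Irreducible ((q : ℕ) : ↥O))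
  {L' : Type*} [Field L'] [Algebra L L'] (O' : ValuationSubring L')
  [IsDiscreteValuationRing ↥O'] (π' : ↥O' →+* k) (C : T4iCyc O O' π π' q)
  (M : T4iMid L L' N' q C.ζ) (M' : T4iMid L L' (N' * ℓ) q C.ζ)
  (P : T4Pres ↥(TaF L (N' * q * q))) (P' : T4Pres ↥(TaF L (N' * ℓ * q * q)))
  {X : ↥(TaF L (N' * q * q))} {X' : ↥(TaF L (N' * ℓ * q * q))}
  (hPB : ∀ f, f ∈ P.B ↔
    f ∈ t2Int (K := L) X ∧ f ∈ (t4vInput O π hπ hN' W1 Fr W hqO O' π' C M).Ov)
  (hP'B : ∀ f, f ∈ P'.B ↔
    f ∈ t2Int (K := L) X' ∧ f ∈ (t4vInput O π hπ hN'ℓ W1' Fr' W' hqO O' π' C M').Ov)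
  (hPv : P.vals = t4vpHor L X ∪ t4vwVer O π hπ W O' π' C M)
  (hP'v : P'.vals = t4vpHor L X' ∪ t4vwVer O π hπ W' O' π' C M')
  (hAX : mltl2hA L N' q ℓ X = X')

include hPB hP'B hPv hP'v hAX in
/-- **`T_ℓ y = N_A (B_ℓ y)` is a unit at the horizontal valuation rings through the triple points**, if
`y` is a unit at all the valuation rings through the triple points -/
theorem mltl2h_unit_hor (hcrt : T4vwCrt O π hπ W O' π' C M) (hℓq : ¬ q ∣ ℓ)
    (hfin : @FiniteDimensional ↥(TaF L (N' * q * q)) ↥(TaF L (N' * ℓ * q * q)) _ _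
      (mltl2hA L N' q ℓ).toRingHom.toAlgebra.toModule)
    (hfinE : @FiniteDimensional ↥(modularFunctionFieldFullC k N')
      ↥(modularFunctionFieldFullC k (N' * ℓ)) _ _ (algebraAlong (dlhAlphaC k N' ℓ)).toModule)
    (hdeg : @finrank ↥(TaF L (N' * q * q)) ↥(TaF L (N' * ℓ * q * q)) _ _
        (mltl2hA L N' q ℓ).toRingHom.toAlgebra.toModule =
      @finrank ↥(modularFunctionFieldFullC k N') ↥(modularFunctionFieldFullC k (N' * ℓ)) _ _
        (algebraAlong (dlhAlphaC k N' ℓ)).toModule)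
    (hBX : IsIntegral ↥(Algebra.adjoin L {X'}) (mltl2hB L N' q ℓ X)) (hXB : X ∈ P.B)
    (hBint : (mltl2hB L N' q ℓ).toRingHom.IsIntegral)
    (y : ↥(TaF L (N' * q * q))) (hy0 : y ≠ 0)
    (hloc : ∀ 𝔪 : Ideal ↥P.B, 𝔪.IsMaximal →
      (∀ i, mltl2hVer O π hπ W O' π' C M i ∈ P.through 𝔪) →
      ∀ V ∈ P.through 𝔪, V.valuation y = 1)
    (𝔫 : Ideal ↥P.B) (h𝔫 : 𝔫.IsMaximal)
    (htr : ∀ i, mltl2hVer O π hπ W O' π' C M i ∈ P.through 𝔫)
    (v : Place L ↥(TaF L (N' * q * q))) (hv : v.toValuationSubring ∈ P.through 𝔫) :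
    v.toValuationSubring.valuation (mltl2hT L N' q ℓ y) = 1 := by
  letI : Algebra ↥(TaF L (N' * q * q)) ↥(TaF L (N' * ℓ * q * q)) :=
    (mltl2hA L N' q ℓ).toRingHom.toAlgebra
  haveI : IsScalarTower L ↥(TaF L (N' * q * q)) ↥(TaF L (N' * ℓ * q * q)) :=
    IsScalarTower.of_algebraMap_eq fun c => ((mltl2hA L N' q ℓ).commutes c).symm
  haveI : FiniteDimensional ↥(TaF L (N' * q * q)) ↥(TaF L (N' * ℓ * q * q)) := hfin
  haveI : CharZero L := algebraRat.charZero L
  haveI : CharZero ↥(TaF L (N' * q * q)) :=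
    charZero_of_injective_algebraMap (algebraMap L ↥(TaF L (N' * q * q))).injective
  haveI : Algebra.IsSeparable ↥(TaF L (N' * q * q)) ↥(TaF L (N' * ℓ * q * q)) :=
    Algebra.IsAlgebraic.isSeparable_of_perfectField
  have hA := mltl2h_presOver_A O π hπ hN' hN'ℓ W1 Fr W W1' Fr' W' hqO O' π' C M M' P P' hPB hP'B
    hPv hAX hfin hfinE hdeg
  rw [mltl2hT_apply]
  refine mltg_norm_unit v (mltl2hB L N' q ℓ y) ?_ (fun w hw => ?_)
  · rw [Ne, map_eq_zero]
    exact hy0
  · haveI := h𝔫.isPrime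
    have hw1 : ∀ b ∈ P.B, mltl2hA L N' q ℓ b ∈ w.toValuationSubring := by
      intro b hb
      have h0 : b ∈ v.toValuationSubring := P.B_le hv.1 hb
      have h1 : b ∈ (w.restrict ↥(TaF L (N' * q * q))).toValuationSubring := hw.symm ▸ h0
      have h2 : algebraMap ↥(TaF L (N' * q * q)) ↥(TaF L (N' * ℓ * q * q)) b ∈
          w.toValuationSubring := (Place.mem_restrict_iff w).mp h1
      exact h2
    have hwc : ∀ b : ↥P.B, w.toValuationSubring.valuation
        (mltl2hA L N' q ℓ (b : ↥(TaF L (N' * q * q)))) < 1 → b ∈ 𝔫 := by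
      intro b hb
      apply hv.2 b
      have h1 : (w.restrict ↥(TaF L (N' * q * q))).toValuationSubring.valuation
          (b : ↥(TaF L (N' * q * q))) < 1 :=
        (t4l_valuation_comap_lt_one w.toValuationSubring (b : ↥(TaF L (N' * q * q)))).mpr hb
      rwa [hw] at h1
    obtain ⟨𝔪, h𝔪max, h𝔪tr, h𝔪w⟩ := mltl2h_through_beta O π hπ hN' hN'ℓ W1 Fr W W1' Fr' W' hqO
      O' π' C M M' P P' hPB hP'B hPv hP'v hAX hcrt hℓq hfin hfinE hdeg hBX w.toValuationSubring
      hw1 𝔫 (fun i => (htr i).2) hwc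
    have hv''eq : (w.restrictAlong (mltl2hB L N' q ℓ) hBint).toValuationSubring =
        w.toValuationSubring.comap ((mltl2hB L N' q ℓ : ↥(TaF L (N' * q * q)) →ₐ[L]
          ↥(TaF L (N' * ℓ * q * q))) : ↥(TaF L (N' * q * q)) →+* ↥(TaF L (N' * ℓ * q * q))) := rfl
    have hP'w : ∀ b ∈ P'.B, b ∈ w.toValuationSubring :=
      mltg_B_le_of_B1 hA w.toValuationSubring hw1
    have hXw : X ∈ (w.restrictAlong (mltl2hB L N' q ℓ) hBint).toValuationSubring := by
      rw [hv''eq, ValuationSubring.mem_comap]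
      exact hP'w _ (mltl2h_B_mem_B O π hπ hN' hN'ℓ W1 Fr W W1' Fr' W' hqO O' π' C M M' P P' hPB
        hP'B hℓq hBX X hXB)
    have hvals : (w.restrictAlong (mltl2hB L N' q ℓ) hBint).toValuationSubring ∈ P.vals := by
      rw [hPv]
      exact Or.inl ⟨_, rfl, hXw⟩
    have hthr : (w.restrictAlong (mltl2hB L N' q ℓ) hBint).toValuationSubring ∈ P.through 𝔪 := by
      refine ⟨hvals, fun b hb => h𝔪w b ?_⟩
      rw [hv''eq] at hb
      exact (mltg_valuation_comap_lt_one _ _ _).mp hb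
    have h1 := hloc 𝔪 h𝔪max
      (fun i => ⟨mltl2hVer_mem_vals O π hπ W O' π' C M P hPv i, h𝔪tr i⟩) _ hthr
    rw [hv''eq] at h1
    exact (mltg_valuation_comap_eq_one _ _ _).mp h1

end Two

end Fermat.Agent.MLT
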