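/-
MLT / [L2-JL] (helper7), P5(d): **`T_ℓ y` is a unit at the triple points if `y` is**, inertia level.

`P = t4vyPFix 𝔓 K hK hζ` the chart-1 presentation of `F = tbLevF 𝔓 (K q q) ⊤` (`q = 𝔓.p`, ANY level `K`
prime to `q`).  A *triple point* is a maximal ideal `𝔫` of `P.B` through which the three vertical valuation
rings pass (helper5's `MltJ4TriplePt`, here unfolded).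

* `mltj5_BX_integral`   : `B_ℓ (j^Q - j)` is integral over `L[j^Q - j]` at the level `K ℓ`;
* `mltj5_unit_triple_T` : `y` unit at all valuation rings through all triple points ⟹ so is
                          `T_ℓ y = N_{A_ℓ}(B_ℓ y)`, for `y ∈ D.U`;
* **`mltj5_unit_triple`** : the same for ANY `y' ∈ D.U` with `Φ(y') = T_ℓ^fun Φ(y)` (e.g. the `y'` of
                          `MltL2AbHeckeAt`).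
-/
import Mathlib
import Fermat.Agent.Lib.MLT.L2.HkFix
import Fermat.Agent.Lib.MLT.L2.HkTripleHor
import Fermat.Agent.Lib.T4.Inst.PresFix
import Fermat.Agent.Lib.T4.Inst.ChartBeta
import Fermat.Agent.Lib.T3.Hecke.Along

set_option autoImplicit false
set_option linter.unusedSectionVars false
set_option linter.unusedVariables false
set_option linter.style.haveILetI false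
set_option synthInstance.maxHeartbeats 400000

open WeierstrassCurve

namespace Fermat.Agent.MLT

open ModularCurve HahnSeries Fermat.Agent.T1 Fermat.Agent.T2 Fermat.Agent.T4 Fermat.Agent.TW
  Fermat.Agent.Delta Fermat.Agent.T3 Fermat.Agent.Alpha AlgebraicCurve Fermat.Agent.Curve
  Fermat.Agent.S05Lib Module IntermediateField

local notation "Qb" => AlgebraicClosure ℚ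

noncomputable section

attribute [local instance] t2i_dvr t2i_isAlgClosed t2i_charP t2i_fact t2iAlgebra t2i_isScalarTower

section Integral

variable (𝔓 : FFPlace) (H : Subgroup 𝔓.I) (N' q ℓ : ℕ) [NeZero N'] [hq : Fact q.Prime] [NeZero ℓ]

/-- `B_ℓ j = j(ℓτ)` is integral over `L[j]` at the level `N' ℓ q q` -/
theorem mltj5_Bj_integral :
    IsIntegral ↥(Algebra.adjoin ↥(tbFix 𝔓 H) {taJ (L := ↥(tbFix 𝔓 H)) (N' * ℓ * q * q)})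
      (mltl2hB ↥(tbFix 𝔓 H) N' q ℓ (taJ (L := ↥(tbFix 𝔓 H)) (N' * q * q))) := by
  rw [t2d_isIntegral_tbPhiF_iff, mltl2h_phi_B, t4vj_taJ_eq, t4vj_taJ_eq, tbPhiF_tbLevJ,
    tbPhiF_tbLevJ]
  have hd : ℓ ∣ N' * ℓ * q * q := ⟨N' * q * q, by ring⟩
  have h1 := t2cp_isIntegral_Y (N' * ℓ * q * q) ℓ hd
  have h2 : mltl2hB Qb N' q ℓ (tbJ (N' * q * q)) = t2cpYq (N' * ℓ * q * q) ℓ hd := by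
    apply Subtype.ext
    rw [coe_mltl2hB, coe_t2cpYq]
    rfl
  rw [h2]
  exact h1

/-- **`B_ℓ (j^Q - j)` is integral over `L[j^Q - j]`** at the level `N' ℓ q q` -/
theorem mltj5_BX_integral {Q : ℕ} (hQ : 2 ≤ Q) :
    IsIntegral ↥(Algebra.adjoin ↥(tbFix 𝔓 H) {t4vX ↥(tbFix 𝔓 H) (N' * ℓ) q Q})
      (mltl2hB ↥(tbFix 𝔓 H) N' q ℓ (t4vX ↥(tbFix 𝔓 H) N' q Q)) := by
  rw [t4vX, t4vX, map_sub, map_pow]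
  exact t4vj_chart hQ (mltj5_Bj_integral 𝔓 H N' q ℓ)

theorem mltj5_AX (Q : ℕ) :
    mltl2hA ↥(tbFix 𝔓 H) N' q ℓ (t4vX ↥(tbFix 𝔓 H) N' q Q) = t4vX ↥(tbFix 𝔓 H) (N' * ℓ) q Q := by
  rw [t4vX, t4vX, map_sub, map_pow, mltl2hA_taJ]

end Integral

section Main

variable (𝔓 : FFPlace) (K : ℕ) [NeZero K] (hK : ¬ 𝔓.p ∣ K) {ζ : Qb}
  (hζ : IsPrimitiveRoot ζ 𝔓.p) (p : ℕ)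

/-- **`T_ℓ y = N_{A_ℓ}(B_ℓ y)` is a unit at the horizontal valuation rings through the triple points**
if `y` is a unit at all valuation rings through the triple points (every level `K` prime to `q`) -/
theorem mltj5_unit_triple_hor (ℓ : ℕ) [NeZero ℓ] (hℓ : ℓ.Prime) (hℓK : ¬ ℓ ∣ K * 𝔓.p * 𝔓.p)
    (y : ↥(tbLevF 𝔓 (K * 𝔓.p * 𝔓.p) ⊤)) (hy0 : y ≠ 0)
    (hloc : ∀ 𝔫 : Ideal ↥(t4vyPFix 𝔓 K hK hζ).B, 𝔫.IsMaximal →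
      t4vOinfFix 𝔓 K ∈ (t4vyPFix 𝔓 K hK hζ).through 𝔫 →
      t4vOmidFix 𝔓 K hK hζ ∈ (t4vyPFix 𝔓 K hK hζ).through 𝔫 →
      t4vO0Fix 𝔓 K hK ∈ (t4vyPFix 𝔓 K hK hζ).through 𝔫 →
      ∀ V ∈ (t4vyPFix 𝔓 K hK hζ).through 𝔫, V.valuation y = 1)
    (𝔫 : Ideal ↥(t4vyPFix 𝔓 K hK hζ).B) (h𝔫 : 𝔫.IsMaximal)
    (hinf : t4vOinfFix 𝔓 K ∈ (t4vyPFix 𝔓 K hK hζ).through 𝔫)
    (hmid : t4vOmidFix 𝔓 K hK hζ ∈ (t4vyPFix 𝔓 K hK hζ).through 𝔫)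
    (h0 : t4vO0Fix 𝔓 K hK ∈ (t4vyPFix 𝔓 K hK hζ).through 𝔫)
    (v : Place ↥(tbFix 𝔓 (⊤ : Subgroup 𝔓.I)) ↥(tbLevF 𝔓 (K * 𝔓.p * 𝔓.p) ⊤))
    (hv : v.toValuationSubring ∈ (t4vyPFix 𝔓 K hK hζ).through 𝔫) :
    v.toValuationSubring.valuation
      (mltl2hT ↥(tbFix 𝔓 (⊤ : Subgroup 𝔓.I)) K 𝔓.p ℓ y) = 1 := by
  letI := t4cyAlgebra 𝔓 (le_top : t4cyH 𝔓 ζ ≤ ⊤)
  haveI : Fact ℓ.Prime := ⟨hℓ⟩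
  have hℓK' : ¬ ℓ ∣ K := fun h => hℓK ((h.mul_right _).mul_right _)
  have hℓq : ℓ ≠ 𝔓.p := by
    rintro rfl
    exact hℓK (Dvd.intro_left _ rfl)
  have hqℓ : ¬ 𝔓.p ∣ ℓ := fun h => hℓq ((Nat.prime_dvd_prime_iff_eq 𝔓.hp hℓ).mp h).symm
  have hKℓ : ¬ 𝔓.p ∣ K * ℓ := dlh_not_dvd_mul 𝔓 hK hℓ hℓq
  have hdegE := mltl2h_finrank_alphaC_P 𝔓 hK hℓ hℓK' hℓq
  have hdegA := mltl2h_finrank_A (tbFixO 𝔓 ⊤) (tbFixRes 𝔓 ⊤) (tbFixRes_surjective 𝔓 ⊤)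
    (t2i_natCast_ne_zero 𝔓 hK) (t2i_natCast_ne_zero 𝔓 hKℓ) (t2iALFix 𝔓 ⊤ K hK) (t2iFrobFix 𝔓 K)
    (t4iALFix 𝔓 ⊤ K hK) (t2iALFix 𝔓 ⊤ (K * ℓ) hKℓ) (t2iFrobFix 𝔓 (K * ℓ))
    (t4iALFix 𝔓 ⊤ (K * ℓ) hKℓ) (t4cy_irreducible_p 𝔓) (tbFixO 𝔓 (t4cyH 𝔓 ζ))
    (tbFixRes 𝔓 (t4cyH 𝔓 ζ)) (t4iCycFix 𝔓 hζ) (t4vMidFix 𝔓 K hK hζ)
    (t4vMidFix 𝔓 (K * ℓ) hKℓ hζ) hℓ hℓK'
  have hfin : @FiniteDimensional ↥(tbLevF 𝔓 (K * 𝔓.p * 𝔓.p) ⊤)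
      ↥(tbLevF 𝔓 (K * ℓ * 𝔓.p * 𝔓.p) ⊤) _ _
      (mltl2hA ↥(tbFix 𝔓 (⊤ : Subgroup 𝔓.I)) K 𝔓.p ℓ).toRingHom.toAlgebra.toModule := by
    letI : Algebra ↥(tbLevF 𝔓 (K * 𝔓.p * 𝔓.p) ⊤) ↥(tbLevF 𝔓 (K * ℓ * 𝔓.p * 𝔓.p) ⊤) :=
      (mltl2hA ↥(tbFix 𝔓 (⊤ : Subgroup 𝔓.I)) K 𝔓.p ℓ).toRingHom.toAlgebra
    exact Module.finite_of_finrank_pos (by rw [hdegA]; exact Nat.succ_pos ℓ)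
  have hfinE : @FiniteDimensional ↥(tbBarF 𝔓 K) ↥(tbBarF 𝔓 (K * ℓ)) _ _
      (algebraAlong (dlhAlphaC (IsLocalRing.ResidueField ↥𝔓.P) K ℓ)).toModule := by
    letI := algebraAlong (dlhAlphaC (IsLocalRing.ResidueField ↥𝔓.P) K ℓ)
    exact Module.finite_of_finrank_pos (by rw [hdegE]; exact Nat.succ_pos ℓ)
  have hBint : (mltl2hB ↥(tbFix 𝔓 (⊤ : Subgroup 𝔓.I)) K 𝔓.p ℓ).toRingHom.IsIntegral :=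
    t3h_isIntegralAlong (t4vy_gen 𝔓 K) (t4vy_gen 𝔓 (K * ℓ)) _
  have hXg := t4vy_hyp 𝔓 K hK hζ
  have hXB : t4vX ↥(tbFix 𝔓 (⊤ : Subgroup 𝔓.I)) K 𝔓.p (𝔓.p * 𝔓.p) ∈ (t4vyPFix 𝔓 K hK hζ).B := by
    refine (mem_t4vwPres_B (t4cy_irreducible_p 𝔓) (t4vy_hyp 𝔓 K hK hζ) (t4vy_crt 𝔓 K hK hζ)
      (t2i_natCast_ne_zero 𝔓 hK) (t2iALFix 𝔓 ⊤ K hK) (t2iFrobFix 𝔓 K) _).mpr
      ⟨t2Int_self _, ?_⟩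
    rw [mem_t4vInput_Ov_iff]
    exact ⟨hXg.g1, hXg.g3, hXg.g2⟩
  have key := mltl2h_unit_hor (tbFixO 𝔓 ⊤) (tbFixRes 𝔓 ⊤) (tbFixRes_surjective 𝔓 ⊤)
    (t2i_natCast_ne_zero 𝔓 hK) (t2i_natCast_ne_zero 𝔓 hKℓ) (t2iALFix 𝔓 ⊤ K hK) (t2iFrobFix 𝔓 K)
    (t4iALFix 𝔓 ⊤ K hK) (t2iALFix 𝔓 ⊤ (K * ℓ) hKℓ) (t2iFrobFix 𝔓 (K * ℓ))
    (t4iALFix 𝔓 ⊤ (K * ℓ) hKℓ) (t4cy_irreducible_p 𝔓) (tbFixO 𝔓 (t4cyH 𝔓 ζ))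
    (tbFixRes 𝔓 (t4cyH 𝔓 ζ)) (t4iCycFix 𝔓 hζ) (t4vMidFix 𝔓 K hK hζ)
    (t4vMidFix 𝔓 (K * ℓ) hKℓ hζ) (t4vyPFix 𝔓 K hK hζ) (t4vyPFix 𝔓 (K * ℓ) hKℓ hζ)
    (mem_t4vwPres_B (t4cy_irreducible_p 𝔓) (t4vy_hyp 𝔓 K hK hζ) (t4vy_crt 𝔓 K hK hζ)
      (t2i_natCast_ne_zero 𝔓 hK) (t2iALFix 𝔓 ⊤ K hK) (t2iFrobFix 𝔓 K))
    (mem_t4vwPres_B (t4cy_irreducible_p 𝔓) (t4vy_hyp 𝔓 (K * ℓ) hKℓ hζ)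
      (t4vy_crt 𝔓 (K * ℓ) hKℓ hζ) (t2i_natCast_ne_zero 𝔓 hKℓ) (t2iALFix 𝔓 ⊤ (K * ℓ) hKℓ)
      (t2iFrobFix 𝔓 (K * ℓ)))
    (t4vyPFix_vals 𝔓 K hK hζ) (t4vyPFix_vals 𝔓 (K * ℓ) hKℓ hζ)
    (mltj5_AX 𝔓 ⊤ K 𝔓.p ℓ (𝔓.p * 𝔓.p)) (t4vy_crt 𝔓 K hK hζ) hqℓ hfin hfinE
    (hdegA.trans hdegE.symm) (mltj5_BX_integral 𝔓 ⊤ K 𝔓.p ℓ (t4vy_two_le 𝔓)) hXB hBint
  have hloc' : ∀ 𝔪 : Ideal ↥(t4vyPFix 𝔓 K hK hζ).B, 𝔪.IsMaximal →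
      (∀ i, mltl2hVer (tbFixO 𝔓 ⊤) (tbFixRes 𝔓 ⊤) (tbFixRes_surjective 𝔓 ⊤) (t4iALFix 𝔓 ⊤ K hK)
        (tbFixO 𝔓 (t4cyH 𝔓 ζ)) (tbFixRes 𝔓 (t4cyH 𝔓 ζ)) (t4iCycFix 𝔓 hζ)
        (t4vMidFix 𝔓 K hK hζ) i ∈ (t4vyPFix 𝔓 K hK hζ).through 𝔪) →
      ∀ V ∈ (t4vyPFix 𝔓 K hK hζ).through 𝔪, V.valuation y = 1 :=
    fun 𝔪 h𝔪 htr => hloc 𝔪 h𝔪 (htr .inf) (htr .mid) (htr .zero)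
  have key2 := key y hy0 hloc' 𝔫 h𝔫
  refine key2 ?_ v hv
  intro i
  cases i
  · exact hinf
  · exact hmid
  · exact h0

/-- a unit at the three vertical valuations is a unit at the vertical valuation rings of the chart -/
theorem mltj5_unit_vert (y : ↥(t4niAFix 𝔓 K hK hζ p).U)
    (V : ValuationSubring ↥(tbLevF 𝔓 (K * 𝔓.p * 𝔓.p) ⊤))
    (hV : V ∈ (t4vyPFix 𝔓 K hK hζ).vals)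
    (hVh : V ∉ t4vpHor ↥(tbFix 𝔓 (⊤ : Subgroup 𝔓.I))
      (t4vX ↥(tbFix 𝔓 (⊤ : Subgroup 𝔓.I)) K 𝔓.p (𝔓.p * 𝔓.p))) :
    V.valuation (((y : (↥(tbLevF 𝔓 (K * 𝔓.p * 𝔓.p) ⊤))ˣ)) : ↥(tbLevF 𝔓 (K * 𝔓.p * 𝔓.p) ⊤)) =
      1 := by
  letI := t4cyAlgebra 𝔓 (le_top : t4cyH 𝔓 ζ ≤ ⊤)
  rw [t4vyPFix_vals] at hV
  have hVv := hV.resolve_left hVh
  have h1 := t4ni_mem_Ov_of_mem_U (tbFixO 𝔓 ⊤) (tbFixRes 𝔓 ⊤) (tbFixRes_surjective 𝔓 ⊤)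
    (t2i_natCast_ne_zero 𝔓 hK) (t2iALFix 𝔓 ⊤ K hK) (t2iFrobFix 𝔓 K) (t4iALFix 𝔓 ⊤ K hK)
    (t4cy_irreducible_p 𝔓) (tbFixO 𝔓 (t4cyH 𝔓 ζ)) (tbFixRes 𝔓 (t4cyH 𝔓 ζ)) (t4iCycFix 𝔓 hζ)
    (t4vMidFix 𝔓 K hK hζ) p (t4ni_happrox (tbFixO 𝔓 ⊤) (tbFixRes 𝔓 ⊤) (tbFixRes_surjective 𝔓 ⊤)
      (t2i_natCast_ne_zero 𝔓 hK) (t2iALFix 𝔓 ⊤ K hK) (t2iFrobFix 𝔓 K) (t4iALFix 𝔓 ⊤ K hK)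
      (t4cy_irreducible_p 𝔓) (tbFixO 𝔓 (t4cyH 𝔓 ζ)) (tbFixRes 𝔓 (t4cyH 𝔓 ζ)) (t4iCycFix 𝔓 hζ)
      (t4vMidFix 𝔓 K hK hζ)) y.2
  have h2 := (mem_Ov_iff_forall_t4vwVer (tbFixO 𝔓 ⊤) (tbFixRes 𝔓 ⊤) (tbFixRes_surjective 𝔓 ⊤)
    (t2i_natCast_ne_zero 𝔓 hK) (t2iALFix 𝔓 ⊤ K hK) (t2iFrobFix 𝔓 K) (t4iALFix 𝔓 ⊤ K hK)
    (t4cy_irreducible_p 𝔓) (tbFixO 𝔓 (t4cyH 𝔓 ζ)) (tbFixRes 𝔓 (t4cyH 𝔓 ζ)) (t4iCycFix 𝔓 hζ)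
    (t4vMidFix 𝔓 K hK hζ) _).mp h1.1 V hVv
  have h3 := (mem_Ov_iff_forall_t4vwVer (tbFixO 𝔓 ⊤) (tbFixRes 𝔓 ⊤) (tbFixRes_surjective 𝔓 ⊤)
    (t2i_natCast_ne_zero 𝔓 hK) (t2iALFix 𝔓 ⊤ K hK) (t2iFrobFix 𝔓 K) (t4iALFix 𝔓 ⊤ K hK)
    (t4cy_irreducible_p 𝔓) (tbFixO 𝔓 (t4cyH 𝔓 ζ)) (tbFixRes 𝔓 (t4cyH 𝔓 ζ)) (t4iCycFix 𝔓 hζ)
    (t4vMidFix 𝔓 K hK hζ) _).mp h1.2 V hVv
  rw [Units.val_inv_eq_inv_val] at h3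
  exact t4vs_valuation_unit V (Units.ne_zero _) h2 h3

/-- **P5(d): `T_ℓ y` is a unit at the triple points if `y` is** (every level `K` prime to `q`, every prime
`ℓ ∤ K q`): `y, y' ∈ D.U` with `Φ(y') = T_ℓ^fun Φ(y)` (for instance the `y'` of `MltL2AbHeckeAt`); if `y`
is a unit at every valuation ring of the chart through every triple point, so is `y'` -/
theorem mltj5_unit_triple (ℓ : ℕ) [NeZero ℓ] (hℓ : ℓ.Prime) (hℓK : ¬ ℓ ∣ K * 𝔓.p * 𝔓.p)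
    (y y' : ↥(t4niAFix 𝔓 K hK hζ p).U)
    (hyy' : mltl2PhiU 𝔓 (K * 𝔓.p * 𝔓.p) (y' : (↥(tbLevF 𝔓 (K * 𝔓.p * 𝔓.p) ⊤))ˣ) =
      tkrHeckeUnits (K * 𝔓.p * 𝔓.p) ℓ
        (mltl2PhiU 𝔓 (K * 𝔓.p * 𝔓.p) (y : (↥(tbLevF 𝔓 (K * 𝔓.p * 𝔓.p) ⊤))ˣ)))
    (hloc : ∀ 𝔫 : Ideal ↥(t4vyPFix 𝔓 K hK hζ).B, 𝔫.IsMaximal →
      t4vOinfFix 𝔓 K ∈ (t4vyPFix 𝔓 K hK hζ).through 𝔫 →
      t4vOmidFix 𝔓 K hK hζ ∈ (t4vyPFix 𝔓 K hK hζ).through 𝔫 →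
      t4vO0Fix 𝔓 K hK ∈ (t4vyPFix 𝔓 K hK hζ).through 𝔫 →
      ∀ V ∈ (t4vyPFix 𝔓 K hK hζ).through 𝔫,
        V.valuation (((y : (↥(tbLevF 𝔓 (K * 𝔓.p * 𝔓.p) ⊤))ˣ)) :
          ↥(tbLevF 𝔓 (K * 𝔓.p * 𝔓.p) ⊤)) = 1) :
    ∀ 𝔫 : Ideal ↥(t4vyPFix 𝔓 K hK hζ).B, 𝔫.IsMaximal →
      t4vOinfFix 𝔓 K ∈ (t4vyPFix 𝔓 K hK hζ).through 𝔫 →
      t4vOmidFix 𝔓 K hK hζ ∈ (t4vyPFix 𝔓 K hK hζ).through 𝔫 →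
      t4vO0Fix 𝔓 K hK ∈ (t4vyPFix 𝔓 K hK hζ).through 𝔫 →
      ∀ V ∈ (t4vyPFix 𝔓 K hK hζ).through 𝔫,
        V.valuation (((y' : (↥(tbLevF 𝔓 (K * 𝔓.p * 𝔓.p) ⊤))ˣ)) :
          ↥(tbLevF 𝔓 (K * 𝔓.p * 𝔓.p) ⊤)) = 1 := by
  intro 𝔫 h𝔫 hinf hmid h0 V hV
  by_cases hVh : V ∈ t4vpHor ↥(tbFix 𝔓 (⊤ : Subgroup 𝔓.I))
      (t4vX ↥(tbFix 𝔓 (⊤ : Subgroup 𝔓.I)) K 𝔓.p (𝔓.p * 𝔓.p))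
  · letI := t4cyAlgebra 𝔓 (le_top : t4cyH 𝔓 ζ ≤ ⊤)
    haveI : Fact ℓ.Prime := ⟨hℓ⟩
    have hℓK' : ¬ ℓ ∣ K := fun h => hℓK ((h.mul_right _).mul_right _)
    have hℓq : ℓ ≠ 𝔓.p := by
      rintro rfl
      exact hℓK (Dvd.intro_left _ rfl)
    have hKℓ : ¬ 𝔓.p ∣ K * ℓ := dlh_not_dvd_mul 𝔓 hK hℓ hℓq
    have hdegA := mltl2h_finrank_A (tbFixO 𝔓 ⊤) (tbFixRes 𝔓 ⊤) (tbFixRes_surjective 𝔓 ⊤)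
      (t2i_natCast_ne_zero 𝔓 hK) (t2i_natCast_ne_zero 𝔓 hKℓ) (t2iALFix 𝔓 ⊤ K hK) (t2iFrobFix 𝔓 K)
      (t4iALFix 𝔓 ⊤ K hK) (t2iALFix 𝔓 ⊤ (K * ℓ) hKℓ) (t2iFrobFix 𝔓 (K * ℓ))
      (t4iALFix 𝔓 ⊤ (K * ℓ) hKℓ) (t4cy_irreducible_p 𝔓) (tbFixO 𝔓 (t4cyH 𝔓 ζ))
      (tbFixRes 𝔓 (t4cyH 𝔓 ζ)) (t4iCycFix 𝔓 hζ) (t4vMidFix 𝔓 K hK hζ)
      (t4vMidFix 𝔓 (K * ℓ) hKℓ hζ) hℓ hℓK'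
    -- `y' = T_ℓ y`
    have hT : (((y' : (↥(tbLevF 𝔓 (K * 𝔓.p * 𝔓.p) ⊤))ˣ)) : ↥(tbLevF 𝔓 (K * 𝔓.p * 𝔓.p) ⊤)) =
        mltl2hT ↥(tbFix 𝔓 (⊤ : Subgroup 𝔓.I)) K 𝔓.p ℓ
          (((y : (↥(tbLevF 𝔓 (K * 𝔓.p * 𝔓.p) ⊤))ˣ)) : ↥(tbLevF 𝔓 (K * 𝔓.p * 𝔓.p) ⊤)) := by
      apply tbPhiF_injective 𝔓 (K * 𝔓.p * 𝔓.p) ⊤
      have h1 := congrArg Units.val hyy'
      rw [coe_mltl2PhiU, tkrHeckeUnits_coe, coe_mltl2PhiU] at h1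
      rw [h1, mltl2hT_apply]
      exact (mltl2h_norm_phi 𝔓 ⊤ K 𝔓.p ℓ hℓK hdegA _).symm
    obtain ⟨v, rfl, hXv⟩ := hVh
    rw [hT]
    exact mltj5_unit_triple_hor 𝔓 K hK hζ ℓ hℓ hℓK _ (Units.ne_zero _) hloc 𝔫 h𝔫 hinf hmid h0 v hV
  · exact mltj5_unit_vert 𝔓 K hK hζ p y' V hV.1 hVh

end Main

end

end Fermat.Agent.MLT
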