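/-
MLT / [L2-JL] / (G-Hecke)(a) (helper7), file 2: **the three valuation rings and residue maps of T4 at
the levels `N' q q` and `(N' ℓ) q q` are compatible with the degeneracy maps `A_ℓ`, `B_ℓ`**.

* `mltl2h_mid_A`, `mltl2h_mid_B`: `ι'_mid (A x) = ι_mid x`, `ι'_mid (B x) = (τ_ℓ (ι_mid x))(𝔮^ℓ)`
  (`τ_ℓ : ζ ↦ ζ^ℓ`), by uniqueness;
* for `* = inf, 0, mid`: `x ∈ O_* ⟹ A x, B x ∈ O'_*`, `r'_* (A x) = r_* x`, `r'_* (B x) = (r_* x)(𝔮^ℓ)`.
-/
import Mathlib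
import Fermat.Agent.Lib.MLT.L2.HkLevel
import Fermat.Agent.Lib.T4.Inst.ValElts1
import Fermat.Agent.Lib.T4.Inst.NormGauss

set_option autoImplicit false
set_option linter.unusedSectionVars false
set_option linter.unusedVariables false
set_option linter.style.haveILetI false

open HahnSeries ModularCurve Fermat.Agent.T1 Fermat.Agent.T2 Fermat.Agent.T4 IntermediateField

noncomputable section

namespace Fermat.Agent.MLT

/-! ### The middle embedding -/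

section Mid

variable {L : Type} [Field L] [Algebra ℚ L] {N' q ℓ : ℕ} [NeZero N'] [NeZero q] [NeZero ℓ]
  {L' : Type*} [Field L'] [Algebra L L'] {ζ : L'ˣ}
  (M : T4iMid L L' N' q ζ) (M' : T4iMid L L' (N' * ℓ) q ζ)

/-- the middle embedding on constants -/
theorem mltl2h_mid_const (c : L) :
    M.ι (algebraMap L ↥(TaF L (N' * q * q)) c) = HahnSeries.C (algebraMap L L' c) := by
  have h := M.ι_a0 (algebraMap L ↥(TaF L N') c)
  rw [AlgHom.commutes] at h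
  rw [h]
  show coeffMap (algebraMap L L') (algebraMap L (LaurentSeries L) c) = _
  rw [algebraMap_laurentSeries_eq_single]
  ext n
  rw [coeffMap_coeff, HahnSeries.C_apply, HahnSeries.coeff_single, HahnSeries.coeff_single]
  split_ifs
  · rfl
  · exact map_zero _

/-- `ι'_mid ∘ A_ℓ = ι_mid` -/
theorem mltl2h_mid_A (hq : q.Prime) (x : ↥(TaF L (N' * q * q))) :
    M'.ι (mltl2hA L N' q ℓ x) = M.ι x := by
  have key : M'.ι.comp
      (mltl2hA L N' q ℓ : ↥(TaF L (N' * q * q)) →+* ↥(TaF L (N' * ℓ * q * q))) = M.ι := by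
    apply mltl2h_ext hq
    · intro c
      show M'.ι (mltl2hA L N' q ℓ (algebraMap L _ c)) = M.ι (algebraMap L _ c)
      rw [AlgHom.commutes, mltl2h_mid_const, mltl2h_mid_const]
    · intro f
      show M'.ι (mltl2hA L N' q ℓ (t4vA0 L N' q f)) = M.ι (t4vA0 L N' q f)
      rw [mltl2hA_a0, M'.ι_a0, M.ι_a0, coe_heckeAlphaBar]
    · intro f
      show M'.ι (mltl2hA L N' q ℓ (t4vA1 L N' q f)) = M.ι (t4vA1 L N' q f)
      rw [mltl2hA_a1, M'.ι_a1, M.ι_a1, coe_heckeAlphaBar]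
    · intro f
      show M'.ι (mltl2hA L N' q ℓ (t4vA2 L N' q f)) = M.ι (t4vA2 L N' q f)
      rw [mltl2hA_a2, M'.ι_a2, M.ι_a2, coe_heckeAlphaBar]
  exact DFunLike.congr_fun key x

/-- `coeffMap τ ∘ coeffMap (algebraMap L L') = coeffMap (algebraMap L L')` for `τ` over `L` -/
theorem mltl2h_coeffMap_tau (τ : L' ≃ₐ[L] L') (s : LaurentSeries L) :
    coeffMap ((τ : L' ≃ₐ[L] L') : L' →+* L') (coeffMap (algebraMap L L') s) =
      coeffMap (algebraMap L L') s := by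
  rw [coeffMap_coeffMap]
  exact coeffMap_congr (RingHom.ext fun c => τ.commutes c) s

/-- `ι'_mid (B_ℓ x) = (τ (ι_mid x))(𝔮^ℓ)` for `τ : ζ ↦ ζ^ℓ` -/
theorem mltl2h_mid_B (hq : q.Prime) (τ : L' ≃ₐ[L] L') (hτ : τ (ζ : L') = (ζ : L') ^ ℓ)
    (x : ↥(TaF L (N' * q * q))) :
    M'.ι (mltl2hB L N' q ℓ x) =
      qExpand L' ℓ (coeffMap ((τ : L' ≃ₐ[L] L') : L' →+* L') (M.ι x)) := by
  have hτu : Units.map ((((τ : L' ≃ₐ[L] L') : L' →+* L')) : L' →* L') ζ = ζ ^ ℓ := by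
    apply Units.ext
    rw [Units.coe_map, Units.val_pow_eq_pow_val]
    exact hτ
  have key : M'.ι.comp
      (mltl2hB L N' q ℓ : ↥(TaF L (N' * q * q)) →+* ↥(TaF L (N' * ℓ * q * q))) =
      ((qExpand L' ℓ : LaurentSeries L' →+* LaurentSeries L').comp
        (coeffMap ((τ : L' ≃ₐ[L] L') : L' →+* L'))).comp M.ι := by
    apply mltl2h_ext hq
    · intro c
      show M'.ι (mltl2hB L N' q ℓ (algebraMap L _ c)) =
        qExpand L' ℓ (coeffMap ((τ : L' ≃ₐ[L] L') : L' →+* L') (M.ι (algebraMap L _ c)))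
      rw [AlgHom.commutes, mltl2h_mid_const, mltl2h_mid_const]
      have h1 : coeffMap ((τ : L' ≃ₐ[L] L') : L' →+* L')
          (HahnSeries.C (algebraMap L L' c) : LaurentSeries L') =
          HahnSeries.C (algebraMap L L' c) := by
        ext n
        rw [coeffMap_coeff, HahnSeries.C_apply, HahnSeries.coeff_single]
        split_ifs
        · exact τ.commutes c
        · exact map_zero _
      rw [h1, HahnSeries.C_apply, qExpand_single, mul_zero]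
    · intro f
      show M'.ι (mltl2hB L N' q ℓ (t4vA0 L N' q f)) =
        qExpand L' ℓ (coeffMap ((τ : L' ≃ₐ[L] L') : L' →+* L') (M.ι (t4vA0 L N' q f)))
      rw [mltl2hB_a0, M'.ι_a0, M.ι_a0, coe_heckeBetaBar, mltl2h_coeffMap_tau, coeffMap_qExpand]
    · intro f
      show M'.ι (mltl2hB L N' q ℓ (t4vA1 L N' q f)) =
        qExpand L' ℓ (coeffMap ((τ : L' ≃ₐ[L] L') : L' →+* L') (M.ι (t4vA1 L N' q f)))
      rw [mltl2hB_a1, M'.ι_a1, M.ι_a1, coe_heckeBetaBar, mltl2h_coeffMap_tau, coeffMap_qExpand,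
        coeffMap_qExpand, coeffMap_qExpand, mltl2h_qExpand_comm]
    · intro f
      show M'.ι (mltl2hB L N' q ℓ (t4vA2 L N' q f)) =
        qExpand L' ℓ (coeffMap ((τ : L' ≃ₐ[L] L') : L' →+* L') (M.ι (t4vA2 L N' q f)))
      rw [mltl2hB_a2, M'.ι_a2, M.ι_a2, coe_heckeBetaBar, coeffMap_t4vSig, mltl2h_coeffMap_tau,
        hτu, coeffMap_qExpand, t4vSig_qExpand]
  exact DFunLike.congr_fun key x

end Mid

/-! ### The valuation rings and the residue maps -/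

section Val

variable {L : Type} [Field L] [Algebra ℚ L] (O : ValuationSubring L) {k : Type*} [Field k]
  (π : ↥O →+* k) [IsDiscreteValuationRing ↥O] (hπ : Function.Surjective π) [IsAlgClosed k]
  {N' q ℓ : ℕ} [NeZero N'] [hq : Fact q.Prime] [NeZero ℓ] [CharP k q]
  (W : T4iAL L N' q) (W' : T4iAL L (N' * ℓ) q)
  {L' : Type*} [Field L'] [Algebra L L'] (O' : ValuationSubring L')
  [IsDiscreteValuationRing ↥O'] (π' : ↥O' →+* k) (C : T4iCyc O O' π π' q)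
  (M : T4iMid L L' N' q C.ζ) (M' : T4iMid L L' (N' * ℓ) q C.ζ)

/-! #### `∞` -/

theorem mltl2h_inf_A_mem {x : ↥(TaF L (N' * q * q))}
    (hx : x ∈ t4vOinf (N' := N') (q := q) O π hπ) :
    mltl2hA L N' q ℓ x ∈ t4vOinf (N' := N' * ℓ) (q := q) O π hπ := by
  rw [mem_t4vOinf, coe_mltl2hA]
  exact hx

theorem mltl2h_inf_A_res {x : ↥(TaF L (N' * q * q))}
    (hx : x ∈ t4vOinf (N' := N') (q := q) O π hπ) :
    t4veRinf (N' := N' * ℓ) (q := q) O π hπ ⟨_, mltl2h_inf_A_mem O π hπ hx⟩ =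
      t4veRinf (N' := N') (q := q) O π hπ ⟨x, hx⟩ := by
  rw [t4veRinf_apply, t4veRinf_apply]
  show taRhoFun O π ((mltl2hA L N' q ℓ x : ↥(TaF L (N' * ℓ * q * q))) : LaurentSeries L) = _
  rw [coe_mltl2hA]

theorem mltl2h_inf_B_mem {x : ↥(TaF L (N' * q * q))}
    (hx : x ∈ t4vOinf (N' := N') (q := q) O π hπ) :
    mltl2hB L N' q ℓ x ∈ t4vOinf (N' := N' * ℓ) (q := q) O π hπ := by
  rw [mem_t4vOinf, coe_mltl2hB]
  exact t2i_taGauss_qExpand O π ℓ hx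

theorem mltl2h_inf_B_res {x : ↥(TaF L (N' * q * q))}
    (hx : x ∈ t4vOinf (N' := N') (q := q) O π hπ) :
    t4veRinf (N' := N' * ℓ) (q := q) O π hπ ⟨_, mltl2h_inf_B_mem O π hπ hx⟩ =
      qExpand k ℓ (t4veRinf (N' := N') (q := q) O π hπ ⟨x, hx⟩) := by
  rw [t4veRinf_apply, t4veRinf_apply]
  show taRhoFun O π ((mltl2hB L N' q ℓ x : ↥(TaF L (N' * ℓ * q * q))) : LaurentSeries L) = _
  rw [coe_mltl2hB]
  exact t2i_taRhoFun_qExpand O π ℓ hx

/-! #### `0` -/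

theorem mltl2h_zero_A_mem {x : ↥(TaF L (N' * q * q))} (hx : x ∈ t4vO0 O π hπ W) :
    mltl2hA L N' q ℓ x ∈ t4vO0 O π hπ W' := by
  rw [mem_t4vO0, mltl2h_w_A hq.out W W', coe_mltl2hA]
  exact hx

theorem mltl2h_zero_A_res {x : ↥(TaF L (N' * q * q))} (hx : x ∈ t4vO0 O π hπ W) :
    t4veR0 O π hπ W' ⟨_, mltl2h_zero_A_mem O π hπ W W' hx⟩ = t4veR0 O π hπ W ⟨x, hx⟩ := by
  rw [t4veR0_apply, t4veR0_apply]
  show taRhoFun O π ((W'.w (mltl2hA L N' q ℓ x) : ↥(TaF L (N' * ℓ * q * q))) : LaurentSeries L) = _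
  rw [mltl2h_w_A hq.out W W', coe_mltl2hA]

theorem mltl2h_zero_B_mem {x : ↥(TaF L (N' * q * q))} (hx : x ∈ t4vO0 O π hπ W) :
    mltl2hB L N' q ℓ x ∈ t4vO0 O π hπ W' := by
  rw [mem_t4vO0, mltl2h_w_B hq.out W W', coe_mltl2hB]
  exact t2i_taGauss_qExpand O π ℓ hx

theorem mltl2h_zero_B_res {x : ↥(TaF L (N' * q * q))} (hx : x ∈ t4vO0 O π hπ W) :
    t4veR0 O π hπ W' ⟨_, mltl2h_zero_B_mem O π hπ W W' hx⟩ =
      qExpand k ℓ (t4veR0 O π hπ W ⟨x, hx⟩) := by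
  rw [t4veR0_apply, t4veR0_apply]
  show taRhoFun O π ((W'.w (mltl2hB L N' q ℓ x) : ↥(TaF L (N' * ℓ * q * q))) : LaurentSeries L) = _
  rw [mltl2h_w_B hq.out W W', coe_mltl2hB]
  exact t2i_taRhoFun_qExpand O π ℓ hx

/-! #### `mid` -/

theorem mltl2h_mid_A_mem {x : ↥(TaF L (N' * q * q))} (hx : x ∈ t4vOmid O π hπ O' π' C M) :
    mltl2hA L N' q ℓ x ∈ t4vOmid O π hπ O' π' C M' := by
  rw [mem_t4vOmid, mltl2h_mid_A M M' hq.out]
  exact hx

theorem mltl2h_mid_A_res {x : ↥(TaF L (N' * q * q))} (hx : x ∈ t4vOmid O π hπ O' π' C M) :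
    t4veRmid O π hπ O' π' C M' ⟨_, mltl2h_mid_A_mem O π hπ O' π' C M M' hx⟩ =
      t4veRmid O π hπ O' π' C M ⟨x, hx⟩ := by
  rw [t4veRmid_apply, t4veRmid_apply]
  show taRhoFun O' π' (M'.ι (mltl2hA L N' q ℓ x)) = _
  rw [mltl2h_mid_A M M' hq.out]

theorem mltl2h_mid_B_mem (hℓq : ¬ q ∣ ℓ) {x : ↥(TaF L (N' * q * q))}
    (hx : x ∈ t4vOmid O π hπ O' π' C M) :
    mltl2hB L N' q ℓ x ∈ t4vOmid O π hπ O' π' C M' := by
  letI : Algebra ℚ L' := ((algebraMap L L').comp (algebraMap ℚ L)).toAlgebra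
  rw [mem_t4vOmid, mltl2h_mid_B M M' hq.out (C.τ ℓ) (C.τ_ζ ℓ hℓq)]
  exact t2i_taGauss_qExpand O' π' ℓ (C.vn_gauss_tau ℓ hx)

theorem mltl2h_mid_B_res (hℓq : ¬ q ∣ ℓ) {x : ↥(TaF L (N' * q * q))}
    (hx : x ∈ t4vOmid O π hπ O' π' C M) :
    t4veRmid O π hπ O' π' C M' ⟨_, mltl2h_mid_B_mem O π hπ O' π' C M M' hℓq hx⟩ =
      qExpand k ℓ (t4veRmid O π hπ O' π' C M ⟨x, hx⟩) := by
  letI : Algebra ℚ L' := ((algebraMap L L').comp (algebraMap ℚ L)).toAlgebra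
  rw [t4veRmid_apply, t4veRmid_apply]
  show taRhoFun O' π' (M'.ι (mltl2hB L N' q ℓ x)) = _
  rw [mltl2h_mid_B M M' hq.out (C.τ ℓ) (C.τ_ζ ℓ hℓq),
    t2i_taRhoFun_qExpand O' π' ℓ (C.vn_gauss_tau ℓ hx), C.vn_rho_tau ℓ hx]

end Val

end Fermat.Agent.MLT
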