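/-
MLT / [L2-JL] / (G-Hecke)(a) (helper7), file 5: **the three valuations of `F_L(N' q q)` as valued
fields with residue field `E = k(X₀(N'))`, and the unramified extensions without defect
`(F_L(N' q q), O_*) ⊂ (F_L(N' ℓ q q), O'_*)`** (`* = inf, mid, 0`) as instances of helper3's `DlhRedExt`.

Part 1 (one level): the residue maps `t4veRinf, t4veRmid, t4veR0` of the three FULL valuation rings
have values in `E = modularFunctionFieldFullC k N'` (clear the other two valuations by weak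
approximation and use lead's `t4ve_ρ_i_mem` on `𝒪 = O_inf ∩ O_mid ∩ O_0`), and are onto `E` (`t4ve_crt`).
-/
import Mathlib
import Fermat.Agent.Lib.MLT.L2.HkRes
import Fermat.Agent.Lib.T4.Inst.ValElts3
import Fermat.Agent.Lib.T4.New.InstVal
import Fermat.Agent.Lib.Delta.Hecke.Bar

set_option autoImplicit false
set_option linter.unusedSectionVars false
set_option linter.unusedVariables false
set_option linter.style.haveILetI false
set_option synthInstance.maxHeartbeats 400000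

open HahnSeries ModularCurve Fermat.Agent.T1 Fermat.Agent.T2 Fermat.Agent.T4 Fermat.Agent.Delta
  IntermediateField Module AlgebraicCurve

noncomputable section

namespace Fermat.Agent.MLT

/-! ### Abstract helpers -/

theorem mltl2h_mul_mem {F : Type*} [Field F] {V : Subring F} {ϖ : F} (h : T4niUnif V ϖ)
    {g f u u' : F} {b n : ℤ} (hu : u ∈ V) (hu' : u' ∈ V) (eg : g = ϖ ^ b * u)
    (ef : f = ϖ ^ n * u') (hbn : 0 ≤ n + b) : g * f ∈ V := by
  have e : g * f = ϖ ^ (n + b) * (u * u') := by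
    rw [eg, ef, zpow_add₀ h.ne_zero]
    ring
  rw [e]
  exact V.mul_mem ((h.zpow_mem_iff _).mpr hbn) (V.mul_mem hu hu')

theorem mltl2h_inv_mem_of_zero {F : Type*} [Field F] {V : Subring F} {ϖ : F}
    {g u : F} (hu' : u⁻¹ ∈ V) (eg : g = ϖ ^ (0 : ℤ) * u) : g⁻¹ ∈ V := by
  rw [eg, zpow_zero, one_mul]
  exact hu'

theorem mltl2h_mem_of_mul {k K : Type*} [Field k] [Field K] [Algebra k K]
    (E : IntermediateField k K) {x y : K} (hy : y ∈ E) (hy0 : y ≠ 0) (hxy : y * x ∈ E) : x ∈ E := by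
  have e : x = (y * x) / y := by field_simp
  rw [e]
  exact div_mem hxy hy

/-! ### One level -/

section One

variable {L : Type} [Field L] [Algebra ℚ L] (O : ValuationSubring L) {k : Type*} [Field k]
  (π : ↥O →+* k) [IsDiscreteValuationRing ↥O] (hπ : Function.Surjective π) [IsAlgClosed k]
  {N' q : ℕ} [NeZero N'] [hq : Fact q.Prime] [CharP k q] (hN' : (N' : k) ≠ 0)
  (W1 : T2iAL L N' q) (Fr : T2iFrob k N' q) (W : T4iAL L N' q)
  (hqO : Irreducible ((q : ℕ) : ↥O))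
  {L' : Type*} [Field L'] [Algebra L L'] (O' : ValuationSubring L')
  [IsDiscreteValuationRing ↥O'] (π' : ↥O' →+* k) (C : T4iCyc O O' π π' q)
  (M : T4iMid L L' N' q C.ζ)

attribute [local instance] t2iAlgebra t2i_isScalarTower

include hN' W1 Fr hqO in
/-- **clearing the three valuations**: for `f ≠ 0` with valuations `(a, b, c)` and non-negative
`(a', b', c')` with `a + a', b + b', c + c' ≥ 0` there is `g ∈ 𝒪` with valuations `(a', b', c')` and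
`g f ∈ 𝒪` -/
theorem mltl2h_clear (f : ↥(TaF L (N' * q * q))) (hf : f ≠ 0) :
    ∃ a b c : ℤ,
      (f ∈ t4vOinf (N' := N') (q := q) O π hπ → 0 ≤ a) ∧
      (f ∈ t4vOmid O π hπ O' π' C M → 0 ≤ b) ∧ (f ∈ t4vO0 O π hπ W → 0 ≤ c) ∧
      ∀ a' b' c' : ℤ, 0 ≤ a' → 0 ≤ b' → 0 ≤ c' → 0 ≤ a + a' → 0 ≤ b + b' → 0 ≤ c + c' →
        ∃ g : ↥(TaF L (N' * q * q)), g ≠ 0 ∧
          g ∈ (t4vInput O π hπ hN' W1 Fr W hqO O' π' C M).Ov ∧
          g * f ∈ (t4vInput O π hπ hN' W1 Fr W hqO O' π' C M).Ov ∧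
          (a' = 0 → g⁻¹ ∈ t4vOinf (N' := N') (q := q) O π hπ) ∧
          (b' = 0 → g⁻¹ ∈ t4vOmid O π hπ O' π' C M) ∧
          (c' = 0 → g⁻¹ ∈ t4vO0 O π hπ W) := by
  have hI := t4ni_unif_inf O π hπ (N' := N') hqO
  have hM := t4ni_unif_mid O π hπ O' π' C M
  have hZ := t4ni_unif_zero O π hπ W hqO
  obtain ⟨a, u1, hu1, hu1', e1⟩ := hI.exists_zpow f hf
  obtain ⟨b, u2, hu2, hu2', e2⟩ := hM.exists_zpow f hf
  obtain ⟨c, u3, hu3, hu3', e3⟩ := hZ.exists_zpow f hf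
  have hu10 : u1 ≠ 0 := by rintro rfl; rw [mul_zero] at e1; exact hf e1
  have hu20 : u2 ≠ 0 := by rintro rfl; rw [mul_zero] at e2; exact hf e2
  have hu30 : u3 ≠ 0 := by rintro rfl; rw [mul_zero] at e3; exact hf e3
  refine ⟨a, b, c, ?_, ?_, ?_, ?_⟩
  · intro h
    rw [← hI.zpow_mem_iff]
    have : t4vQ L N' q ^ a = f * u1⁻¹ := by
      rw [e1, mul_inv_cancel_right₀ hu10]
    rw [this]
    exact Subring.mul_mem _ h hu1'
  · intro h
    rw [← hM.zpow_mem_iff]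
    have : t4vPi L N' q ^ b = f * u2⁻¹ := by
      rw [e2, mul_inv_cancel_right₀ hu20]
    rw [this]
    exact Subring.mul_mem _ h hu2'
  · intro h
    rw [← hZ.zpow_mem_iff]
    have : t4vQ L N' q ^ c = f * u3⁻¹ := by
      rw [e3, mul_inv_cancel_right₀ hu30]
    rw [this]
    exact Subring.mul_mem _ h hu3'
  · intro a' b' c' ha' hb' hc' haa hbb hcc
    obtain ⟨g, hg0, ⟨v1, hv1, hv1', g1⟩, ⟨v2, hv2, hv2', g2⟩, ⟨v3, hv3, hv3', g3⟩⟩ :=
      t4ve_approx O π hπ hN' W1 Fr W hqO O' π' C M a' b' c'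
    refine ⟨g, hg0, ?_, ?_, ?_, ?_, ?_⟩
    · refine (mem_t4vInput_Ov_iff O π hπ hN' W1 Fr W hqO O' π' C M _).mpr ⟨?_, ?_, ?_⟩
      · rw [g1]
        exact Subring.mul_mem _ ((hI.zpow_mem_iff _).mpr ha') hv1
      · rw [g3]
        exact Subring.mul_mem _ ((hZ.zpow_mem_iff _).mpr hc') hv3
      · rw [g2]
        exact Subring.mul_mem _ ((hM.zpow_mem_iff _).mpr hb') hv2
    · refine (mem_t4vInput_Ov_iff O π hπ hN' W1 Fr W hqO O' π' C M _).mpr ⟨?_, ?_, ?_⟩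
      · exact mltl2h_mul_mem hI hv1 hu1 g1 e1 haa
      · exact mltl2h_mul_mem hZ hv3 hu3 g3 e3 hcc
      · exact mltl2h_mul_mem hM hv2 hu2 g2 e2 hbb
    · rintro rfl
      exact mltl2h_inv_mem_of_zero (V := (t4vOinf (N' := N') (q := q) O π hπ).toSubring) hv1' g1
    · rintro rfl
      exact mltl2h_inv_mem_of_zero (V := (t4vOmid O π hπ O' π' C M).toSubring) hv2' g2
    · rintro rfl
      exact mltl2h_inv_mem_of_zero (V := (t4vO0 O π hπ W).toSubring) hv3' g3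

/-! #### The residues of the full valuation rings lie in `E` -/

include hN' W1 Fr W hqO O' π' C M in
theorem mltl2h_rinf_mem (f : ↥(t4vOinf (N' := N') (q := q) O π hπ)) :
    t4veRinf O π hπ f ∈ modularFunctionFieldFullC k N' := by
  by_cases hf : (f : ↥(TaF L (N' * q * q))) = 0
  · have : f = 0 := Subtype.ext hf
    rw [this, map_zero]
    exact zero_mem _
  obtain ⟨a, b, c, ha, -, -, hex⟩ := mltl2h_clear O π hπ hN' W1 Fr W hqO O' π' C M _ hf
  obtain ⟨g, hg0, hg, hgf, hgi, -, -⟩ := hex 0 (-b).toNat (-c).toNat le_rfl (by positivity)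
    (by positivity) (by have := ha f.2; omega) (by omega) (by omega)
  have hgI := t4ve_mem_inf O π hπ hN' W1 Fr W hqO O' π' C M ⟨g, hg⟩
  have h1 := t4ve_ρ₁_mem O π hπ hN' W1 Fr W hqO O' π' C M ⟨g, hg⟩
  have h2 := t4ve_ρ₁_mem O π hπ hN' W1 Fr W hqO O' π' C M ⟨g * f, hgf⟩
  rw [t4ve_ρ₁_eq] at h1 h2
  have h3 : (⟨g * (f : ↥(TaF L (N' * q * q))),
      t4ve_mem_inf O π hπ hN' W1 Fr W hqO O' π' C M ⟨g * f, hgf⟩⟩ :
        ↥(t4vOinf (N' := N') (q := q) O π hπ)) = ⟨g, hgI⟩ * f := Subtype.ext rfl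
  rw [h3, map_mul] at h2
  exact mltl2h_mem_of_mul _ h1 (t4ve_rinf_ne_zero O π hπ ⟨g, hgI⟩ hg0 (hgi rfl)) h2

include hN' W1 Fr W hqO in
theorem mltl2h_rmid_mem (f : ↥(t4vOmid O π hπ O' π' C M)) :
    t4veRmid O π hπ O' π' C M f ∈ modularFunctionFieldFullC k N' := by
  by_cases hf : (f : ↥(TaF L (N' * q * q))) = 0
  · have : f = 0 := Subtype.ext hf
    rw [this, map_zero]
    exact zero_mem _
  obtain ⟨a, b, c, -, hb, -, hex⟩ := mltl2h_clear O π hπ hN' W1 Fr W hqO O' π' C M _ hf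
  obtain ⟨g, hg0, hg, hgf, -, hgi, -⟩ := hex (-a).toNat 0 (-c).toNat (by positivity) le_rfl
    (by positivity) (by omega) (by have := hb f.2; omega) (by omega)
  have hgI := t4ve_mem_mid O π hπ hN' W1 Fr W hqO O' π' C M ⟨g, hg⟩
  have h1 := t4ve_ρ₂_mem O π hπ hN' W1 Fr W hqO O' π' C M ⟨g, hg⟩
  have h2 := t4ve_ρ₂_mem O π hπ hN' W1 Fr W hqO O' π' C M ⟨g * f, hgf⟩
  rw [t4ve_ρ₂_eq] at h1 h2
  have h3 : (⟨g * (f : ↥(TaF L (N' * q * q))),
      t4ve_mem_mid O π hπ hN' W1 Fr W hqO O' π' C M ⟨g * f, hgf⟩⟩ :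
        ↥(t4vOmid O π hπ O' π' C M)) = ⟨g, hgI⟩ * f := Subtype.ext rfl
  rw [h3, map_mul] at h2
  exact mltl2h_mem_of_mul _ h1 (t4ve_rmid_ne_zero O π hπ O' π' C M ⟨g, hgI⟩ hg0 (hgi rfl)) h2

include hN' W1 Fr hqO O' π' C M in
theorem mltl2h_r0_mem (f : ↥(t4vO0 O π hπ W)) :
    t4veR0 O π hπ W f ∈ modularFunctionFieldFullC k N' := by
  by_cases hf : (f : ↥(TaF L (N' * q * q))) = 0
  · have : f = 0 := Subtype.ext hf
    rw [this, map_zero]
    exact zero_mem _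
  obtain ⟨a, b, c, -, -, hc, hex⟩ := mltl2h_clear O π hπ hN' W1 Fr W hqO O' π' C M _ hf
  obtain ⟨g, hg0, hg, hgf, -, -, hgi⟩ := hex (-a).toNat (-b).toNat 0 (by positivity)
    (by positivity) le_rfl (by omega) (by omega) (by have := hc f.2; omega)
  have hgI := t4ve_mem_zero O π hπ hN' W1 Fr W hqO O' π' C M ⟨g, hg⟩
  have h1 := t4ve_ρ₃_mem O π hπ hN' W1 Fr W hqO O' π' C M ⟨g, hg⟩
  have h2 := t4ve_ρ₃_mem O π hπ hN' W1 Fr W hqO O' π' C M ⟨g * f, hgf⟩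
  rw [t4ve_ρ₃_eq] at h1 h2
  have h3 : (⟨g * (f : ↥(TaF L (N' * q * q))),
      t4ve_mem_zero O π hπ hN' W1 Fr W hqO O' π' C M ⟨g * f, hgf⟩⟩ :
        ↥(t4vO0 O π hπ W)) = ⟨g, hgI⟩ * f := Subtype.ext rfl
  rw [h3, map_mul] at h2
  exact mltl2h_mem_of_mul _ h1 (t4ve_r0_ne_zero O π hπ W ⟨g, hgI⟩ hg0 (hgi rfl)) h2

/-! #### The `E`-valued residue maps -/

/-- `r_inf : O_inf → E` -/
def mltl2hRinf : ↥(t4vOinf (N' := N') (q := q) O π hπ).toSubring →+*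
    ↥(modularFunctionFieldFullC k N') :=
  (t4veRinf O π hπ).codRestrict (modularFunctionFieldFullC k N')
    (mltl2h_rinf_mem O π hπ hN' W1 Fr W hqO O' π' C M)

/-- `r_mid : O_mid → E` -/
def mltl2hRmid : ↥(t4vOmid O π hπ O' π' C M).toSubring →+* ↥(modularFunctionFieldFullC k N') :=
  (t4veRmid O π hπ O' π' C M).codRestrict (modularFunctionFieldFullC k N')
    (mltl2h_rmid_mem O π hπ hN' W1 Fr W hqO O' π' C M)

/-- `r_0 : O_0 → E` -/
def mltl2hR0 : ↥(t4vO0 O π hπ W).toSubring →+* ↥(modularFunctionFieldFullC k N') :=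
  (t4veR0 O π hπ W).codRestrict (modularFunctionFieldFullC k N')
    (mltl2h_r0_mem O π hπ hN' W1 Fr W hqO O' π' C M)

theorem coe_mltl2hRinf (f : ↥(t4vOinf (N' := N') (q := q) O π hπ).toSubring) :
    ((mltl2hRinf O π hπ hN' W1 Fr W hqO O' π' C M f : ↥(modularFunctionFieldFullC k N')) :
      LaurentSeries k) = t4veRinf O π hπ f := rfl

theorem coe_mltl2hRmid (f : ↥(t4vOmid O π hπ O' π' C M).toSubring) :
    ((mltl2hRmid O π hπ hN' W1 Fr W hqO O' π' C M f : ↥(modularFunctionFieldFullC k N')) :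
      LaurentSeries k) = t4veRmid O π hπ O' π' C M f := rfl

theorem coe_mltl2hR0 (f : ↥(t4vO0 O π hπ W).toSubring) :
    ((mltl2hR0 O π hπ hN' W1 Fr W hqO O' π' C M f : ↥(modularFunctionFieldFullC k N')) :
      LaurentSeries k) = t4veR0 O π hπ W f := rfl

/-! #### Surjectivity -/

theorem mltl2hRinf_surjective :
    Function.Surjective (mltl2hRinf O π hπ hN' W1 Fr W hqO O' π' C M) := by
  intro e
  obtain ⟨g, h1, -, -⟩ := t4ve_crt O π hπ hN' W1 Fr W hqO O' π' C M e.2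
    (zero_mem (modularFunctionFieldFullC k N')) (zero_mem (modularFunctionFieldFullC k N'))
  refine ⟨⟨(g : ↥(TaF L (N' * q * q))), t4ve_mem_inf O π hπ hN' W1 Fr W hqO O' π' C M g⟩, ?_⟩
  apply Subtype.ext
  rw [coe_mltl2hRinf, ← h1, t4ve_ρ₁_eq]

theorem mltl2hRmid_surjective :
    Function.Surjective (mltl2hRmid O π hπ hN' W1 Fr W hqO O' π' C M) := by
  intro e
  obtain ⟨g, -, h1, -⟩ := t4ve_crt O π hπ hN' W1 Fr W hqO O' π' C M
    (zero_mem (modularFunctionFieldFullC k N')) e.2 (zero_mem (modularFunctionFieldFullC k N'))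
  refine ⟨⟨(g : ↥(TaF L (N' * q * q))), t4ve_mem_mid O π hπ hN' W1 Fr W hqO O' π' C M g⟩, ?_⟩
  apply Subtype.ext
  rw [coe_mltl2hRmid, ← h1, t4ve_ρ₂_eq]

theorem mltl2hR0_surjective :
    Function.Surjective (mltl2hR0 O π hπ hN' W1 Fr W hqO O' π' C M) := by
  intro e
  obtain ⟨g, -, -, h1⟩ := t4ve_crt O π hπ hN' W1 Fr W hqO O' π' C M
    (zero_mem (modularFunctionFieldFullC k N')) (zero_mem (modularFunctionFieldFullC k N')) e.2
  refine ⟨⟨(g : ↥(TaF L (N' * q * q))), t4ve_mem_zero O π hπ hN' W1 Fr W hqO O' π' C M g⟩, ?_⟩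
  apply Subtype.ext
  rw [coe_mltl2hR0, ← h1, t4ve_ρ₃_eq]

end One

/-! ### Two levels: the three unramified extensions without defect -/

section Two

variable {L : Type} [Field L] [Algebra ℚ L] (O : ValuationSubring L) {k : Type*} [Field k]
  (π : ↥O →+* k) [IsDiscreteValuationRing ↥O] (hπ : Function.Surjective π) [IsAlgClosed k]
  {N' q ℓ : ℕ} [NeZero N'] [hq : Fact q.Prime] [NeZero ℓ] [CharP k q]
  (hN' : (N' : k) ≠ 0) (hN'ℓ : ((N' * ℓ : ℕ) : k) ≠ 0)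
  (W1 : T2iAL L N' q) (Fr : T2iFrob k N' q) (W : T4iAL L N' q)
  (W1' : T2iAL L (N' * ℓ) q) (Fr' : T2iFrob k (N' * ℓ) q) (W' : T4iAL L (N' * ℓ) q)
  (hqO : Irreducible ((q : ℕ) : ↥O))
  {L' : Type*} [Field L'] [Algebra L L'] (O' : ValuationSubring L')
  [IsDiscreteValuationRing ↥O'] (π' : ↥O' →+* k) (C : T4iCyc O O' π π' q)
  (M : T4iMid L L' N' q C.ζ) (M' : T4iMid L L' (N' * ℓ) q C.ζ)

attribute [local instance] t2iAlgebra t2i_isScalarTower

/-- **`(F, O_inf) ⊂ (F', O'_inf)`** -/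
theorem mltl2h_redExt_inf :
    @DlhRedExt ↥(TaF L (N' * q * q)) ↥(TaF L (N' * ℓ * q * q)) ↥(modularFunctionFieldFullC k N')
      ↥(modularFunctionFieldFullC k (N' * ℓ)) _ _ _ _ (mltl2hA L N' q ℓ).toRingHom.toAlgebra
      (algebraAlong (dlhAlphaC k N' ℓ))
      (t4vOinf (N' := N') (q := q) O π hπ).toSubring
      (t4vOinf (N' := N' * ℓ) (q := q) O π hπ).toSubring
      (mltl2hRinf O π hπ hN' W1 Fr W hqO O' π' C M)
      (mltl2hRinf O π hπ hN'ℓ W1' Fr' W' hqO O' π' C M') := by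
  letI : Algebra ↥(TaF L (N' * q * q)) ↥(TaF L (N' * ℓ * q * q)) :=
    (mltl2hA L N' q ℓ).toRingHom.toAlgebra
  letI := algebraAlong (dlhAlphaC k N' ℓ)
  refine
    { total := fun x => (t4vOinf (N' := N') (q := q) O π hπ).mem_or_inv_mem x
      unit := fun x hx => t4ve_inv_mem_inf O π hπ x (fun h => hx (Subtype.ext h))
      surj' := mltl2hRinf_surjective O π hπ hN'ℓ W1' Fr' W' hqO O' π' C M'
      map_mem := fun x => mltl2h_inf_A_mem O π hπ x.2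
      comp := ?_ }
  intro x
  apply Subtype.ext
  rw [coe_mltl2hRinf]
  show _ = ((dlhAlphaC k N' ℓ (mltl2hRinf O π hπ hN' W1 Fr W hqO O' π' C M x) :
    ↥(modularFunctionFieldFullC k (N' * ℓ))) : LaurentSeries k)
  rw [coe_dlhAlphaC, coe_mltl2hRinf]
  exact mltl2h_inf_A_res O π hπ x.2

/-- **`(F, O_mid) ⊂ (F', O'_mid)`** -/
theorem mltl2h_redExt_mid :
    @DlhRedExt ↥(TaF L (N' * q * q)) ↥(TaF L (N' * ℓ * q * q)) ↥(modularFunctionFieldFullC k N')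
      ↥(modularFunctionFieldFullC k (N' * ℓ)) _ _ _ _ (mltl2hA L N' q ℓ).toRingHom.toAlgebra
      (algebraAlong (dlhAlphaC k N' ℓ))
      (t4vOmid O π hπ O' π' C M).toSubring (t4vOmid O π hπ O' π' C M').toSubring
      (mltl2hRmid O π hπ hN' W1 Fr W hqO O' π' C M)
      (mltl2hRmid O π hπ hN'ℓ W1' Fr' W' hqO O' π' C M') := by
  letI : Algebra ↥(TaF L (N' * q * q)) ↥(TaF L (N' * ℓ * q * q)) :=
    (mltl2hA L N' q ℓ).toRingHom.toAlgebra
  letI := algebraAlong (dlhAlphaC k N' ℓ)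
  refine
    { total := fun x => (t4vOmid O π hπ O' π' C M).mem_or_inv_mem x
      unit := fun x hx => t4ve_inv_mem_mid O π hπ O' π' C M x (fun h => hx (Subtype.ext h))
      surj' := mltl2hRmid_surjective O π hπ hN'ℓ W1' Fr' W' hqO O' π' C M'
      map_mem := fun x => mltl2h_mid_A_mem O π hπ O' π' C M M' x.2
      comp := ?_ }
  intro x
  apply Subtype.ext
  rw [coe_mltl2hRmid]
  show _ = ((dlhAlphaC k N' ℓ (mltl2hRmid O π hπ hN' W1 Fr W hqO O' π' C M x) :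
    ↥(modularFunctionFieldFullC k (N' * ℓ))) : LaurentSeries k)
  rw [coe_dlhAlphaC, coe_mltl2hRmid]
  exact mltl2h_mid_A_res O π hπ O' π' C M M' x.2

/-- **`(F, O_0) ⊂ (F', O'_0)`** -/
theorem mltl2h_redExt_zero :
    @DlhRedExt ↥(TaF L (N' * q * q)) ↥(TaF L (N' * ℓ * q * q)) ↥(modularFunctionFieldFullC k N')
      ↥(modularFunctionFieldFullC k (N' * ℓ)) _ _ _ _ (mltl2hA L N' q ℓ).toRingHom.toAlgebra
      (algebraAlong (dlhAlphaC k N' ℓ))
      (t4vO0 O π hπ W).toSubring (t4vO0 O π hπ W').toSubring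
      (mltl2hR0 O π hπ hN' W1 Fr W hqO O' π' C M)
      (mltl2hR0 O π hπ hN'ℓ W1' Fr' W' hqO O' π' C M') := by
  letI : Algebra ↥(TaF L (N' * q * q)) ↥(TaF L (N' * ℓ * q * q)) :=
    (mltl2hA L N' q ℓ).toRingHom.toAlgebra
  letI := algebraAlong (dlhAlphaC k N' ℓ)
  refine
    { total := fun x => (t4vO0 O π hπ W).mem_or_inv_mem x
      unit := fun x hx => t4ve_inv_mem_zero O π hπ W x (fun h => hx (Subtype.ext h))
      surj' := mltl2hR0_surjective O π hπ hN'ℓ W1' Fr' W' hqO O' π' C M'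
      map_mem := fun x => mltl2h_zero_A_mem O π hπ W W' x.2
      comp := ?_ }
  intro x
  apply Subtype.ext
  rw [coe_mltl2hR0]
  show _ = ((dlhAlphaC k N' ℓ (mltl2hR0 O π hπ hN' W1 Fr W hqO O' π' C M x) :
    ↥(modularFunctionFieldFullC k (N' * ℓ))) : LaurentSeries k)
  rw [coe_dlhAlphaC, coe_mltl2hR0]
  exact mltl2h_zero_A_res O π hπ W W' x.2

/-! #### `B_ℓ` and the residue maps -/

theorem mltl2h_rinf_B (y : ↥(t4vOinf (N' := N') (q := q) O π hπ).toSubring) :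
    mltl2hRinf O π hπ hN'ℓ W1' Fr' W' hqO O' π' C M'
        ⟨mltl2hB L N' q ℓ (y : ↥(TaF L (N' * q * q))), mltl2h_inf_B_mem O π hπ y.2⟩ =
      dlhBetaC k N' ℓ (mltl2hRinf O π hπ hN' W1 Fr W hqO O' π' C M y) := by
  apply Subtype.ext
  rw [coe_mltl2hRinf, coe_dlhBetaC, coe_mltl2hRinf]
  exact mltl2h_inf_B_res O π hπ y.2

theorem mltl2h_rmid_B (hℓq : ¬ q ∣ ℓ) (y : ↥(t4vOmid O π hπ O' π' C M).toSubring) :
    mltl2hRmid O π hπ hN'ℓ W1' Fr' W' hqO O' π' C M'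
        ⟨mltl2hB L N' q ℓ (y : ↥(TaF L (N' * q * q))),
          mltl2h_mid_B_mem O π hπ O' π' C M M' hℓq y.2⟩ =
      dlhBetaC k N' ℓ (mltl2hRmid O π hπ hN' W1 Fr W hqO O' π' C M y) := by
  apply Subtype.ext
  rw [coe_mltl2hRmid, coe_dlhBetaC, coe_mltl2hRmid]
  exact mltl2h_mid_B_res O π hπ O' π' C M M' hℓq y.2

theorem mltl2h_r0_B (y : ↥(t4vO0 O π hπ W).toSubring) :
    mltl2hR0 O π hπ hN'ℓ W1' Fr' W' hqO O' π' C M'
        ⟨mltl2hB L N' q ℓ (y : ↥(TaF L (N' * q * q))), mltl2h_zero_B_mem O π hπ W W' y.2⟩ =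
      dlhBetaC k N' ℓ (mltl2hR0 O π hπ hN' W1 Fr W hqO O' π' C M y) := by
  apply Subtype.ext
  rw [coe_mltl2hR0, coe_dlhBetaC, coe_mltl2hR0]
  exact mltl2h_zero_B_res O π hπ W W' y.2

end Two

end Fermat.Agent.MLT
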