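/-
MLT / [L2] (helper9): **the contract of CAR-MOD from its two sub-contracts**.

* `mltl2_push` (PROVED, the "oldform" case): a class of the `W`-eigenspace of `J₀(N)[p]` whose image under a
  Galois-equivariant homomorphism `J₀(N) → J₀(M)` (`M ∣ N` in the sense that the primes of `N` and `M`
  coincide is not needed: only `ℓ ∤ M → ℓ ∤ N`) is non-zero gives residual modularity of the level `M`;
* `mltl2_core_of_split : MltL2Geom → MltL2JL → MltL2Core`;
* `mltl2_contract_of_split : MltL2Geom → MltL2JL → MltL2Contract`.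
-/
import Mathlib
import Fermat.Agent.Lib.MLT.Contracts.L2Split
import Fermat.Agent.Lib.MLT.L2.Core
import Fermat.Agent.Lib.Delta.Wire.BranchA

set_option autoImplicit false
set_option linter.unusedSectionVars false
set_option linter.unusedVariables false
set_option linter.style.haveILetI false

open WeierstrassCurve WeierstrassCurve.Affine WeierstrassCurve.Affine.Point

namespace Fermat.Agent.MLT

open ModularCurve Fermat.Agent.Delta Fermat.Agent.S58 Fermat.Agent.S24Lib Fermat.Agent.T3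
  Fermat.Agent.Alpha

local notation "Qb" => AlgebraicClosure ℚ
local notation "GQ" => (AlgebraicClosure ℚ ≃ₐ[ℚ] AlgebraicClosure ℚ)

/-- **the oldform case**: a non-zero Galois-equivariant image in `J₀(M)` of a class of the `W`-eigenspace of
`J₀(N)[p]` gives residual modularity of the level `M` (the primes of `N` dividing `M`... precisely: every
prime not dividing `M` does not divide `N`) -/
theorem mltl2_push (N M : ℕ) [NeZero N] [NeZero M] {p : ℕ} (hp : p.Prime) (W : WeierstrassCurve ℤ)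
    (hNM : ∀ ℓ : ℕ, ℓ.Prime → ¬ ℓ ∣ M → ¬ ℓ ∣ N)
    (Φ : JZero N →+ JZero M) (hΦ : ∀ (σ : GQ) (x : JZero N), Φ (σ • x) = σ • Φ x)
    (x : JZero N) (hx : x ∈ dlwEig N p W) (hΦx : Φ x ≠ 0) :
    W.IsResiduallyModularOfLevel p M := by
  haveI : Fact p.Prime := ⟨hp⟩
  refine dlw_D0 M p W (Φ x) hΦx (by rw [← map_nsmul, hx.1, _root_.map_zero]) ?_
  intro ℓ hℓ hℓM hgood hℓp
  exact dlw_eigen_of_equivariant N M W (dlwEig N p W) (fun y hy => hy.1)
    (fun σ y hy => dlw_eig_smul_mem hp.ne_zero σ hy)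
    (fun ℓ' hℓ' h1 h2 h3 y hy => hy.2 ℓ' hℓ' h1 h2 h3) Φ hΦ hℓ (hNM ℓ hℓ hℓM) hℓM hgood hℓp hp x hx

/-- **the class-level core of CAR-MOD from the two sub-contracts** -/
theorem mltl2_core_of_split (hgeom : MltL2Geom) (hjl : MltL2JL) : MltL2Core := by
  intro p hp hp2 W hΔ hss hirr M q _ hq hqp hq2 hq3 A hA x hx0 hxe hxI
  -- `M = K * q * q`
  obtain ⟨K, rfl⟩ : ∃ K, M = K * q * q := by
    obtain ⟨c, hc⟩ := hq2
    exact ⟨c, by rw [hc]; ring⟩
  have hM0 : K * q * q ≠ 0 := NeZero.ne _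
  haveI : NeZero (K * q) := ⟨fun h => hM0 (by rw [h, Nat.zero_mul])⟩
  haveI : NeZero q := ⟨hq.ne_zero⟩
  have hqK : ¬ q ∣ K := by
    rintro ⟨c, rfl⟩
    exact hq3 ⟨c, by ring⟩
  have hdiv : K * q * q / q = K * q := Nat.mul_div_cancel _ hq.pos
  rw [hdiv]
  have hprimes : ∀ ℓ : ℕ, ℓ.Prime → ¬ ℓ ∣ K * q → ¬ ℓ ∣ K * q * q := by
    intro ℓ hℓ h1 h2
    rcases hℓ.dvd_mul.mp h2 with h | h
    · exact h1 h
    · exact h1 (Dvd.dvd.mul_left h K)
  by_cases hα : dlwPushA (K * q) q x = 0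
  swap
  · exact mltl2_push (K * q * q) (K * q) hp W hprimes (dlwPushA (K * q) q)
      (dlwPushA_galois (K * q) q) x hxe hα
  by_cases hβ : dlwPushB (K * q) q x = 0
  swap
  · exact mltl2_push (K * q * q) (K * q) hp W hprimes (dlwPushB (K * q) q)
      (dlwPushB_galois (K * q) q) x hxe hβ
  by_cases hpq : p ∣ q ^ 2 - 1
  · exact hjl p hp hp2 W hΔ hss hirr K q hq hqp hqK hpq A hA x hx0 hxe hxI hα hβ
  · exfalso
    apply hx0
    have h1 : ((q ^ 2 - 1) ^ 2) • x = 0 := hgeom p hp K q hq hqp hqK A hA x hxe.1 hxI hα hβ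
    have hcop : Nat.Coprime p ((q ^ 2 - 1) ^ 2) :=
      Nat.Coprime.pow_right 2 ((Nat.Prime.coprime_iff_not_dvd hp).mpr hpq)
    -- Bézout
    have h2 : ((p : ℤ) * Nat.gcdA p ((q ^ 2 - 1) ^ 2)
        + (((q ^ 2 - 1) ^ 2 : ℕ) : ℤ) * Nat.gcdB p ((q ^ 2 - 1) ^ 2)) • x = x := by
      rw [← Nat.gcd_eq_gcd_ab, hcop.gcd_eq_one, Nat.cast_one, one_zsmul]
    rw [← h2, add_zsmul, mul_comm (p : ℤ), mul_comm (((q ^ 2 - 1) ^ 2 : ℕ) : ℤ), mul_zsmul, mul_zsmul,
      natCast_zsmul, natCast_zsmul, hxe.1, h1, smul_zero, smul_zero, add_zero]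

/-- **the contract of [L2] from the two sub-contracts** -/
theorem mltl2_contract_of_split (hgeom : MltL2Geom) (hjl : MltL2JL) : MltL2Contract :=
  mltl2_contract_of_core (mltl2_core_of_split hgeom hjl)

end Fermat.Agent.MLT
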