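/-
MLT / [L2] (helper9): **the removal of the squares from the level, from the three statements which are actually
provable with the rigid geometry of DELTA**.

`MltL2Contract` (all levels) would need [L2-JL] at ALL non-rigid levels.  The level normalisation of Top needs
much less:
* `mltl2_raise`            : residual modularity of the level `M` implies that of every multiple of `M`;
* `mltl2_lower_gen`        : the class-level argument of `Lib/MLT/L2/Split.lean` for ONE pair `(K, q)`, with the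
                             [L2-JL] input only for this pair;
* `mltl2_level_sqfree`     : `MltL2Geom → MltL2JLRigid → MltL2JLTwo →` from a level `M₀` (`p² ∤ M₀`, cube-free
                             away from `p`) to a SQUAREFREE level `M ∣ 2 M₀`.  Strategy: raise the level to `4 ∥ M`,
                             remove the odd squares with the rigid statement (`4 ∣ M / q²`), then remove one
                             factor `2` with `MltL2Geom` (`p ≠ 3`) resp. `MltL2JLTwo` (`p = 3`).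
-/
import Mathlib
import Fermat.Agent.Lib.MLT.Contracts.L2JLTwo
import Fermat.Agent.Lib.MLT.L2.Split

set_option autoImplicit false
set_option linter.unusedSectionVars false
set_option linter.unusedVariables false
set_option linter.style.haveILetI false

open WeierstrassCurve WeierstrassCurve.Affine WeierstrassCurve.Affine.Point

namespace Fermat.Agent.MLT

open ModularCurve Fermat.Agent.Delta Fermat.Agent.S58 Fermat.Agent.S24Lib Fermat.Agent.T3
  Fermat.Agent.Alpha

local notation "Qb" => AlgebraicClosure ℚ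
local notation "GQ" => (AlgebraicClosure ℚ ≃ₐ[ℚ] AlgebraicClosure ℚ)

/-- **raising the level**: residual modularity of the level `M` implies residual modularity of every
multiple `M'` of `M` -/
theorem mltl2_raise {p : ℕ} (hp : p.Prime) (W : WeierstrassCurve ℤ) {M M' : ℕ} (hM' : 0 < M')
    (hdvd : M ∣ M') (hres : W.IsResiduallyModularOfLevel p M) :
    W.IsResiduallyModularOfLevel p M' := by
  haveI : Fact p.Prime := ⟨hp⟩
  have hMpos : 0 < M := Nat.pos_of_dvd_of_pos hdvd hM'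
  haveI : NeZero M := ⟨hMpos.ne'⟩
  haveI : NeZero M' := ⟨hM'.ne'⟩
  obtain ⟨f, 𝔪, hf, hmax, hpm, hcong⟩ := hres
  obtain ⟨x₀, hx₀, hx₀p, hx₀e⟩ :=
    dlw_exists_eigen (N := M) (p := p) (W := W) f 𝔪 hf hmax hpm hcong
  refine dlw_D0 (M := M') (p := p) W (dlwPullDvd hdvd x₀) ?_ ?_ ?_
  · intro h0
    exact hx₀ (dlwPullDvd_eq_zero hdvd hp.ne_zero x₀ hx₀p h0)
  · rw [← map_nsmul, hx₀p, _root_.map_zero]
  · intro ℓ hℓ hℓM hgood hℓp
    have hℓM0 : ¬ ℓ ∣ M := fun h => hℓM (h.trans hdvd)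
    rw [← dlwPullDvd_hecke hdvd hℓ hℓM x₀, hx₀e ℓ hℓ hℓM0 hgood hℓp, map_zsmul]

/-- **the removal of one factor `q` from the level `K q q`, for one pair `(K, q)`**: the class-level argument
of `mltl2_core_of_split`, with the [L2-JL] input `hjl` only at this pair -/
theorem mltl2_lower_gen (hgeom : MltL2Geom) {p : ℕ} (hp : p.Prime) (hp2 : p ≠ 2)
    (W : WeierstrassCurve ℤ) (hΔ : W.Δ ≠ 0) (hss : W.IsSemistableModel)
    (hirr : W.ModRepIsIrreducible p) (K q : ℕ) [NeZero (K * q)] [NeZero q] (hq : q.Prime)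
    (hqp : q ≠ p) (hqK : ¬ q ∣ K)
    (hjl : p ∣ q ^ 2 - 1 → ∀ (A : ValuationSubring Qb), A.LiesOverPrime q →
      ∀ x : JZero (K * q * q), x ≠ 0 → x ∈ dlwEig (K * q * q) p W →
        (∀ σ ∈ A.inertiaSubgroupIn ℚ, σ • x = x) →
        dlwPushA (K * q) q x = 0 → dlwPushB (K * q) q x = 0 →
        W.IsResiduallyModularOfLevel p (K * q))
    (hres : W.IsResiduallyModularOfLevel p (K * q * q)) :
    W.IsResiduallyModularOfLevel p (K * q) := by
  haveI : Fact p.Prime := ⟨hp⟩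
  have hM0 : K * q * q ≠ 0 := Nat.mul_ne_zero (NeZero.ne (K * q)) hq.ne_zero
  haveI : NeZero (K * q * q) := ⟨hM0⟩
  -- a non-zero inertia-fixed class of the eigenspace
  obtain ⟨f, 𝔪, hf, hmax, hpm, hcong⟩ := hres
  obtain ⟨x₀, hx₀, hx₀p, hx₀e⟩ :=
    dlw_exists_eigen (N := K * q * q) (p := p) (W := W) f 𝔪 hf hmax hpm hcong
  obtain ⟨V₀, ψ, hle, hstab, hψ⟩ := dlw_exists_iso (K * q * q) hp2 W hΔ hirr x₀ hx₀ ⟨hx₀p, hx₀e⟩
  obtain ⟨A, φ, hA, -⟩ := Fermat.Agent.Lib.Helper6.exists_frobenius q hq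
  obtain ⟨Q, hQ0, hQfix⟩ := mltl2_exists_fixed W hΔ hss hp hp2 hq hqp A hA
  set x : JZero (K * q * q) := ((ψ Q : ↥V₀) : JZero (K * q * q)) with hxdef
  have hx0 : x ≠ 0 := by
    intro h0
    apply hQ0
    apply ψ.injective
    rw [_root_.map_zero]
    exact Subtype.ext h0
  have hxe : x ∈ dlwEig (K * q * q) p W := hle (ψ Q).2
  have hxI : ∀ σ ∈ A.inertiaSubgroupIn ℚ, σ • x = x := by
    intro σ hσ
    rw [hxdef, ← hψ, hQfix σ hσ]
  -- the three cases
  have hprimes : ∀ ℓ : ℕ, ℓ.Prime → ¬ ℓ ∣ K * q → ¬ ℓ ∣ K * q * q := by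
    intro ℓ hℓ h1 h2
    rcases hℓ.dvd_mul.mp h2 with h | h
    · exact h1 h
    · exact h1 (Dvd.dvd.mul_left h K)
  by_cases hα : dlwPushA (K * q) q x = 0
  swap
  · exact mltl2_push (K * q * q) (K * q) hp W hprimes (dlwPushA (K * q) q)
      (dlwPushA_galois (K * q) q) x hxe hα
  by_cases hβ : dlwPushB (K * q) q x = 0
  swap
  · exact mltl2_push (K * q * q) (K * q) hp W hprimes (dlwPushB (K * q) q)
      (dlwPushB_galois (K * q) q) x hxe hβ
  by_cases hpq : p ∣ q ^ 2 - 1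
  · exact hjl hpq A hA x hx0 hxe hxI hα hβ
  · exfalso
    apply hx0
    have h1 : ((q ^ 2 - 1) ^ 2) • x = 0 := hgeom p hp K q hq hqp hqK A hA x hxe.1 hxI hα hβ
    have hcop : Nat.Coprime p ((q ^ 2 - 1) ^ 2) :=
      Nat.Coprime.pow_right 2 ((Nat.Prime.coprime_iff_not_dvd hp).mpr hpq)
    have h2 : ((p : ℤ) * Nat.gcdA p ((q ^ 2 - 1) ^ 2)
        + (((q ^ 2 - 1) ^ 2 : ℕ) : ℤ) * Nat.gcdB p ((q ^ 2 - 1) ^ 2)) • x = x := by
      rw [← Nat.gcd_eq_gcd_ab, hcop.gcd_eq_one, Nat.cast_one, one_zsmul]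
    rw [← h2, add_zsmul, mul_comm (p : ℤ), mul_comm (((q ^ 2 - 1) ^ 2 : ℕ) : ℤ), mul_zsmul, mul_zsmul,
      natCast_zsmul, natCast_zsmul, hxe.1, h1, smul_zero, smul_zero, add_zero]

/-- **removal of the odd squares at a level divisible by `4`** (rigid case: `4 ∣ 4 K / q²`) -/
theorem mltl2_strip_odd (hgeom : MltL2Geom) (hR : MltL2JLRigid) {p : ℕ} (hp : p.Prime) (hp2 : p ≠ 2)
    (W : WeierstrassCurve ℤ) (hΔ : W.Δ ≠ 0) (hss : W.IsSemistableModel)
    (hirr : W.ModRepIsIrreducible p) :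
    ∀ K : ℕ, 0 < K → ¬ 2 ∣ K → ¬ p ^ 2 ∣ K → (∀ q : ℕ, q.Prime → q ≠ p → ¬ q ^ 3 ∣ K) →
      W.IsResiduallyModularOfLevel p (4 * K) →
      ∃ K' : ℕ, K' ∣ K ∧ Squarefree K' ∧ W.IsResiduallyModularOfLevel p (4 * K') := by
  intro K
  induction K using Nat.strong_induction_on with
  | _ K ih =>
    intro hKpos h2K hpK h3K hres
    by_cases hsq : Squarefree K
    · exact ⟨K, dvd_rfl, hsq, hres⟩
    · rw [Nat.squarefree_iff_prime_squarefree] at hsq
      push Not at hsq
      obtain ⟨q, hq, c, hc⟩ := hsq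
      have hqp : q ≠ p := by
        rintro rfl
        exact hpK ⟨c, by rw [hc]; ring⟩
      have hq2 : q ≠ 2 := by
        rintro rfl
        exact h2K ⟨2 * c, by rw [hc]; ring⟩
      have hcpos : 0 < c := by
        rcases Nat.eq_zero_or_pos c with h | h
        · rw [h, mul_zero] at hc
          exact absurd hc hKpos.ne'
        · exact h
      have hqc : ¬ q ∣ c := by
        rintro ⟨d, rfl⟩
        exact h3K q hq hqp ⟨d, by rw [hc]; ring⟩
      have hq4c : ¬ q ∣ 4 * c := by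
        intro h
        rcases (Nat.Prime.dvd_mul hq).mp h with h4 | h4
        · have h5 : q ∣ 2 ^ 2 := by norm_num; exact h4
          exact hq2 ((Nat.prime_dvd_prime_iff_eq hq Nat.prime_two).mp (hq.dvd_of_dvd_pow h5))
        · exact hqc h4
      haveI : NeZero q := ⟨hq.ne_zero⟩
      haveI : NeZero (4 * c * q) :=
        ⟨Nat.mul_ne_zero (Nat.mul_ne_zero (by norm_num) hcpos.ne') hq.ne_zero⟩
      have hlev : 4 * K = 4 * c * q * q := by rw [hc]; ring
      rw [hlev] at hres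
      have hres' : W.IsResiduallyModularOfLevel p (4 * c * q) :=
        mltl2_lower_gen hgeom hp hp2 W hΔ hss hirr (4 * c) q hq hqp hq4c
          (fun hpq A hA x hx0 hxe hxI hα hβ =>
            hR p hp hp2 W hΔ hss hirr (4 * c) q hq hqp hq4c (Or.inl ⟨c, rfl⟩) hpq A hA x hx0 hxe
              hxI hα hβ) hres
      have hdvd : c * q ∣ K := ⟨q, by rw [hc]; ring⟩
      have hlt : c * q < K := by
        rw [hc]
        have h1 : 1 < q := hq.one_lt
        have h2 : 0 < c * q := Nat.mul_pos hcpos hq.pos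
        calc c * q = c * q * 1 := (mul_one _).symm
          _ < c * q * q := Nat.mul_lt_mul_of_pos_left h1 h2
          _ = q * q * c := by ring
      have hres'' : W.IsResiduallyModularOfLevel p (4 * (c * q)) := by
        rw [← mul_assoc]
        exact hres'
      obtain ⟨K', hK', hK'sq, hK'res⟩ := ih (c * q) hlt (Nat.mul_pos hcpos hq.pos)
        (fun h => h2K (h.trans hdvd)) (fun h => hpK (h.trans hdvd))
        (fun r hr hrp h => h3K r hr hrp (h.trans hdvd)) hres''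
      exact ⟨K', hK'.trans hdvd, hK'sq, hK'res⟩

/-- **the removal of the squares from the level**: from a level `M₀` (`p² ∤ M₀`, cube-free away from `p`)
to a squarefree level `M ∣ 2 M₀` -/
theorem mltl2_level_sqfree (hgeom : MltL2Geom) (hR : MltL2JLRigid) (hTwo : MltL2JLTwo) {p : ℕ}
    (hp : p.Prime) (hp2 : p ≠ 2) (W : WeierstrassCurve ℤ) (hΔ : W.Δ ≠ 0)
    (hss : W.IsSemistableModel) (hirr : W.ModRepIsIrreducible p) (M₀ : ℕ) (hM₀ : 0 < M₀)
    (hres : W.IsResiduallyModularOfLevel p M₀) (hpM₀ : ¬ p ^ 2 ∣ M₀)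
    (h3M₀ : ∀ q : ℕ, q.Prime → q ≠ p → ¬ q ^ 3 ∣ M₀) :
    ∃ M : ℕ, M ∣ 2 * M₀ ∧ Squarefree M ∧ W.IsResiduallyModularOfLevel p M := by
  by_cases hsq : Squarefree M₀
  · exact ⟨M₀, Dvd.intro_left 2 rfl, hsq, hres⟩
  -- the odd part
  obtain ⟨k, K₁, hK₁odd, hM₀eq⟩ := Nat.exists_eq_two_pow_mul_odd hM₀.ne'
  have h2K₁ : ¬ 2 ∣ K₁ := fun h => (Nat.not_even_iff_odd.mpr hK₁odd) (even_iff_two_dvd.mpr h)
  have hK₁pos : 0 < K₁ := hK₁odd.pos
  have hK₁dvd : K₁ ∣ M₀ := ⟨2 ^ k, by rw [hM₀eq]; ring⟩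
  have hk : k ≤ 2 := by
    by_contra hk
    push Not at hk
    apply h3M₀ 2 Nat.prime_two (Ne.symm hp2)
    rw [hM₀eq]
    exact Dvd.dvd.mul_right (pow_dvd_pow 2 hk) K₁
  -- raise to the level `4 K₁`
  have hdvd4 : M₀ ∣ 4 * K₁ := by
    rw [hM₀eq]
    have h4 : (4 : ℕ) = 2 ^ 2 := by norm_num
    rw [h4]
    exact Nat.mul_dvd_mul (pow_dvd_pow 2 hk) dvd_rfl
  have hres4 : W.IsResiduallyModularOfLevel p (4 * K₁) :=
    mltl2_raise hp W (Nat.mul_pos (by norm_num) hK₁pos) hdvd4 hres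
  -- remove the odd squares
  obtain ⟨K', hK', hK'sq, hK'res⟩ := mltl2_strip_odd hgeom hR hp hp2 W hΔ hss hirr K₁ hK₁pos h2K₁
    (fun h => hpM₀ (h.trans hK₁dvd)) (fun q hq hqp h => h3M₀ q hq hqp (h.trans hK₁dvd)) hres4
  have h2K' : ¬ 2 ∣ K' := fun h => h2K₁ (h.trans hK')
  have hK'pos : 0 < K' := Nat.pos_of_dvd_of_pos hK' hK₁pos
  -- remove one factor `2`
  haveI : NeZero (K' * 2) := ⟨Nat.mul_ne_zero hK'pos.ne' (by norm_num)⟩
  have hlev : 4 * K' = K' * 2 * 2 := by ring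
  rw [hlev] at hK'res
  have hres2 : W.IsResiduallyModularOfLevel p (K' * 2) := by
    refine mltl2_lower_gen hgeom hp hp2 W hΔ hss hirr K' 2 Nat.prime_two (Ne.symm hp2) h2K' ?_ hK'res
    intro hpq A hA x hx0 hxe hxI hα hβ
    have hp3 : p = 3 := by
      have h3 : p ∣ 3 := by
        have : (2 : ℕ) ^ 2 - 1 = 3 := by norm_num
        rwa [this] at hpq
      exact (Nat.prime_dvd_prime_iff_eq hp Nat.prime_three).mp h3
    subst hp3
    exact hTwo W hΔ hss hirr K' h2K' hK'sq A hA x hx0 hxe hxI hα hβ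
  refine ⟨K' * 2, ?_, ?_, hres2⟩
  · rw [mul_comm K' 2]
    exact Nat.mul_dvd_mul dvd_rfl (hK'.trans hK₁dvd)
  · have hcop : Nat.Coprime K' 2 :=
      (Nat.Prime.coprime_iff_not_dvd Nat.prime_two).mpr h2K' |>.symm
    exact (Nat.squarefree_mul hcop).mpr ⟨hK'sq, Nat.prime_two.prime.squarefree⟩

end Fermat.Agent.MLT
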