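/-
MLT / [L2-JL] (helper8): **the wiring of the slope stream** (packages P6, P7, P8, P9 + helper9's Kill/Assembly):
everything from the single open input `Mltj8HeckeAt` (helper2's `mltj7_heckeAt`).

With `hhecke : ∀ 𝔓 K hK h49, Mltj8HeckeAt 𝔓 K hK h49`:
* `mltjw_slopeEx hhecke    : MltjSlopeEx`     (helper1's `mltj8_slopeEx` + `mltj6_charI/II` + `mltj6_princAt`);
* `mltjw_slopeTwoEx hhecke : MltjSlopeTwoEx`  (helper1's `mltj9_slopeTwoEx`);
* `mltjw_JLK hhecke        : MltjJLK`         (helper9's `mltj_JLK_of_slope` + helper2's `mltj7_brSS`);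
* `mltjw_JLKTwo hhecke     : MltjJLKTwo`      (helper9's `mltj_JLKTwo_of_slope`);
* `mltjw_rigid hhecke hG   : MltL2JLRigid`    (`hG : MltjGeomOut`, helper9's `mltj_JL_rigid`);
* `mltjw_two hhecke hG2    : MltL2JLTwo`      (`hG2 : MltjGeomOutTwo`, helper9's `mltj_JL_two`).
-/
import Fermat.Agent.Lib.MLT.L2.P6.Main
import Fermat.Agent.Lib.MLT.L2.P9.Main
import Fermat.Agent.Lib.MLT.L2.P7.BrSS
import Fermat.Agent.Lib.MLT.L2.Kill.JLK
import Fermat.Agent.Lib.MLT.L2.Kill.JLKTwo
import Fermat.Agent.Lib.MLT.L2.Assembly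
import Fermat.Agent.Lib.MLT.L2.AssemblyTwo

set_option autoImplicit false
set_option linter.unusedSectionVars false
set_option linter.unusedVariables false

namespace Fermat.Agent.MLT

open Fermat.Agent.TW

/-- the single open input of the slope stream: the slope map of P6 commutes with the Hecke correspondences, at all
rigid levels -/
def MltjwHeckeAll : Prop :=
  ∀ (𝔓 : FFPlace) (K : ℕ) [NeZero K] (hK : ¬ 𝔓.p ∣ K) (h49 : 4 ∣ K ∨ 9 ∣ K),
    Mltj8HeckeAt 𝔓 K hK h49

/-- the slope map exists at all rigid levels -/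
theorem mltjw_slopeEx (hhecke : MltjwHeckeAll) : MltjSlopeEx :=
  mltj8_slopeEx mltj6_charI mltj6_charII (fun 𝔓 K _ hK h49 => mltj6_princAt 𝔓 K hK h49) hhecke

/-- the two-level slope map exists -/
theorem mltjw_slopeTwoEx (hhecke : MltjwHeckeAll) : MltjSlopeTwoEx :=
  mltj9_slopeTwoEx hhecke

/-- (JL-K) at all rigid levels -/
theorem mltjw_JLK (hhecke : MltjwHeckeAll) : MltjJLK :=
  mltj_JLK_of_slope (mltjw_slopeEx hhecke) mltj7_brSS

/-- (JL-K), two levels -/
theorem mltjw_JLKTwo (hhecke : MltjwHeckeAll) : MltjJLKTwo :=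
  mltj_JLKTwo_of_slope (mltjw_slopeTwoEx hhecke) mltj7_brSS

/-- **[L2-JL] at rigid levels** from the Hecke compatibility of the slope map and (G-out) -/
theorem mltjw_rigid (hhecke : MltjwHeckeAll) (hG : MltjGeomOut) : MltL2JLRigid :=
  mltj_JL_rigid mltj7_brSS (mltjw_JLK hhecke) hG

/-- **[L2-JL], the non-rigid case (γ)** from the Hecke compatibility of the slope map and the two-level (G-out) -/
theorem mltjw_two (hhecke : MltjwHeckeAll) (hG2 : MltjGeomOutTwo) : MltL2JLTwo :=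
  mltj_JL_two mltj7_brSS (mltjw_JLKTwo hhecke) hG2

end Fermat.Agent.MLT
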