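/-
MLT / [L2-JL] (helper8): **the slope stream is closed**: the slope map of P6 commutes with the Hecke correspondences
at all rigid levels (`P7/HeckeStar.lean`), hence (`SlopeWire.lean`) the slope maps exist, (JL-K) holds at one and two
levels, and [L2-JL] follows from the geometric outputs (G-out).

* `mltjw_heckeAll : MltjwHeckeAll`  (= `∀ 𝔓 K hK h49, Mltj8HeckeAt 𝔓 K hK h49`);
* `mltjw_slopeEx_main : MltjSlopeEx`, `mltjw_slopeTwoEx_main : MltjSlopeTwoEx`;
* `mltjw_JLK_main : MltjJLK`, `mltjw_JLKTwo_main : MltjJLKTwo`;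
* `mltjw_rigid_main : MltjGeomOut → MltL2JLRigid`, `mltjw_two_main : MltjGeomOutTwo → MltL2JLTwo`.
-/
import Fermat.Agent.Lib.MLT.L2.SlopeWire
import Fermat.Agent.Lib.MLT.L2.P7.HeckeStar

set_option autoImplicit false
set_option linter.unusedSectionVars false
set_option linter.unusedVariables false

namespace Fermat.Agent.MLT

/-- **(S3) at all rigid levels** -/
theorem mltjw_heckeAll : MltjwHeckeAll :=
  fun 𝔓 K _ hK h49 => mltj7t_heckeAt 𝔓 K hK h49 mltj6_lawQ_main mltj8_levelFix mltj8_valRat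

theorem mltjw_slopeEx_main : MltjSlopeEx := mltjw_slopeEx mltjw_heckeAll

theorem mltjw_slopeTwoEx_main : MltjSlopeTwoEx := mltjw_slopeTwoEx mltjw_heckeAll

theorem mltjw_JLK_main : MltjJLK := mltjw_JLK mltjw_heckeAll

theorem mltjw_JLKTwo_main : MltjJLKTwo := mltjw_JLKTwo mltjw_heckeAll

/-- **[L2-JL] at rigid levels** from (G-out) -/
theorem mltjw_rigid_main (hG : MltjGeomOut) : MltL2JLRigid := mltjw_rigid mltjw_heckeAll hG

/-- **[L2-JL], case (γ)** from the two-level (G-out) -/
theorem mltjw_two_main (hG2 : MltjGeomOutTwo) : MltL2JLTwo := mltjw_two mltjw_heckeAll hG2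

end Fermat.Agent.MLT
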